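/-
Shared definitions of the area MF (helper31): Laurent q-expansions, Klein's j, the field of
ratios of modular forms of level Γ₀(N), orders of vanishing on the upper half plane.
-/
import Fermat.Prelude.Def_ModularCurve_JqCoeff
import Fermat.Prelude.Def_ModularCurve_LaurentCoeff
import Mathlib.NumberTheory.ModularForms.QExpansion
import Mathlib.NumberTheory.ModularForms.CongruenceSubgroups
import Mathlib.NumberTheory.ModularForms.NormTrace
import Mathlib.NumberTheory.ModularForms.LevelOne.GradedRing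
import Mathlib.Analysis.Analytic.Order

set_option autoImplicit false

noncomputable section

open UpperHalfPlane ModularForm EisensteinSeries Function
open scoped MatrixGroups Manifold

namespace Fermat.Agent.MF

/-- Modular forms of weight `k` on `Γ₀(N)`. -/
abbrev MForm (N : ℕ) (k : ℤ) := ModularForm (CongruenceSubgroup.Gamma0 N) k

theorem one_mem_strictPeriods_gamma0 (N : ℕ) :
    (1 : ℝ) ∈ ((CongruenceSubgroup.Gamma0 N : Subgroup SL(2, ℤ)) :
      Subgroup (GL (Fin 2) ℝ)).strictPeriods := by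
  simp

/-- Klein's `j` as a function on the upper half plane. -/
def kleinJ (z : ℍ) : ℂ := E₄ z ^ 3 / ModularForm.discriminant z

/-- The Laurent series of `j`. -/
abbrev jC : LaurentSeries ℂ := ModularCurve.jqModC ℂ

/-- The Laurent series of `j(dτ)`. -/
abbrev jdC (d : ℕ) [NeZero d] : LaurentSeries ℂ := ModularCurve.jqNModC ℂ d

/-! ### Functions having a `q`-expansion at infinity -/

/-- `1`-periodic, holomorphic and bounded at infinity. -/
def qFunctions : Subalgebra ℂ (ℍ → ℂ) where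
  carrier := {f | Periodic (f ∘ ofComplex) (1 : ℂ) ∧ MDiff f ∧ IsBoundedAtImInfty f}
  mul_mem' := fun {f g} hf hg => ⟨hf.1.mul hg.1, hf.2.1.mul hg.2.1, hf.2.2.mul hg.2.2⟩
  one_mem' := ⟨fun _ => rfl, mdifferentiable_const, Filter.const_boundedAtFilter _ _⟩
  add_mem' := fun {f g} hf hg => ⟨hf.1.add hg.1, hf.2.1.add hg.2.1, hf.2.2.add hg.2.2⟩
  zero_mem' := ⟨fun _ => rfl, mdifferentiable_const, Filter.const_boundedAtFilter _ _⟩
  algebraMap_mem' := fun c =>
    ⟨fun _ => rfl, mdifferentiable_const, Filter.const_boundedAtFilter _ c⟩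

theorem mem_qFunctions_iff {f : ℍ → ℂ} :
    f ∈ qFunctions ↔ Periodic (f ∘ ofComplex) (1 : ℂ) ∧ MDiff f ∧ IsBoundedAtImInfty f :=
  Iff.rfl

theorem mem_qFunctions_of_form {F : Type*} [FunLike F ℍ ℂ] {Γ : Subgroup (GL (Fin 2) ℝ)}
    {k : ℤ} [ModularFormClass F Γ k] (hΓ : (1 : ℝ) ∈ Γ.strictPeriods) (f : F) :
    (f : ℍ → ℂ) ∈ qFunctions := by
  haveI : Fact (IsCusp OnePoint.infty Γ) :=
    ⟨Γ.isCusp_of_mem_strictPeriods one_pos hΓ⟩
  exact ⟨by simpa using SlashInvariantFormClass.periodic_comp_ofComplex f hΓ,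
    ModularFormClass.holo f, ModularFormClass.bdd_at_infty f⟩

theorem coe_mem_qFunctions {N : ℕ} {k : ℤ} (f : MForm N k) : (f : ℍ → ℂ) ∈ qFunctions :=
  mem_qFunctions_of_form (one_mem_strictPeriods_gamma0 N) f

theorem coe_levelOne_mem_qFunctions {k : ℤ} (f : ModularForm 𝒮ℒ k) : (f : ℍ → ℂ) ∈ qFunctions :=
  mem_qFunctions_of_form one_mem_strictPeriods_SL f

theorem analyticAt_of_mem_qFunctions {f : ℍ → ℂ} (hf : f ∈ qFunctions) :
    AnalyticAt ℂ (cuspFunction 1 f) 0 :=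
  analyticAt_cuspFunction_zero one_pos (by simpa using hf.1) hf.2.1 hf.2.2

/-- The `q`-expansion at infinity of a function, as a Laurent series. -/
def qL (f : ℍ → ℂ) : LaurentSeries ℂ := HahnSeries.ofPowerSeries ℤ ℂ (qExpansion 1 f)

theorem qL_coeff_natCast (f : ℍ → ℂ) (n : ℕ) : (qL f).coeff n = (qExpansion 1 f).coeff n :=
  HahnSeries.ofPowerSeries_apply_coeff _ _

theorem qL_coeff_of_neg (f : ℍ → ℂ) {n : ℤ} (hn : n < 0) : (qL f).coeff n = 0 :=
  ModularCurve.ofPowerSeries_coeff_of_neg _ hn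

theorem qL_zero : qL 0 = 0 := by
  rw [qL, qExpansion_zero, map_zero]

theorem qL_one : qL 1 = 1 := by
  rw [qL, qExpansion_one, map_one]

theorem qL_add {f g : ℍ → ℂ} (hf : f ∈ qFunctions) (hg : g ∈ qFunctions) :
    qL (f + g) = qL f + qL g := by
  rw [qL, qExpansion_add (analyticAt_of_mem_qFunctions hf) (analyticAt_of_mem_qFunctions hg),
    map_add, qL, qL]

theorem qL_mul {f g : ℍ → ℂ} (hf : f ∈ qFunctions) (hg : g ∈ qFunctions) :
    qL (f * g) = qL f * qL g := by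
  rw [qL, qExpansion_mul (analyticAt_of_mem_qFunctions hf) (analyticAt_of_mem_qFunctions hg),
    map_mul, qL, qL]

theorem qL_smul (c : ℂ) {f : ℍ → ℂ} (hf : f ∈ qFunctions) :
    qL (c • f) = algebraMap ℂ (LaurentSeries ℂ) c * qL f := by
  rw [qL, qExpansion_smul (analyticAt_of_mem_qFunctions hf), PowerSeries.smul_eq_C_mul, map_mul,
    HahnSeries.ofPowerSeries_C, ModularCurve.algebraMap_laurentSeries_eq_single]
  rfl

theorem qL_eq_zero_iff {f : ℍ → ℂ} (hf : f ∈ qFunctions) : qL f = 0 ↔ f = 0 := by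
  rw [qL, map_eq_zero_iff _ HahnSeries.ofPowerSeries_injective,
    qExpansion_eq_zero_iff one_pos (by simpa using hf.1) hf.2.1 hf.2.2]

/-- The `q`-expansion as an algebra map. -/
def qLHom : qFunctions →ₐ[ℂ] LaurentSeries ℂ where
  toFun f := qL f
  map_one' := qL_one
  map_mul' f g := qL_mul f.2 g.2
  map_zero' := qL_zero
  map_add' f g := qL_add f.2 g.2
  commutes' c := by
    show qL (algebraMap ℂ (ℍ → ℂ) c) = _
    rw [Algebra.algebraMap_eq_smul_one (A := ℍ → ℂ), qL_smul c qFunctions.one_mem, qL_one,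
      mul_one]

@[simp] theorem qLHom_apply (f : qFunctions) : qLHom f = qL f := rfl

theorem qLHom_injective : Injective qLHom := by
  rw [injective_iff_map_eq_zero]
  intro f hf
  exact Subtype.ext ((qL_eq_zero_iff f.2).mp hf)

theorem qL_inj {f g : ℍ → ℂ} (hf : f ∈ qFunctions) (hg : g ∈ qFunctions) :
    qL f = qL g ↔ f = g :=
  ⟨fun h => congrArg Subtype.val (qLHom_injective (a₁ := ⟨f, hf⟩) (a₂ := ⟨g, hg⟩) h),
    fun h => h ▸ rfl⟩

theorem qFunctions_mul_eq_zero {f g : ℍ → ℂ} (hf : f ∈ qFunctions) (hg : g ∈ qFunctions)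
    (h : f * g = 0) : f = 0 ∨ g = 0 := by
  rw [← qL_eq_zero_iff hf, ← qL_eq_zero_iff hg, ← mul_eq_zero, ← qL_mul hf hg, h, qL_zero]

section Forms

variable {N : ℕ} {k l : ℤ}

theorem qL_mform_eq_zero_iff (f : MForm N k) : qL f = 0 ↔ f = 0 :=
  (qL_eq_zero_iff (coe_mem_qFunctions f)).trans (FunLike.coe_zero_iff _)

theorem qL_mform_mul (f : MForm N k) (g : MForm N l) : qL (f.mul g) = qL f * qL g := by
  rw [ModularForm.coe_mul, qL_mul (coe_mem_qFunctions f) (coe_mem_qFunctions g)]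

theorem qL_mform_add (f g : MForm N k) : qL (f + g : MForm N k) = qL f + qL g := by
  rw [FunLike.coe_add, qL_add (coe_mem_qFunctions f) (coe_mem_qFunctions g)]

theorem qL_mform_smul (c : ℂ) (f : MForm N k) :
    qL (c • f : MForm N k) = algebraMap ℂ (LaurentSeries ℂ) c * qL f := by
  rw [FunLike.coe_smul, qL_smul c (coe_mem_qFunctions f)]

theorem mform_mul_ne_zero {f : MForm N k} {g : MForm N l} (hf : f ≠ 0) (hg : g ≠ 0) :
    f.mul g ≠ 0 :=
  ModularForm.mul_ne_zero ⟨1, one_mem_strictPeriods_gamma0 N, one_pos⟩ hf hg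

end Forms

/-! ### The field of ratios -/

/-- `x` is the expansion of a quotient of two forms of the same weight on `Γ₀(N)`. -/
def IsMFRatio (N : ℕ) (x : LaurentSeries ℂ) : Prop :=
  ∃ (k : ℤ) (f g : MForm N k), g ≠ 0 ∧ x = qL f / qL g

theorem isMFRatio_algebraMap (N : ℕ) (c : ℂ) :
    IsMFRatio N (algebraMap ℂ (LaurentSeries ℂ) c) := by
  refine ⟨0, c • 1, 1, ?_, ?_⟩
  · intro h
    simpa [ModularForm.one_coe_eq_one] using congrArg (fun f : MForm N 0 => f UpperHalfPlane.I) h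
  · rw [qL_mform_smul, ModularForm.one_coe_eq_one, qL_one, mul_one, div_one]

/-- The field of weight zero ratios of modular forms on `Γ₀(N)`, inside `ℂ((q))`. -/
def MFField (N : ℕ) : IntermediateField ℂ (LaurentSeries ℂ) where
  carrier := {x | IsMFRatio N x}
  one_mem' := by simpa using isMFRatio_algebraMap N 1
  zero_mem' := by simpa using isMFRatio_algebraMap N 0
  algebraMap_mem' := isMFRatio_algebraMap N
  mul_mem' := by
    rintro x y ⟨k, f, g, hg, rfl⟩ ⟨l, f', g', hg', rfl⟩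
    refine ⟨k + l, f.mul f', g.mul g', mform_mul_ne_zero hg hg', ?_⟩
    rw [qL_mform_mul, qL_mform_mul, div_mul_div_comm]
  add_mem' := by
    rintro x y ⟨k, f, g, hg, rfl⟩ ⟨l, f', g', hg', rfl⟩
    refine ⟨k + l, f.mul g' + g.mul f', g.mul g', mform_mul_ne_zero hg hg', ?_⟩
    rw [qL_mform_add, qL_mform_mul, qL_mform_mul, qL_mform_mul,
      div_add_div _ _ (mt (qL_mform_eq_zero_iff g).mp hg) (mt (qL_mform_eq_zero_iff g').mp hg')]
  inv_mem' := by
    rintro x ⟨k, f, g, hg, rfl⟩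
    rcases eq_or_ne f 0 with rfl | hf
    · simpa [qL_zero] using isMFRatio_algebraMap N 0
    · exact ⟨k, g, f, hf, by rw [inv_div]⟩

theorem mem_MFField_iff {N : ℕ} {x : LaurentSeries ℂ} :
    x ∈ MFField N ↔ ∃ (k : ℤ) (f g : MForm N k), g ≠ 0 ∧ x = qL f / qL g :=
  Iff.rfl

theorem div_mem_MFField {N : ℕ} {k : ℤ} (f g : MForm N k) : qL f / qL g ∈ MFField N := by
  rcases eq_or_ne g 0 with rfl | hg
  · simp [qL_zero]
  · exact ⟨k, f, g, hg, rfl⟩

/-- Two representations of the same ratio agree as functions. -/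
theorem ratio_cross_eq {N : ℕ} {k l : ℤ} {f g : MForm N k} {f' g' : MForm N l}
    (hg : g ≠ 0) (hg' : g' ≠ 0) (h : qL f / qL g = qL f' / qL g') (τ : ℍ) :
    f τ * g' τ = f' τ * g τ := by
  rw [div_eq_div_iff (mt (qL_mform_eq_zero_iff g).mp hg) (mt (qL_mform_eq_zero_iff g').mp hg'),
    ← qL_mul (coe_mem_qFunctions f) (coe_mem_qFunctions g'),
    ← qL_mul (coe_mem_qFunctions f') (coe_mem_qFunctions g),
    qL_inj (mul_mem (coe_mem_qFunctions f) (coe_mem_qFunctions g'))
      (mul_mem (coe_mem_qFunctions f') (coe_mem_qFunctions g))] at h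
  exact congrFun h τ

/-! ### Order of vanishing at points of the upper half plane -/

/-- Order of vanishing of `f` at `τ` (`0` for junk). -/
def ordAtH (f : ℍ → ℂ) (τ : ℍ) : ℤ := (analyticOrderNatAt (f ∘ ofComplex) (τ : ℂ) : ℤ)

theorem analyticAt_ofComplex_comp {f : ℍ → ℂ} (hf : MDiff f) (τ : ℍ) :
    AnalyticAt ℂ (f ∘ ofComplex) (τ : ℂ) :=
  (UpperHalfPlane.mdifferentiable_iff.mp hf).analyticAt
    (isOpen_upperHalfPlaneSet.mem_nhds τ.im_pos)

theorem analyticOrderAt_ne_top {f : ℍ → ℂ} (hf : MDiff f) (hf0 : f ≠ 0) (τ : ℍ) :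
    analyticOrderAt (f ∘ ofComplex) (τ : ℂ) ≠ ⊤ := by
  intro htop
  apply hf0
  have han : AnalyticOnNhd ℂ (f ∘ ofComplex) upperHalfPlaneSet := fun z hz =>
    analyticAt_ofComplex_comp hf ⟨z, hz⟩
  have hc : IsPreconnected upperHalfPlaneSet :=
    (convex_halfSpace_im_gt 0).isPreconnected
  have hev := analyticOrderAt_eq_top.mp htop
  have := han.eqOn_zero_of_preconnected_of_eventuallyEq_zero hc τ.im_pos hev
  funext z
  simpa using this z.im_pos

theorem ordAtH_mul {f g : ℍ → ℂ} (hf : MDiff f) (hg : MDiff g) (hf0 : f ≠ 0) (hg0 : g ≠ 0)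
    (τ : ℍ) : ordAtH (f * g) τ = ordAtH f τ + ordAtH g τ := by
  simp only [ordAtH]
  rw [show (f * g) ∘ ofComplex = (f ∘ ofComplex) * (g ∘ ofComplex) from rfl,
    analyticOrderNatAt_mul (analyticAt_ofComplex_comp hf τ) (analyticAt_ofComplex_comp hg τ)
      (analyticOrderAt_ne_top hf hf0 τ) (analyticOrderAt_ne_top hg hg0 τ)]
  push_cast
  rfl

open Classical in
/-- Order at `τ` of a ratio of modular forms. -/
def mfOrdAt (N : ℕ) (x : LaurentSeries ℂ) (τ : ℍ) : ℤ :=
  if h : IsMFRatio N x then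
    ordAtH h.choose_spec.choose τ - ordAtH h.choose_spec.choose_spec.choose τ
  else 0

theorem mform_coe_ne_zero {N : ℕ} {k : ℤ} {f : MForm N k} (hf : f ≠ 0) : (f : ℍ → ℂ) ≠ 0 :=
  mt (FunLike.coe_zero_iff f).mp hf

theorem ordAtH_ratio_congr {N : ℕ} {k l : ℤ} {f g : MForm N k} {f' g' : MForm N l}
    (hf : f ≠ 0) (hg : g ≠ 0) (hg' : g' ≠ 0) (hx : qL f / qL g = qL f' / qL g') (τ : ℍ) :
    ordAtH f τ - ordAtH g τ = ordAtH f' τ - ordAtH g' τ := by
  have hf' : f' ≠ 0 := by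
    intro h0
    rw [h0, FunLike.coe_zero, qL_zero, zero_div, div_eq_zero_iff, qL_mform_eq_zero_iff,
      qL_mform_eq_zero_iff] at hx
    exact hx.elim hf hg
  have hcross : (f : ℍ → ℂ) * g' = (f' : ℍ → ℂ) * g := funext (ratio_cross_eq hg hg' hx)
  have h1 := ordAtH_mul (ModularFormClass.holo f) (ModularFormClass.holo g') (mform_coe_ne_zero hf)
    (mform_coe_ne_zero hg') τ
  have h2 := ordAtH_mul (ModularFormClass.holo f') (ModularFormClass.holo g) (mform_coe_ne_zero hf')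
    (mform_coe_ne_zero hg) τ
  rw [hcross] at h1
  omega

theorem mfOrdAt_eq {N : ℕ} {k : ℤ} {f g : MForm N k} (hf : f ≠ 0) (hg : g ≠ 0) (τ : ℍ) :
    mfOrdAt N (qL f / qL g) τ = ordAtH f τ - ordAtH g τ := by
  classical
  have h : IsMFRatio N (qL f / qL g) := ⟨k, f, g, hg, rfl⟩
  rw [mfOrdAt, dif_pos h]
  exact (ordAtH_ratio_congr hf hg h.choose_spec.choose_spec.choose_spec.1
    h.choose_spec.choose_spec.choose_spec.2 τ).symm

end Fermat.Agent.MF
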