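/-
Degeneracy maps between spaces of modular forms on `Γ₀` and their effect on `q`-expansions.
-/
import Fermat.Agent.MF.Defs
import Fermat.Prelude.Def_ModularForm_HeckeOperator

set_option autoImplicit false

noncomputable section

open UpperHalfPlane ModularForm Function CongruenceSubgroup Matrix.SpecialLinearGroup
open scoped MatrixGroups Manifold Pointwise

namespace Fermat.Agent.MF

/-- The map `τ ↦ d τ` on the upper half plane. -/
def scaleH (d : ℕ) (τ : ℍ) : ℍ := heckeDiagMatrix d • τ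

theorem coe_scaleH (d : ℕ) [NeZero d] (τ : ℍ) : (scaleH d τ : ℂ) = (d : ℂ) * τ :=
  coe_heckeDiagMatrix_smul (NeZero.ne d) τ

theorem scaleH_one (τ : ℍ) : scaleH 1 τ = τ := by
  ext
  simp [coe_scaleH]

theorem slash_heckeDiag (d : ℕ) [NeZero d] (k : ℤ) (f : ℍ → ℂ) :
    f ∣[k] heckeDiagMatrix d = ((d : ℂ) ^ (k - 1)) • (f ∘ scaleH d) := by
  funext τ
  rw [ModularForm.slash_apply, σ_heckeDiagMatrix, denom_heckeDiagMatrix (NeZero.ne d),
    det_heckeDiagMatrix (NeZero.ne d)]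
  simp [scaleH, mul_comm]

theorem comp_scaleH_eq (d : ℕ) [NeZero d] (k : ℤ) (f : ℍ → ℂ) :
    f ∘ scaleH d = ((d : ℂ) ^ (k - 1))⁻¹ • (f ∣[k] heckeDiagMatrix d) := by
  rw [slash_heckeDiag, smul_smul, inv_mul_cancel₀ (zpow_ne_zero _ (by exact_mod_cast NeZero.ne d)),
    one_smul]

theorem exists_gamma0_mul_heckeDiag {M d N : ℕ} [NeZero d] (h : M * d ∣ N) {γ : SL(2, ℤ)}
    (hγ : γ ∈ Gamma0 N) :
    ∃ γ' : SL(2, ℤ), γ' ∈ Gamma0 M ∧
      heckeDiagMatrix d * mapGL ℝ γ = mapGL ℝ γ' * heckeDiagMatrix d := by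
  have hN : ((N : ℤ)) ∣ γ 1 0 := (ZMod.intCast_zmod_eq_zero_iff_dvd _ _).mp (Gamma0_mem.mp hγ)
  obtain ⟨c, hc⟩ := (show ((M * d : ℕ) : ℤ) ∣ γ 1 0 from (by exact_mod_cast h : _ ∣ (N : ℤ)).trans hN)
  push_cast at hc
  let A : Matrix (Fin 2) (Fin 2) ℤ := !![γ 0 0, d * γ 0 1; M * c, γ 1 1]
  have hdet : A.det = 1 := by
    have := γ.2
    rw [Matrix.det_fin_two] at this
    rw [Matrix.det_fin_two_of]
    linear_combination this + γ 0 1 * hc
  let γ' : SL(2, ℤ) := ⟨A, hdet⟩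
  refine ⟨γ', ?_, ?_⟩
  · refine Gamma0_mem.mpr ?_
    show ((A 1 0 : ℤ) : ZMod M) = 0
    simp [A]
  · apply Units.ext
    rw [Units.val_mul, Units.val_mul, val_heckeDiagMatrix (NeZero.ne d)]
    show _ * (γ : Matrix (Fin 2) (Fin 2) ℤ).map (Int.castRingHom ℝ) =
      A.map (Int.castRingHom ℝ) * _
    ext i j
    fin_cases i <;> fin_cases j <;> simp [A, Matrix.mul_apply, Fin.sum_univ_two, hc] <;> ring

theorem mem_qFunctions_comp_scaleH {f : ℍ → ℂ} (hf : f ∈ qFunctions) (d : ℕ) [NeZero d] :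
    f ∘ scaleH d ∈ qFunctions := by
  refine ⟨fun w => ?_, ?_, ?_⟩
  · by_cases hw : 0 < w.im
    · have h1 : 0 < (w + 1).im := by simpa using hw
      have hd : (0 : ℝ) < d := by exact_mod_cast Nat.pos_of_ne_zero (NeZero.ne d)
      have key := (hf.1.nat_mul d) ((d : ℂ) * w)
      simp only [comp_apply, mul_one] at key ⊢
      rw [ofComplex_apply_of_im_pos (by simpa using mul_pos hd hw),
        ofComplex_apply_of_im_pos (by simpa using mul_pos hd hw)] at key
      rw [ofComplex_apply_of_im_pos h1, ofComplex_apply_of_im_pos hw]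
      refine Eq.trans (congrArg f ?_) (key.trans (congrArg f ?_)) <;>
        · ext; simp [coe_scaleH, mul_add]
    · have h1 : ¬ 0 < (w + 1).im := by simpa using hw
      simp [ofComplex_apply_of_im_nonpos (not_lt.mp hw), ofComplex_apply_of_im_nonpos (not_lt.mp h1)]
  · have h0 : MDiff ((f : ℍ → ℂ) ∣[(0 : ℤ)] heckeDiagMatrix d) := hf.2.1.slash 0 _
    rw [comp_scaleH_eq d 0]
    exact h0.const_smul _
  · exact hf.2.2.comp_tendsto (tendsto_smul_atImInfty (g := heckeDiagMatrix d)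
      (by simp [val_heckeDiagMatrix (NeZero.ne d)]))

/-- Substituting `dτ` for `τ` is `q ↦ q ^ d` on expansions. -/
theorem qL_comp_scaleH {f : ℍ → ℂ} (hf : f ∈ qFunctions) (d : ℕ) [NeZero d] :
    qL (f ∘ scaleH d) = ModularCurve.qExpand ℂ d (qL f) := by
  classical
  have hd : d ≠ 0 := NeZero.ne d
  let c : ℕ → ℂ := fun m => if d ∣ m then (qExpansion 1 f).coeff (m / d) else 0
  have hsum : ∀ τ : ℍ, HasSum (fun m => c m • Periodic.qParam 1 τ ^ m) ((f ∘ scaleH d) τ) := by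
    intro τ
    have h := hasSum_qExpansion one_pos (by simpa using hf.1) hf.2.1 hf.2.2 (scaleH d τ)
    have hq : Periodic.qParam 1 (scaleH d τ : ℂ) = Periodic.qParam 1 (τ : ℂ) ^ d := by
      simp only [Periodic.qParam, ← Complex.exp_nat_mul, coe_scaleH]
      congr 1
      push_cast
      ring
    simp only [hq, ← pow_mul] at h
    refine ((mul_right_injective₀ hd).hasSum_iff ?_).mp ?_
    · intro m hm
      have : ¬ d ∣ m := fun ⟨n, hn⟩ => hm ⟨n, hn.symm⟩
      simp [c, this]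
    · simpa [c, Function.comp_def, Nat.mul_div_cancel_left _ (Nat.pos_of_ne_zero hd)] using h
  have hg := mem_qFunctions_comp_scaleH hf d
  have hcoeff : ∀ m, c m = (qExpansion 1 (f ∘ scaleH d)).coeff m := by
    intro m
    have h1 := (hasFPowerSeriesOnBall_cuspFunction one_pos (analyticAt_of_mem_qFunctions hg)
      hsum).hasFPowerSeriesAt
    have h2 := (hasFPowerSeriesOnBall_cuspFunction one_pos (analyticAt_of_mem_qFunctions hg)
      (hasSum_qExpansion one_pos (by simpa using hg.1) hg.2.1 hg.2.2)).hasFPowerSeriesAt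
    simpa using congr_arg (fun p => FormalMultilinearSeries.coeff p m)
      (h1.eq_formalMultilinearSeries h2)
  ext n
  rcases lt_or_ge n 0 with hn | hn
  · rw [qL_coeff_of_neg _ hn]
    by_cases hdn : (d : ℤ) ∣ n
    · obtain ⟨k, rfl⟩ := hdn
      rw [ModularCurve.qExpand_coeff_mul, qL_coeff_of_neg]
      by_contra hk
      exact absurd hn (not_lt.mpr (mul_nonneg (Int.natCast_nonneg d) (not_lt.mp hk)))
    · rw [ModularCurve.qExpand_coeff_of_not_dvd _ _ hdn]
  · lift n to ℕ using hn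
    rw [qL_coeff_natCast, ← hcoeff]
    by_cases hdn : d ∣ n
    · obtain ⟨k, rfl⟩ := hdn
      rw [Nat.cast_mul, ModularCurve.qExpand_coeff_mul, qL_coeff_natCast]
      simp [c, Nat.mul_div_cancel_left _ (Nat.pos_of_ne_zero hd)]
    · rw [ModularCurve.qExpand_coeff_of_not_dvd _ _ (by exact_mod_cast hdn)]
      simp [c, hdn]

variable {k : ℤ}

/-- `f(τ) ↦ f(dτ)` from level `M` to level `N`, when `M * d ∣ N`. -/
def rescale {M N : ℕ} [NeZero M] [NeZero N] (d : ℕ) [NeZero d] (h : M * d ∣ N) (f : MForm M k) :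
    MForm N k where
  toFun := f ∘ scaleH d
  slash_action_eq' := by
    rintro _ ⟨γ, hγ, rfl⟩
    obtain ⟨γ', hγ', heq⟩ := exists_gamma0_mul_heckeDiag h hγ
    rw [comp_scaleH_eq d k, ModularForm.smul_slash, ← SlashAction.slash_mul, heq,
      SlashAction.slash_mul, SlashInvariantFormClass.slash_action_eq f _ (Subgroup.mem_map_of_mem _ hγ')]
    simp [UpperHalfPlane.σ]
  holo' := (mem_qFunctions_comp_scaleH (coe_mem_qFunctions f) d).2.1
  bdd_at_cusps' := by
    intro c hc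
    rw [comp_scaleH_eq d k]
    let g₀ : GL (Fin 2) ℚ := Matrix.GeneralLinearGroup.mkOfDetNeZero !![(d : ℚ), 0; 0, 1]
      (by simp [Matrix.det_fin_two_of, NeZero.ne d])
    have hg : g₀.map (Rat.castHom ℝ) = heckeDiagMatrix d := by
      ext i j
      fin_cases i <;> fin_cases j <;> simp [g₀, val_heckeDiagMatrix (NeZero.ne d)]
    haveI : (ConjAct.toConjAct (heckeDiagMatrix d)⁻¹ •
        ((Gamma0 M : Subgroup SL(2, ℤ)) : Subgroup (GL (Fin 2) ℝ))).IsArithmetic := by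
      have := Subgroup.IsArithmetic.conj
        ((Gamma0 M : Subgroup SL(2, ℤ)) : Subgroup (GL (Fin 2) ℝ)) g₀⁻¹
      rwa [map_inv, hg] at this
    rw [Subgroup.IsArithmetic.isCusp_iff_isCusp_SL2Z] at hc
    have hb := ModularFormClass.bdd_at_cusps (ModularForm.translate f (heckeDiagMatrix d))
      ((Subgroup.IsArithmetic.isCusp_iff_isCusp_SL2Z _).mpr hc)
    intro g hgc
    rw [ModularForm.smul_slash]
    exact (hb g hgc).smul _

@[simp] theorem coe_rescale {M N : ℕ} [NeZero M] [NeZero N] (d : ℕ) [NeZero d] (h : M * d ∣ N)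
    (f : MForm M k) : (rescale d h f : ℍ → ℂ) = f ∘ scaleH d := rfl

theorem qL_rescale {M N : ℕ} [NeZero M] [NeZero N] (d : ℕ) [NeZero d] (h : M * d ∣ N)
    (f : MForm M k) : qL (rescale d h f) = ModularCurve.qExpand ℂ d (qL f) :=
  qL_comp_scaleH (coe_mem_qFunctions f) d

/-- A level one form as a form on `Γ₀(N)`. -/
def ofLevelOne (N : ℕ) (f : ModularForm 𝒮ℒ k) : MForm N k where
  toFun := f
  slash_action_eq' := by
    rintro _ ⟨γ, -, rfl⟩
    exact SlashInvariantFormClass.slash_action_eq f _ ⟨γ, rfl⟩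
  holo' := ModularFormClass.holo f
  bdd_at_cusps' := fun hc => ModularFormClass.bdd_at_cusps f
    (hc.mono (by rintro _ ⟨γ, -, rfl⟩; exact ⟨γ, rfl⟩))

@[simp] theorem coe_ofLevelOne (N : ℕ) (f : ModularForm 𝒮ℒ k) :
    (ofLevelOne N f : ℍ → ℂ) = f := rfl

theorem ofLevelOne_eq_zero_iff (N : ℕ) (f : ModularForm 𝒮ℒ k) :
    ofLevelOne N f = 0 ↔ f = 0 := by
  simp [← FunLike.coe_zero_iff]

/-- A level one form evaluated at `dτ`, as a form on `Γ₀(N)`, for `d ∣ N`. -/
def levelOneScaled {N : ℕ} [NeZero N] (d : ℕ) [NeZero d] (h : d ∣ N) (f : ModularForm 𝒮ℒ k) :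
    MForm N k :=
  rescale d (by simpa using h) (ofLevelOne 1 f)

@[simp] theorem coe_levelOneScaled {N : ℕ} [NeZero N] (d : ℕ) [NeZero d] (h : d ∣ N)
    (f : ModularForm 𝒮ℒ k) : (levelOneScaled d h f : ℍ → ℂ) = f ∘ scaleH d := rfl

theorem qL_levelOneScaled {N : ℕ} [NeZero N] (d : ℕ) [NeZero d] (h : d ∣ N)
    (f : ModularForm 𝒮ℒ k) : qL (levelOneScaled d h f) = ModularCurve.qExpand ℂ d (qL f) :=
  qL_comp_scaleH (coe_levelOne_mem_qFunctions f) d

end Fermat.Agent.MF
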