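import Fermat.Agent.MF.QFun
import Fermat.Agent.MF.Degeneracy
import Mathlib.NumberTheory.ModularForms.Discriminant
import Mathlib.NumberTheory.ModularForms.EisensteinSeries.QExpansion
import Mathlib.NumberTheory.ModularForms.LevelOne.DimensionFormula
import Fermat.Prelude.Def_ModularCurve_JqCoeff
import Fermat.Prelude.Def_ModularCurve_LaurentCoeff
import Fermat.Prelude.Thm_ModularCurve_coeffMap_qExpand

/-!
# q-expansions of E4, E6, the discriminant and j
-/

noncomputable section

open UpperHalfPlane Function Filter ModularForm EisensteinSeries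
open scoped Manifold Topology MatrixGroups PowerSeries.WithPiTopology ArithmeticFunction.sigma

namespace Fermat.Agent.MF

local notation "𝕢" => Periodic.qParam
local notation "castC" => Int.castRingHom ℂ

lemma mem_qFunctions_E4 : ⇑E₄ ∈ qFunctions := coe_levelOne_mem_qFunctions E₄

lemma mem_qFunctions_E6 : ⇑E₆ ∈ qFunctions := coe_levelOne_mem_qFunctions E₆

lemma mem_qFunctions_discriminant : discriminant ∈ qFunctions := by
  simpa using mem_qFunctions_of_form one_mem_strictPeriods_SL CuspForm.discriminant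

/-- Integral q-expansion of E6. -/
def eisenstein6 : PowerSeries ℤ :=
  PowerSeries.mk fun n => if n = 0 then 1 else -504 * ∑ d ∈ n.divisors, (d : ℤ) ^ 5

@[simp]
lemma constantCoeff_eisenstein6 : PowerSeries.constantCoeff eisenstein6 = 1 := by
  rw [← PowerSeries.coeff_zero_eq_constantCoeff]
  simp [eisenstein6]

lemma qExpansion_E4 : qExpansion 1 ⇑E₄ = ModularCurve.eisenstein4.map castC := by
  ext n
  rw [E_qExpansion_coeff _ ⟨2, rfl⟩, PowerSeries.coeff_map, ModularCurve.eisenstein4,
    PowerSeries.coeff_mk]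
  rcases eq_or_ne n 0 with rfl | hn
  · simp
  · simp [hn, ArithmeticFunction.sigma_apply, show bernoulli 4 = -1 / 30 by decide +kernel]
    norm_num

lemma qExpansion_E6 : qExpansion 1 ⇑E₆ = eisenstein6.map castC := by
  ext n
  rw [E_qExpansion_coeff _ ⟨3, rfl⟩, PowerSeries.coeff_map, eisenstein6, PowerSeries.coeff_mk]
  rcases eq_or_ne n 0 with rfl | hn
  · simp
  · simp [hn, ArithmeticFunction.sigma_apply, show bernoulli 6 = 1 / 42 by decide +kernel]
    norm_num

/-- The infinite product `∏ (1 - q^(n+1))` as a function of q. -/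
def etaProdFun (q : ℂ) : ℂ := ∏' n : ℕ, (1 - q ^ (n + 1))

lemma iteratedDeriv_eval (p : Polynomial ℂ) (n : ℕ) :
    iteratedDeriv n (fun q => p.eval q) 0 = (n.factorial : ℂ) * p.coeff n := by
  have h : ∀ (n : ℕ) (p : Polynomial ℂ), iteratedDeriv n (fun q => p.eval q)
      = fun q => ((Polynomial.derivative)^[n] p).eval q := by
    intro n
    induction n with
    | zero => simp
    | succ n ih =>
      intro p
      rw [iteratedDeriv_succ', show deriv (fun q => p.eval q) = fun q => p.derivative.eval q from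
        funext fun q => p.deriv, ih, iterate_succ_apply]
  rw [h]
  simp only [← Polynomial.coeff_zero_eq_eval_zero, Polynomial.coeff_iterate_derivative, zero_add,
    Nat.descFactorial_self, nsmul_eq_mul]

lemma tendsto_iteratedDeriv_etaProd (n : ℕ) :
    TendstoLocallyUniformlyOn
      (fun s : Finset ℕ => iteratedDeriv n fun q => ∏ i ∈ s, (1 - q ^ (i + 1)))
      (iteratedDeriv n etaProdFun) atTop (Metric.ball 0 1) := by
  induction n with
  | zero =>
    simp only [iteratedDeriv_zero]
    exact multipliableLocallyUniformlyOn_one_sub_pow.hasProdLocallyUniformlyOn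
  | succ n ih =>
    have hd : ∀ᶠ s : Finset ℕ in atTop, DifferentiableOn ℂ
        (iteratedDeriv n fun q => ∏ i ∈ s, (1 - q ^ (i + 1))) (Metric.ball (0 : ℂ) 1) := by
      refine .of_forall fun s => Differentiable.differentiableOn ?_
      refine ContDiff.differentiable_iteratedDeriv (m := n) (n := ⊤) ?_ ?_
      · exact contDiff_prod fun i _ => contDiff_const.sub (contDiff_id.pow _)
      · exact WithTop.coe_lt_top _
    simpa [iteratedDeriv_succ, comp_def] using ih.deriv hd Metric.isOpen_ball

lemma coeff_etaProd (n : ℕ) :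
    (n.factorial : ℂ)⁻¹ * iteratedDeriv n etaProdFun 0
      = ((PowerSeries.coeff n ModularCurve.etaProd : ℤ) : ℂ) := by
  have h1 : Tendsto
      (fun s : Finset ℕ => (n.factorial : ℂ)⁻¹ *
        iteratedDeriv n (fun q : ℂ => ∏ i ∈ s, (1 - q ^ (i + 1))) 0) atTop
      (𝓝 ((n.factorial : ℂ)⁻¹ * iteratedDeriv n etaProdFun 0)) :=
    ((tendsto_iteratedDeriv_etaProd n).tendsto_at (Metric.mem_ball_self one_pos)).const_mul _
  have h2 : Tendsto
      (fun s : Finset ℕ => ((PowerSeries.coeff n
        (∏ i ∈ s, (1 - PowerSeries.X ^ (i + 1) : PowerSeries ℤ)) : ℤ) : ℂ)) atTop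
      (𝓝 ((PowerSeries.coeff n ModularCurve.etaProd : ℤ) : ℂ)) := by
    have h := (PowerSeries.WithPiTopology.tendsto_iff_coeff_tendsto ℤ _ _ _).mp
      (PowerSeries.WithPiTopology.multipliable_one_sub_X_pow ℤ).hasProd n
    exact (continuous_of_discreteTopology (f := fun z : ℤ => (z : ℂ))).continuousAt.tendsto.comp h
  refine tendsto_nhds_unique (h1.congr fun s => ?_) h2
  set p : Polynomial ℂ := ∏ i ∈ s, (1 - Polynomial.X ^ (i + 1)) with hp
  have h3 : (fun q : ℂ => ∏ i ∈ s, (1 - q ^ (i + 1))) = fun q => p.eval q := by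
    simp [hp, Polynomial.eval_prod]
  have h4 : (p : PowerSeries ℂ)
      = (∏ i ∈ s, (1 - PowerSeries.X ^ (i + 1) : PowerSeries ℤ)).map castC := by
    rw [hp, ← Polynomial.coeToPowerSeries.ringHom_apply, map_prod, map_prod]
    refine Finset.prod_congr rfl fun i _ => ?_
    simp
  rw [h3, iteratedDeriv_eval, ← Polynomial.coeff_coe, h4, PowerSeries.coeff_map,
    inv_mul_cancel_left₀ (by exact_mod_cast n.factorial_ne_zero)]
  rfl

lemma differentiableOn_etaProdFun : DifferentiableOn ℂ etaProdFun (Metric.ball 0 1) :=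
  differentiableOn_tprod_one_sub_pow

/-- `τ ↦ ∏ (1 - q^(n+1))`. -/
def etaProdUHP : ℍ → ℂ := fun τ => etaProdFun (𝕢 1 τ)

lemma mem_qFunctions_etaProdUHP : etaProdUHP ∈ qFunctions :=
  mem_qFunctions_of_disc differentiableOn_etaProdFun fun _ => rfl

lemma qExpansion_etaProdUHP : qExpansion 1 etaProdUHP = ModularCurve.etaProd.map castC := by
  rw [qExpansion_of_disc (f := etaProdUHP) differentiableOn_etaProdFun fun _ => rfl]
  ext n
  rw [PowerSeries.coeff_mk, PowerSeries.coeff_map, coeff_etaProd]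
  rfl

/-- `τ ↦ q`. -/
def qUHP : ℍ → ℂ := fun τ => 𝕢 1 τ

lemma mem_qFunctions_qUHP : qUHP ∈ qFunctions :=
  mem_qFunctions_of_disc (F := id) differentiableOn_id fun _ => rfl

lemma qExpansion_qUHP : qExpansion 1 qUHP = PowerSeries.X := by
  rw [qExpansion_eq_of_hasSum mem_qFunctions_qUHP (c := fun n => if n = 1 then 1 else 0) fun τ => ?_]
  · ext n; simp [PowerSeries.coeff_X]
  · refine (hasSum_ite_eq (1 : ℕ) (𝕢 1 (τ : ℂ))).congr_fun fun n => ?_
    rcases eq_or_ne n 1 with rfl | hn <;> simp [*]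

lemma discriminant_eq_q_mul : discriminant = qUHP * etaProdUHP ^ 24 := by
  funext τ
  rw [discriminant_eq_q_prod, Pi.mul_apply, Pi.pow_apply, etaProdUHP, etaProdFun, qUHP,
    Multipliable.tprod_pow (multipliable_one_sub_pow (norm_q_lt_one τ))]

lemma qExpansion_discriminant :
    qExpansion 1 discriminant
      = PowerSeries.X * ModularCurve.dedekindEtaUnit.map castC := by
  rw [discriminant_eq_q_mul,
    qExpansion_mul (analyticAt_of_mem_qFunctions mem_qFunctions_qUHP) (analyticAt_of_mem_qFunctions (pow_mem mem_qFunctions_etaProdUHP 24)),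
    qExpansion_pow_of_mem_qFunctions mem_qFunctions_etaProdUHP, qExpansion_qUHP, qExpansion_etaProdUHP,
    ModularCurve.dedekindEtaUnit, map_pow]

private lemma kleinJ_mul_discriminant_fun : kleinJ * discriminant = (⇑E₄) ^ 3 := by
  funext τ
  simp [kleinJ, div_mul_cancel₀ _ (discriminant_ne_zero τ)]

lemma coeffEmb_jq : ModularCurve.coeffEmb ℂ ModularCurve.jq = ModularCurve.jqModC ℂ := by
  rw [← ModularCurve.jqModC_rat, ← ModularCurve.map_jqModC (algebraMap ℚ ℂ)]
  rfl

lemma qL_discriminant :
    qL discriminant = HahnSeries.single (1 : ℤ) 1 *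
      HahnSeries.ofPowerSeries ℤ ℂ (ModularCurve.dedekindEtaUnit.map castC) := by
  rw [qL, qExpansion_discriminant, map_mul, HahnSeries.ofPowerSeries_X]

lemma qL_discriminant_ne_zero : qL discriminant ≠ 0 := by
  rw [Ne, qL_eq_zero_iff mem_qFunctions_discriminant]
  exact fun h => discriminant_ne_zero UpperHalfPlane.I (congrFun h _)

lemma qL_E4_cube :
    qL ((⇑E₄) ^ 3)
      = HahnSeries.ofPowerSeries ℤ ℂ ((ModularCurve.eisenstein4 ^ 3).map castC) := by
  rw [qL, qExpansion_pow_of_mem_qFunctions mem_qFunctions_E4, qExpansion_E4, map_pow (PowerSeries.map castC)]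

lemma jqModC_mul_discriminant :
    ModularCurve.jqModC ℂ * qL discriminant = qL ((⇑E₄) ^ 3) := by
  rw [qL_discriminant, qL_E4_cube, ModularCurve.jqModC, mul_mul_mul_comm,
    HahnSeries.single_mul_single, ← map_mul (HahnSeries.ofPowerSeries ℤ ℂ),
    ← map_mul (PowerSeries.map castC), ModularCurve.jNum, mul_assoc,
    mul_comm ModularCurve.dedekindEtaUnitInv, ModularCurve.dedekindEtaUnit_mul_inv, mul_one]
  simp

lemma jqModC_eq_div :
    ModularCurve.jqModC ℂ = qL ((⇑E₄) ^ 3) / qL discriminant := by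
  rw [eq_div_iff qL_discriminant_ne_zero, jqModC_mul_discriminant]

lemma jC_mul_discriminant : jC * qL discriminant = qL ((⇑E₄) ^ 3) := jqModC_mul_discriminant

lemma jdC_mul_discriminant (d : ℕ) [NeZero d] :
    jdC d * qL (discriminant ∘ scaleH d) = qL (((⇑E₄) ^ 3) ∘ scaleH d) := by
  rw [qL_comp_scaleH mem_qFunctions_discriminant, qL_comp_scaleH (pow_mem mem_qFunctions_E4 3),
    jdC, ModularCurve.jqNModC, ← map_mul, jqModC_mul_discriminant]

lemma jdC_eq_div (d : ℕ) [NeZero d] :
    jdC d = qL (((⇑E₄) ^ 3) ∘ scaleH d) / qL (discriminant ∘ scaleH d) := by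
  rw [eq_div_iff, jdC_mul_discriminant]
  rw [qL_comp_scaleH mem_qFunctions_discriminant]
  exact fun h => qL_discriminant_ne_zero (ModularCurve.qExpand_injective d (h.trans (map_zero _).symm))

lemma coeffEmb_qExpand_jq (d : ℕ) [NeZero d] :
    ModularCurve.coeffEmb ℂ (ModularCurve.qExpand ℚ d ModularCurve.jq)
      = ModularCurve.qExpand ℂ d (ModularCurve.jqModC ℂ) := by
  rw [← coeffEmb_jq, ModularCurve.coeffEmb]
  exact ModularCurve.coeffMap_qExpand _ d _

/-- `j` times q is given by the integral series `jNum`. -/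
lemma hasSum_kleinJ (τ : ℍ) :
    HasSum (fun n : ℕ => ((PowerSeries.coeff n ModularCurve.jNum : ℤ) : ℂ) * 𝕢 1 τ ^ n)
      (kleinJ τ * 𝕢 1 τ) := by
  set g : ℍ → ℂ := fun τ => kleinJ τ * 𝕢 1 τ
  set F : ℂ → ℂ := fun q => cuspFunction 1 ((⇑E₄) ^ 3) q / etaProdFun q ^ 24 with hF
  have hne : ∀ q ∈ Metric.ball (0 : ℂ) 1, etaProdFun q ^ 24 ≠ 0 := by
    intro q hq
    refine pow_ne_zero _ ?_
    refine tprod_one_add_ne_zero_of_summable (f := fun n => -q ^ (n + 1)) (fun i => ?_) ?_
    · rw [← sub_eq_add_neg, sub_ne_zero]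
      intro h
      have : ‖q ^ (i + 1)‖ < 1 := by
        rw [norm_pow]; exact pow_lt_one₀ (norm_nonneg q) (by simpa using hq) (by simp)
      simp [← h] at this
    · simpa [summable_nat_add_iff] using
        summable_geometric_of_lt_one (norm_nonneg q) (by simpa using hq)
  have hd : DifferentiableOn ℂ F (Metric.ball 0 1) :=
    (differentiableOn_cuspFunction_of_mem_qFunctions (pow_mem mem_qFunctions_E4 3)).div (differentiableOn_etaProdFun.pow 24) hne
  have hg : ∀ τ, g τ = F (𝕢 1 τ) := fun τ => by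
    have h1 := congrFun kleinJ_mul_discriminant_fun τ
    rw [discriminant_eq_q_mul] at h1
    simp only [g, hF, cuspFunction_qParam_of_mem_qFunctions (pow_mem mem_qFunctions_E4 3)]
    rw [eq_div_iff (hne _ (by simpa using norm_q_lt_one τ)), ← h1]
    simp [qUHP, etaProdUHP]; ring
  have hq : qExpansion 1 g = ModularCurve.jNum.map castC := by
    have h1 : g * etaProdUHP ^ 24 = (⇑E₄) ^ 3 := by
      rw [← kleinJ_mul_discriminant_fun, discriminant_eq_q_mul]
      funext τ; simp [g, qUHP]; ring
    have h2 := congrArg (qExpansion 1) h1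
    rw [qExpansion_mul (analyticAt_of_mem_qFunctions (mem_qFunctions_of_disc hd hg)) (analyticAt_of_mem_qFunctions (pow_mem mem_qFunctions_etaProdUHP 24)),
      qExpansion_pow_of_mem_qFunctions mem_qFunctions_etaProdUHP, qExpansion_etaProdUHP, qExpansion_pow_of_mem_qFunctions mem_qFunctions_E4,
      qExpansion_E4, ← map_pow (PowerSeries.map castC), ← map_pow (PowerSeries.map castC),
      show ModularCurve.etaProd ^ 24 = ModularCurve.dedekindEtaUnit from rfl] at h2
    calc qExpansion 1 g
        = qExpansion 1 g * ((ModularCurve.dedekindEtaUnit * ModularCurve.dedekindEtaUnitInv).map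
            castC) := by rw [ModularCurve.dedekindEtaUnit_mul_inv, map_one, mul_one]
      _ = _ := by rw [map_mul, ← mul_assoc, h2, ← map_mul]; rfl
  simpa [hq] using hasSum_of_mem_qFunctions (mem_qFunctions_of_disc hd hg) τ

end Fermat.Agent.MF
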