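import Fermat.Agent.MF.Defs
import Mathlib.NumberTheory.ModularForms.LevelOne.GradedRing
import Mathlib.NumberTheory.ModularForms.Derivative
import Mathlib.NumberTheory.ModularForms.ProperlyDiscontinuous
import Mathlib.NumberTheory.Modular
import Mathlib.Analysis.Complex.OpenMapping
import Mathlib.Analysis.Calculus.InverseFunctionTheorem.Deriv
import Mathlib.Analysis.Normed.Module.Connected
import Mathlib.Analysis.Complex.Periodic

/-!
# The j function on the upper half plane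

`kleinJ = E₄³/Δ`, its invariance, derivative, bijectivity on `SL(2,ℤ)`-orbits, local degrees.
-/

noncomputable section

namespace Fermat.Agent.MF

open UpperHalfPlane hiding I
open ModularForm EisensteinSeries Derivative Filter Complex
open scoped MatrixGroups ModularForm Topology Manifold Real

local notation "Δ" => ModularForm.discriminant

theorem kleinJ_def (z : ℍ) : kleinJ z = E₄ z ^ 3 / Δ z := rfl

theorem kleinJ_mul_discriminant (z : ℍ) : kleinJ z * Δ z = E₄ z ^ 3 :=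
  div_mul_cancel₀ _ (discriminant_ne_zero z)

theorem E₄_E₆_ne_zero (z : ℍ) (h4 : E₄ z = 0) : E₆ z ≠ 0 := by
  intro h6
  have := discriminant_eq_E₄_cube_sub_E₆_sq z
  simp [h4, h6] at this
  exact discriminant_ne_zero z this

theorem kleinJ_sub_1728 (z : ℍ) : kleinJ z - 1728 = E₆ z ^ 2 / Δ z := by
  rw [kleinJ, div_sub' (discriminant_ne_zero z), discriminant_eq_E₄_cube_sub_E₆_sq]
  ring_nf

theorem discriminant_mdifferentiable : MDiff (Δ : ℍ → ℂ) := CuspForm.discriminant.holo'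

theorem kleinJ_mdifferentiable : MDiff kleinJ :=
  ((ModularFormClass.holo E₄).pow 3).div discriminant_mdifferentiable discriminant_ne_zero

theorem kleinJ_smul (γ : SL(2, ℤ)) (z : ℍ) : kleinJ (γ • z) = kleinJ z := by
  have h4 : E₄ (γ • z) = denom γ z ^ (4 : ℤ) * E₄ z :=
    SlashInvariantForm.slash_action_eqn'' E₄ (Γ := 𝒮ℒ) (MonoidHom.mem_range.mpr ⟨γ, rfl⟩) z
  have hΔ : Δ (γ • z) = denom γ z ^ (12 : ℤ) * Δ z :=
    SlashInvariantForm.slash_action_eqn'' CuspForm.discriminant (Γ := 𝒮ℒ)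
      (MonoidHom.mem_range.mpr ⟨γ, rfl⟩) z
  have := denom_ne_zero γ z
  simp only [kleinJ_def, h4, hΔ]
  field_simp

/-- A level one form tends to the constant term of its `q`-expansion. -/
theorem tendsto_levelOne_atImInfty {F : Type*} [FunLike F ℍ ℂ] {k : ℤ}
    [ModularFormClass F 𝒮ℒ k] (f : F) :
    Tendsto f atImInfty (𝓝 ((qExpansion 1 f).coeff 0)) := by
  have hA := ModularFormClass.analyticAt_cuspFunction_zero f one_pos one_mem_strictPeriods_SL
  have hper := SlashInvariantFormClass.periodic_comp_ofComplex f one_mem_strictPeriods_SL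
  have h0 : (qExpansion 1 f).coeff 0 = cuspFunction 1 f 0 := by
    simp [UpperHalfPlane.qExpansion_coeff]
  rw [h0]
  exact (hA.continuousAt.tendsto.comp (qParam_tendsto_atImInfty one_pos)).congr
    (fun τ => SlashInvariantFormClass.eq_cuspFunction f τ one_mem_strictPeriods_SL one_ne_zero)

theorem tendsto_E₄_atImInfty : Tendsto E₄ atImInfty (𝓝 1) := by
  simpa [E_qExpansion_coeff_zero _ ⟨2, rfl⟩, -PowerSeries.coeff_zero_eq_constantCoeff] using
    tendsto_levelOne_atImInfty E₄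

theorem tendsto_E₆_atImInfty : Tendsto E₆ atImInfty (𝓝 1) := by
  simpa [E_qExpansion_coeff_zero _ ⟨3, rfl⟩, -PowerSeries.coeff_zero_eq_constantCoeff] using
    tendsto_levelOne_atImInfty E₆

theorem tendsto_discriminant_atImInfty : Tendsto Δ atImInfty (𝓝 0) :=
  discriminant_isZeroAtImInfty

theorem tendsto_norm_kleinJ_atImInfty :
    Tendsto (fun z => ‖kleinJ z‖) atImInfty atTop := by
  have h4 := tendsto_E₄_atImInfty.pow 3
  rw [one_pow] at h4
  have h : Tendsto (fun z => Δ z / E₄ z ^ 3) atImInfty (𝓝 0) := by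
    simpa using! tendsto_discriminant_atImInfty.div h4 one_ne_zero
  have hne : ∀ᶠ z in atImInfty, Δ z / E₄ z ^ 3 ≠ 0 := by
    filter_upwards [h4.eventually_ne one_ne_zero] with z hz
    exact div_ne_zero (discriminant_ne_zero z) hz
  refine (tendsto_norm_inv_nhdsNE_zero_atTop.comp
    (tendsto_nhdsWithin_iff.mpr ⟨h, hne⟩)).congr fun z => ?_
  simp [kleinJ_def]

/-- The high part of a bound on a set. -/
theorem exists_im_lt_kleinJ_norm (M : ℝ) :
    ∃ R : ℝ, ∀ z : ℍ, R ≤ z.im → M < ‖kleinJ z‖ :=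
  (atImInfty_mem _).mp (tendsto_norm_kleinJ_atImInfty.eventually_gt_atTop M)

/-- `D F` is bounded at `∞` when `F` is holomorphic and bounded at `∞`. -/
theorem isBoundedAtImInfty_D {F : ℍ → ℂ} (hF : MDiff F) (hb : IsBoundedAtImInfty F) :
    IsBoundedAtImInfty (normalizedDerivOfComplex F) := by
  rw [isBoundedAtImInfty_iff] at hb ⊢
  obtain ⟨M, A, hMA⟩ := hb
  refine ⟨‖(2 * π * I : ℂ)⁻¹‖ * (M / (1 / 2)), max A 0 + 1, fun z hz => ?_⟩
  have him : ∀ w ∈ Metric.closedBall (z : ℂ) (1 / 2), A ≤ w.im ∧ 0 < w.im := by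
    intro w hw
    rw [Metric.mem_closedBall, dist_eq_norm] at hw
    have h1 : |w.im - (z : ℂ).im| ≤ 1 / 2 := by
      rw [← Complex.sub_im]
      exact (Complex.abs_im_le_norm _).trans hw
    have := abs_le.mp h1
    have h2 : (z : ℂ).im = z.im := UpperHalfPlane.coe_im z
    constructor <;> linarith [le_max_left A 0, le_max_right A 0]
  have hd : DiffContOnCl ℂ (F ∘ ofComplex) (Metric.ball (z : ℂ) (1 / 2)) := by
    refine DifferentiableOn.diffContOnCl_ball (U := {w : ℂ | 0 < w.im}) ?_ fun w hw => (him w hw).2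
    exact UpperHalfPlane.mdifferentiable_iff.mp hF
  have := norm_deriv_le_of_forall_mem_sphere_norm_le (by norm_num : (0 : ℝ) < 1 / 2) hd
    (C := M) fun w hw => by
      obtain ⟨h1, h2⟩ := him w (Metric.sphere_subset_closedBall hw)
      simp only [Function.comp_apply, ofComplex_apply_of_im_pos h2]
      exact hMA _ h1
  rw [normalizedDerivOfComplex, norm_mul]
  gcongr

/-- The Serre derivative of a level one form, as a form of weight `k + 2`. -/
def serreDerivForm {k : ℤ} (f : ModularForm 𝒮ℒ k) : ModularForm 𝒮ℒ (k + 2) where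
  toFun := serreDerivative k f
  slash_action_eq' := by
    rintro g ⟨γ, rfl⟩
    exact serreDerivative_slash_invariant (ModularFormClass.holo f)
      (SlashInvariantFormClass.slash_action_eq f _ (MonoidHom.mem_range.mpr ⟨γ, rfl⟩))
  holo' := serreDerivative_mdifferentiable k (ModularFormClass.holo f)
  bdd_at_cusps' {c} hc := by
    rw [Subgroup.IsArithmetic.isCusp_iff_isCusp_SL2Z] at hc
    rw [OnePoint.isBoundedAt_iff_forall_SL2Z hc]
    intro γ _
    have hinv : (f : ℍ → ℂ) ∣[k] γ = f :=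
      SlashInvariantFormClass.slash_action_eq f _ (MonoidHom.mem_range.mpr ⟨γ, rfl⟩)
    rw [serreDerivative_slash_invariant (ModularFormClass.holo f) hinv]
    have : Fact (IsCusp OnePoint.infty 𝒮ℒ) :=
      ⟨Subgroup.isCusp_of_mem_strictPeriods (𝒢 := 𝒮ℒ) one_pos one_mem_strictPeriods_SL⟩
    have hb : IsBoundedAtImInfty (f : ℍ → ℂ) := ModularFormClass.bdd_at_infty f
    have h1 := isBoundedAtImInfty_D (ModularFormClass.holo f) hb
    have h2 : IsBoundedAtImInfty (fun z => ((k : ℂ) * 12⁻¹) * (E2 z * f z)) :=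
      Filter.BoundedAtFilter.mul (Filter.const_boundedAtFilter _ _) (isBoundedAtImInfty_E2.mul hb)
    convert! Filter.BoundedAtFilter.add h1 h2.neg using 1
    funext z
    simp [serreDerivative, sub_eq_add_neg, mul_assoc]

theorem coe_serreDerivForm {k : ℤ} (f : ModularForm 𝒮ℒ k) :
    (serreDerivForm f : ℍ → ℂ) = serreDerivative k f := rfl

theorem exists_serreDerivative_E₄ :
    ∃ c : ℂ, ∀ z, serreDerivative 4 E₄ z = c * E₆ z := by
  have h6 : (E₆ : ModularForm 𝒮ℒ 6) ≠ 0 := E_ne_zero _ ⟨3, rfl⟩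
  obtain ⟨c, hc⟩ := (finrank_eq_one_iff_of_nonzero' E₆ h6).mp
    (Module.finrank_eq_of_rank_eq levelOne_weight_six_rank_one)
    (ModularForm.mcast (by norm_num) (serreDerivForm E₄))
  refine ⟨c, fun z => ?_⟩
  have := congrArg (fun f : ModularForm 𝒮ℒ 6 => f z) hc
  rw [show (4 : ℂ) = ((4 : ℤ) : ℂ) by norm_num, ← coe_serreDerivForm E₄]
  simpa using this.symm

theorem exists_serreDerivative_E₆ :
    ∃ c : ℂ, ∀ z, serreDerivative 6 E₆ z = c * E₄ z ^ 2 := by
  let g : ModularForm 𝒮ℒ ((8 : ℕ) : ℤ) := ModularForm.mcast (by norm_num) (E₄.pow 2)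
  have hg : ∀ z, g z = E₄ z ^ 2 := fun z => by
    show (E₄.pow 2) z = _
    rw [ModularForm.coe_pow]; rfl
  have hg0 : g ≠ 0 := by
    intro h
    have h4 := tendsto_E₄_atImInfty.pow 2
    have : ∀ z, E₄ z ^ 2 = 0 := fun z => by rw [← hg, h]; rfl
    simp only [this, one_pow] at h4
    exact zero_ne_one (tendsto_nhds_unique tendsto_const_nhds h4)
  have hr : Module.rank ℂ (ModularForm 𝒮ℒ ((8 : ℕ) : ℤ)) = 1 := by
    rw [dimension_level_one 8 ⟨4, rfl⟩, if_neg (by decide)]; norm_num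
  obtain ⟨c, hc⟩ := (finrank_eq_one_iff_of_nonzero' g hg0).mp
    (Module.finrank_eq_of_rank_eq hr)
    (ModularForm.mcast (by norm_num) (serreDerivForm E₆))
  refine ⟨c, fun z => ?_⟩
  have := congrArg (fun f : ModularForm 𝒮ℒ ((8 : ℕ) : ℤ) => f z) hc
  rw [show (6 : ℂ) = ((6 : ℤ) : ℂ) by norm_num, ← coe_serreDerivForm E₆]
  simpa [hg] using this.symm

theorem D_discriminant (z : ℍ) :
    normalizedDerivOfComplex Δ z = E2 z * Δ z := by
  have hz : (z : ℂ) ∈ upperHalfPlaneSet := z.im_pos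
  have heq : (Δ ∘ ofComplex) =ᶠ[𝓝 (z : ℂ)] fun w => ModularForm.eta w ^ 24 := by
    filter_upwards [isOpen_upperHalfPlaneSet.mem_nhds hz] with w hw
    simp [ModularForm.discriminant, ofComplex_apply_of_im_pos hw]
  have hlog := logDeriv_eta_eq_E2 z
  rw [logDeriv_apply, div_eq_iff (ModularForm.eta_ne_zero hz)] at hlog
  rw [normalizedDerivOfComplex, heq.deriv_eq,
    deriv_fun_pow (differentiableAt_eta_of_mem_upperHalfPlaneSet hz), hlog]
  simp only [ModularForm.discriminant]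
  have : (π : ℂ) ≠ 0 := by exact_mod_cast Real.pi_ne_zero
  field_simp
  push_cast
  ring

theorem hasDerivAt_comp_ofComplex {F : ℍ → ℂ} (hF : MDiff F) (z : ℍ) :
    HasDerivAt (F ∘ ofComplex) (deriv (F ∘ ofComplex) (z : ℂ)) (z : ℂ) :=
  (UpperHalfPlane.mdifferentiableAt_iff.mp (hF z)).hasDerivAt

theorem deriv_comp_ofComplex_eq (F : ℍ → ℂ) (z : ℍ) :
    deriv (F ∘ ofComplex) (z : ℂ) = 2 * π * I * normalizedDerivOfComplex F z := by
  rw [normalizedDerivOfComplex, ← mul_assoc, mul_inv_cancel₀ two_pi_I_ne_zero, one_mul]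

theorem D_eq_serreDerivative_add (k : ℂ) (F : ℍ → ℂ) (z : ℍ) :
    normalizedDerivOfComplex F z = serreDerivative k F z + k * 12⁻¹ * E2 z * F z := by
  simp [serreDerivative]

theorem D_kleinJ_eq {c₄ : ℂ} (h4 : ∀ z, serreDerivative 4 E₄ z = c₄ * E₆ z) (z : ℍ) :
    normalizedDerivOfComplex kleinJ z = 3 * c₄ * (E₄ z ^ 2 * E₆ z / Δ z) := by
  have hD4 := D_eq_serreDerivative_add 4 E₄ z
  rw [h4 z] at hD4
  have hd4 := hasDerivAt_comp_ofComplex (ModularFormClass.holo E₄) z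
  have hdΔ := hasDerivAt_comp_ofComplex discriminant_mdifferentiable z
  have hj := (hd4.pow 3).div hdΔ (by simpa using discriminant_ne_zero z)
  have : deriv (kleinJ ∘ ofComplex) (z : ℂ) = _ := hj.deriv
  rw [normalizedDerivOfComplex, this, deriv_comp_ofComplex_eq, deriv_comp_ofComplex_eq, hD4,
    D_discriminant]
  simp only [Pi.pow_apply, Function.comp_apply, ofComplex_apply]
  have hπ : (π : ℂ) ≠ 0 := by exact_mod_cast Real.pi_ne_zero
  have := discriminant_ne_zero z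
  field_simp
  push_cast
  ring

theorem D_kleinJ_eq' {c₆ : ℂ} (h6 : ∀ z, serreDerivative 6 E₆ z = c₆ * E₄ z ^ 2) (z : ℍ) :
    normalizedDerivOfComplex kleinJ z = 2 * c₆ * (E₄ z ^ 2 * E₆ z / Δ z) := by
  have hD6 := D_eq_serreDerivative_add 6 E₆ z
  rw [h6 z] at hD6
  have hd6 := hasDerivAt_comp_ofComplex (ModularFormClass.holo E₆) z
  have hdΔ := hasDerivAt_comp_ofComplex discriminant_mdifferentiable z
  have hj := ((hd6.pow 2).div hdΔ (by simpa using discriminant_ne_zero z)).add_const (1728 : ℂ)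
  have heq : (kleinJ ∘ ofComplex) =
      fun w => ((E₆ ∘ ofComplex) ^ 2 / (Δ ∘ ofComplex)) w + 1728 := by
    funext w
    simp only [Pi.div_apply, Pi.pow_apply, Function.comp_apply, ← kleinJ_sub_1728, sub_add_cancel]
  rw [normalizedDerivOfComplex, heq, hj.deriv, deriv_comp_ofComplex_eq, deriv_comp_ofComplex_eq,
    hD6, D_discriminant]
  simp only [Pi.pow_apply, Function.comp_apply, ofComplex_apply]
  have hπ : (π : ℂ) ≠ 0 := by exact_mod_cast Real.pi_ne_zero
  have := discriminant_ne_zero z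
  field_simp
  push_cast
  ring

theorem kleinJ_analyticAt {z : ℂ} (hz : 0 < z.im) : AnalyticAt ℂ (kleinJ ∘ ofComplex) z :=
  (UpperHalfPlane.mdifferentiable_iff.mp kleinJ_mdifferentiable).analyticAt
    (isOpen_upperHalfPlaneSet.mem_nhds hz)

/-- `j` is not constant. -/
theorem kleinJ_not_const (c : ℂ) : ∃ z, kleinJ z ≠ c := by
  obtain ⟨R, hR⟩ := exists_im_lt_kleinJ_norm ‖c‖
  refine ⟨⟨⟨0, max R 1⟩, lt_of_lt_of_le one_pos (le_max_right R 1)⟩, fun h => ?_⟩
  have := hR ⟨⟨0, max R 1⟩, lt_of_lt_of_le one_pos (le_max_right R 1)⟩ (le_max_left R 1)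
  rw [h] at this
  exact lt_irrefl _ this

theorem exists_D_kleinJ_ne_zero : ∃ z, normalizedDerivOfComplex kleinJ z ≠ 0 := by
  by_contra! h
  have hconst : ∀ {x y : ℂ}, 0 < x.im → 0 < y.im →
      (kleinJ ∘ ofComplex) x = (kleinJ ∘ ofComplex) y := fun {x y} hx hy =>
    isOpen_upperHalfPlaneSet.is_const_of_deriv_eq_zero
    (convex_halfSpace_im_gt 0).isPreconnected
    (UpperHalfPlane.mdifferentiable_iff.mp kleinJ_mdifferentiable)
    (fun w hw => by
      have := deriv_comp_ofComplex_eq kleinJ ⟨w, hw⟩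
      rw [h, mul_zero] at this
      exact this) hx hy
  obtain ⟨z, hz⟩ := kleinJ_not_const (kleinJ UpperHalfPlane.I)
  have h2 := hconst z.im_pos UpperHalfPlane.I.im_pos
  simp only [Function.comp_apply, ofComplex_apply] at h2
  exact hz h2

/-- Ramanujan: the derivative of `j`. -/
theorem exists_D_kleinJ :
    ∃ c : ℂ, c ≠ 0 ∧ ∀ z, normalizedDerivOfComplex kleinJ z = c * (E₄ z ^ 2 * E₆ z / Δ z) := by
  obtain ⟨c, hc⟩ := exists_serreDerivative_E₄
  refine ⟨3 * c, fun h => ?_, D_kleinJ_eq hc⟩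
  obtain ⟨z, hz⟩ := exists_D_kleinJ_ne_zero
  exact hz (by simp [D_kleinJ_eq hc, h])

theorem deriv_E₄_ne_zero_of_eq_zero {z : ℍ} (h : E₄ z = 0) :
    deriv (E₄ ∘ ofComplex) (z : ℂ) ≠ 0 := by
  obtain ⟨c, hc⟩ := exists_serreDerivative_E₄
  have hc0 : c ≠ 0 := fun h0 => by
    obtain ⟨w, hw⟩ := exists_D_kleinJ_ne_zero
    exact hw (by simp [D_kleinJ_eq hc, h0])
  rw [deriv_comp_ofComplex_eq, D_eq_serreDerivative_add 4, hc, h, mul_zero, add_zero]
  exact mul_ne_zero two_pi_I_ne_zero (mul_ne_zero hc0 (E₄_E₆_ne_zero z h))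

theorem deriv_E₆_ne_zero_of_eq_zero {z : ℍ} (h : E₆ z = 0) :
    deriv (E₆ ∘ ofComplex) (z : ℂ) ≠ 0 := by
  obtain ⟨c, hc⟩ := exists_serreDerivative_E₆
  have hc0 : c ≠ 0 := fun h0 => by
    obtain ⟨w, hw⟩ := exists_D_kleinJ_ne_zero
    exact hw (by simp [D_kleinJ_eq' hc, h0])
  rw [deriv_comp_ofComplex_eq, D_eq_serreDerivative_add 6, hc, h, mul_zero, add_zero]
  exact mul_ne_zero two_pi_I_ne_zero
    (mul_ne_zero hc0 (pow_ne_zero _ fun h4 => E₄_E₆_ne_zero z h4 h))

theorem kleinJ_eq_zero_iff (z : ℍ) : kleinJ z = 0 ↔ E₄ z = 0 := by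
  simp [kleinJ_def, discriminant_ne_zero z]

theorem kleinJ_eq_1728_iff (z : ℍ) : kleinJ z = 1728 ↔ E₆ z = 0 := by
  rw [← sub_eq_zero, kleinJ_sub_1728]
  simp [discriminant_ne_zero z]

theorem deriv_kleinJ_ne_zero {z : ℍ} (h0 : kleinJ z ≠ 0) (h1 : kleinJ z ≠ 1728) :
    deriv (kleinJ ∘ ofComplex) (z : ℂ) ≠ 0 := by
  obtain ⟨c, hc0, hc⟩ := exists_D_kleinJ
  rw [ne_eq, kleinJ_eq_zero_iff] at h0
  rw [ne_eq, kleinJ_eq_1728_iff] at h1
  rw [deriv_comp_ofComplex_eq, hc]
  exact mul_ne_zero two_pi_I_ne_zero (mul_ne_zero hc0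
    (div_ne_zero (mul_ne_zero (pow_ne_zero _ h0) h1) (discriminant_ne_zero z)))

/-- The local degree of `kleinJ` at a point: 3, 2 or 1. -/
def kleinJDegree (z : ℍ) : ℕ :=
  if kleinJ z = 0 then 3 else if kleinJ z = 1728 then 2 else 1

theorem kleinJDegree_pos (z : ℍ) : 0 < kleinJDegree z := by
  unfold kleinJDegree; split_ifs <;> norm_num

theorem kleinJDegree_smul (γ : SL(2, ℤ)) (z : ℍ) : kleinJDegree (γ • z) = kleinJDegree z := by
  simp only [kleinJDegree, kleinJ_smul]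

theorem mdiff_analyticAt {F : ℍ → ℂ} (hF : MDiff F) (z : ℍ) :
    AnalyticAt ℂ (F ∘ ofComplex) (z : ℂ) :=
  (UpperHalfPlane.mdifferentiable_iff.mp hF).analyticAt
    (isOpen_upperHalfPlaneSet.mem_nhds z.im_pos)

private theorem order_pow_div_discriminant {F : ℍ → ℂ} (hF : MDiff F) {z : ℍ} (hz : F z = 0)
    (hd : deriv (F ∘ ofComplex) (z : ℂ) ≠ 0) (n : ℕ) :
    analyticOrderAt ((F ∘ ofComplex) ^ n * (Δ ∘ ofComplex)⁻¹) (z : ℂ) = n := by
  have hΔ : (Δ ∘ ofComplex) (z : ℂ) ≠ 0 := by simpa using discriminant_ne_zero z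
  have hi := (mdiff_analyticAt discriminant_mdifferentiable z).inv hΔ
  have h1 : analyticOrderAt (F ∘ ofComplex) (z : ℂ) = 1 := by
    simpa [hz] using! (mdiff_analyticAt hF z).analyticOrderAt_sub_eq_one_of_deriv_ne_zero hd
  rw [analyticOrderAt_mul ((mdiff_analyticAt hF z).pow n) hi,
    analyticOrderAt_pow (mdiff_analyticAt hF z), h1,
    hi.analyticOrderAt_eq_zero.mpr (inv_ne_zero hΔ)]
  simp

theorem analyticOrderAt_kleinJ_sub (z : ℍ) :
    analyticOrderAt (fun w => (kleinJ ∘ ofComplex) w - kleinJ z) (z : ℂ) = kleinJDegree z := by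
  unfold kleinJDegree
  split_ifs with h0 h1
  · have h4 := (kleinJ_eq_zero_iff z).mp h0
    rw [← order_pow_div_discriminant (ModularFormClass.holo E₄) h4
      (deriv_E₄_ne_zero_of_eq_zero h4) 3, h0]
    congr 1
    funext w
    simp [kleinJ_def, div_eq_mul_inv]
  · have h6 := (kleinJ_eq_1728_iff z).mp h1
    rw [← order_pow_div_discriminant (ModularFormClass.holo E₆) h6
      (deriv_E₆_ne_zero_of_eq_zero h6) 2, h1]
    congr 1
    funext w
    simp [kleinJ_sub_1728, div_eq_mul_inv]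
  · simpa using! (mdiff_analyticAt kleinJ_mdifferentiable
      z).analyticOrderAt_sub_eq_one_of_deriv_ne_zero (deriv_kleinJ_ne_zero h0 h1)

theorem kleinJ_surjective : Function.Surjective kleinJ := by
  intro c
  by_contra! h
  have hg : ∀ z, E₄ z ^ 3 - c * Δ z ≠ 0 := fun z hz => by
    apply h z
    rw [kleinJ_def, div_eq_iff (discriminant_ne_zero z)]
    linear_combination hz
  have hlim : Tendsto (fun z => Δ z / (E₄ z ^ 3 - c * Δ z)) atImInfty (𝓝 0) := by
    simpa using! tendsto_discriminant_atImInfty.div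
      ((tendsto_E₄_atImInfty.pow 3).sub (tendsto_discriminant_atImInfty.const_mul c)) (by simp)
  have hinv : ∀ γ : SL(2, ℤ), (fun z => Δ z / (E₄ z ^ 3 - c * Δ z)) ∣[(0 : ℤ)] γ =
      fun z => Δ z / (E₄ z ^ 3 - c * Δ z) := by
    intro γ
    funext z
    have h4 : E₄ (γ • z) = denom γ z ^ (4 : ℤ) * E₄ z :=
      SlashInvariantForm.slash_action_eqn'' E₄ (Γ := 𝒮ℒ) (MonoidHom.mem_range.mpr ⟨γ, rfl⟩) z
    have hΔ : Δ (γ • z) = denom γ z ^ (12 : ℤ) * Δ z :=
      SlashInvariantForm.slash_action_eqn'' CuspForm.discriminant (Γ := 𝒮ℒ)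
        (MonoidHom.mem_range.mpr ⟨γ, rfl⟩) z
    rw [ModularForm.SL_slash_apply, neg_zero, zpow_zero, mul_one, h4, hΔ]
    have hd := denom_ne_zero γ z
    have : (denom γ z ^ (4 : ℤ) * E₄ z) ^ 3 - c * (denom γ z ^ (12 : ℤ) * Δ z) =
        denom γ z ^ (12 : ℤ) * (E₄ z ^ 3 - c * Δ z) := by
      rw [mul_pow, ← zpow_natCast (denom γ z ^ (4 : ℤ)), ← zpow_mul]
      norm_num
      ring
    rw [this, mul_div_mul_left _ _ (zpow_ne_zero _ hd)]
  let g : ModularForm 𝒮ℒ 0 :=
    { toFun := fun z => Δ z / (E₄ z ^ 3 - c * Δ z)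
      slash_action_eq' := fun _ ⟨γ, hγ⟩ => hγ ▸ hinv γ
      holo' := discriminant_mdifferentiable.div
        (((ModularFormClass.holo E₄).pow 3).sub
          (mdifferentiable_const.mul discriminant_mdifferentiable)) hg
      bdd_at_cusps' := fun {c'} hc => by
        rw [Subgroup.IsArithmetic.isCusp_iff_isCusp_SL2Z] at hc
        rw [OnePoint.isBoundedAt_iff_forall_SL2Z hc]
        intro γ _
        rw [hinv γ]
        exact hlim.isBigO_one ℝ }
  obtain ⟨d, hd⟩ := ModularFormClass.levelOne_weight_zero_const g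
  have hd' : (fun z => Δ z / (E₄ z ^ 3 - c * Δ z)) = Function.const ℍ d := hd
  rw [hd'] at hlim
  have hd0 : d = 0 := tendsto_nhds_unique tendsto_const_nhds hlim
  have := congrFun hd' UpperHalfPlane.I
  rw [hd0, Function.const_apply] at this
  exact div_ne_zero (discriminant_ne_zero _) (hg _) this

theorem kleinJ_not_eventually_const (z : ℍ) :
    ¬ ∀ᶠ w in 𝓝 (z : ℂ), (kleinJ ∘ ofComplex) w = kleinJ z := by
  intro h
  have h2 := analyticOrderAt_kleinJ_sub z
  rw [analyticOrderAt_eq_top.mpr (h.mono fun w hw => sub_eq_zero.mpr hw)] at h2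
  exact ENat.natCast_ne_top _ h2.symm

theorem isOpenMap_kleinJ : IsOpenMap kleinJ := by
  refine IsOpenMap.of_nhds_le fun z => ?_
  have h := ((mdiff_analyticAt kleinJ_mdifferentiable
    z).eventually_constant_or_nhds_le_map_nhds).resolve_left
    (by simpa using kleinJ_not_eventually_const z)
  rw [← isOpenEmbedding_coe.map_nhds_eq, Filter.map_map, Function.comp_assoc] at h
  simpa [Function.comp_def] using h

theorem continuous_kleinJ : Continuous kleinJ := kleinJ_mdifferentiable.continuous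

theorem exists_injOn_cusp :
    ∃ R : ℝ, ∀ z w : ℍ, R ≤ z.im → R ≤ w.im → kleinJ z = kleinJ w →
      ∃ n : ℤ, (ModularGroup.T ^ n) • z = w := by
  set G : ℂ → ℂ := fun q => cuspFunction 1 Δ q / cuspFunction 1 E₄ q ^ 3 with hG
  have hA4 := ModularFormClass.analyticAt_cuspFunction_zero E₄ one_pos one_mem_strictPeriods_SL
  have hAΔ : AnalyticAt ℂ (cuspFunction 1 Δ) 0 :=
    ModularFormClass.analyticAt_cuspFunction_zero CuspForm.discriminant one_pos
      one_mem_strictPeriods_SL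
  have h4 : cuspFunction 1 E₄ 0 = 1 := by
    simpa [UpperHalfPlane.qExpansion_coeff] using E_qExpansion_coeff_zero (by norm_num : 3 ≤ 4) ⟨2, rfl⟩
  have hΔ0 : cuspFunction 1 Δ 0 = 0 :=
    CuspFormClass.cuspFunction_apply_zero CuspForm.discriminant one_pos one_mem_strictPeriods_SL
  have hΔ1 : deriv (cuspFunction 1 Δ) 0 = 1 := by
    simpa [UpperHalfPlane.qExpansion_coeff] using discriminant_qExpansion_coeff_one
  have hGA : AnalyticAt ℂ G 0 := hAΔ.fun_div (hA4.fun_pow 3) (by simp [h4])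
  have hG1 : HasStrictDerivAt G 1 0 := by
    have hs := hGA.hasStrictDerivAt
    have : deriv G 0 = 1 := by
      rw [hG, deriv_fun_div hAΔ.differentiableAt (hA4.fun_pow 3).differentiableAt (by simp [h4])]
      simp [h4, hΔ0, hΔ1]
    rwa [this] at hs
  have hinj := (hG1.hasStrictFDerivAt_equiv one_ne_zero).eventually_left_inverse
  obtain ⟨R, hR⟩ := (atImInfty_mem _).mp ((qParam_tendsto_atImInfty one_pos).eventually hinj)
  refine ⟨R, fun z w hz hw h => ?_⟩
  have key : ∀ u : ℍ, G (Function.Periodic.qParam 1 u) = (kleinJ u)⁻¹ := fun u => by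
    simp only [hG]
    have e1 : cuspFunction 1 E₄ (Function.Periodic.qParam 1 u) = E₄ u :=
      SlashInvariantFormClass.eq_cuspFunction E₄ u one_mem_strictPeriods_SL one_ne_zero
    have e2 : cuspFunction 1 Δ (Function.Periodic.qParam 1 u) = Δ u :=
      SlashInvariantFormClass.eq_cuspFunction CuspForm.discriminant u one_mem_strictPeriods_SL
        one_ne_zero
    rw [e1, e2, kleinJ_def, inv_div]
  have e := hR z hz
  have e' := hR w hw
  simp only [Set.mem_ofPred_eq, key] at e e'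
  rw [h, e'] at e
  obtain ⟨m₁, hm₁⟩ := Function.Periodic.qParam_left_inv_mod_period (h := 1) one_ne_zero (z : ℂ)
  obtain ⟨m₂, hm₂⟩ := Function.Periodic.qParam_left_inv_mod_period (h := 1) one_ne_zero (w : ℂ)
  rw [e, hm₁] at hm₂
  refine ⟨m₁ - m₂, UpperHalfPlane.ext ?_⟩
  rw [modular_T_zpow_smul, coe_vadd]
  push_cast at hm₂ ⊢
  linear_combination hm₂

/-- The orbit space of `SL(2,ℤ)` separates inequivalent points. -/
theorem exists_nhds_inequivalent {a b : ℍ} (h : ∀ γ : SL(2, ℤ), γ • a ≠ b) :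
    ∃ A ∈ 𝓝 a, ∃ B ∈ 𝓝 b, ∀ x ∈ A, ∀ γ : SL(2, ℤ), γ • x ∉ B := by
  have : T2Space (Quotient (MulAction.orbitRel 𝒮ℒ ℍ)) :=
    t2Space_of_properlyDiscontinuousSMul_of_t2Space
  have hne : (Quotient.mk (MulAction.orbitRel 𝒮ℒ ℍ) a) ≠ Quotient.mk _ b := by
    intro he
    obtain ⟨⟨g, hg⟩, hgab⟩ := Quotient.exact he
    obtain ⟨γ, rfl⟩ := MonoidHom.mem_range.mp hg
    refine h γ⁻¹ ?_
    have hgab' : γ • b = a := hgab
    rw [← hgab', inv_smul_smul]
  obtain ⟨U, V, hU, hV, haU, hbV, hd⟩ := t2_separation hne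
  refine ⟨_, (hU.preimage continuous_quotient_mk').mem_nhds haU,
    _, (hV.preimage continuous_quotient_mk').mem_nhds hbV, fun x hx γ hγ => ?_⟩
  have : Quotient.mk (MulAction.orbitRel 𝒮ℒ ℍ) (γ • x) = Quotient.mk _ x :=
    Quotient.sound ⟨⟨_, MonoidHom.mem_range.mpr ⟨γ, rfl⟩⟩, rfl⟩
  exact Set.disjoint_left.mp hd hx (show Quotient.mk _ x ∈ V from this ▸ hγ)

theorem kleinJ_eq_kleinJ_iff {z w : ℍ} :
    kleinJ z = kleinJ w ↔ ∃ γ : SL(2, ℤ), γ • z = w := by
  refine ⟨fun h => ?_, fun ⟨γ, hγ⟩ => by rw [← hγ, kleinJ_smul]⟩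
  let U : Set ℂ :=
    {c | ∀ x y : ℍ, kleinJ x = c → kleinJ y = c → ∃ γ : SL(2, ℤ), γ • x = y}
  have hUiff : ∀ c, c ∈ U ↔
      ∀ x y : ℍ, kleinJ x = c → kleinJ y = c → ∃ γ : SL(2, ℤ), γ • x = y := fun c => Iff.rfl
  -- the complement is open
  have hV : IsOpen Uᶜ := by
    rw [isOpen_iff_mem_nhds]
    intro c hc
    simp only [Set.mem_compl_iff, hUiff, not_forall, not_exists] at hc
    obtain ⟨a, b, ha, hb, hab⟩ := hc
    obtain ⟨A, hA, B, hB, hAB⟩ := exists_nhds_inequivalent hab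
    have h1 := isOpenMap_kleinJ.image_mem_nhds hA
    have h2 := isOpenMap_kleinJ.image_mem_nhds hB
    rw [ha] at h1
    rw [hb] at h2
    filter_upwards [h1, h2]
    rintro c' ⟨x, hx, rfl⟩ ⟨y, hy, hxy⟩ hU'
    obtain ⟨γ, hγ⟩ := hU' x y rfl hxy
    exact hAB x hx γ (hγ ▸ hy)
  -- openness away from the two branch values
  have hU : IsOpen (U \ {0, 1728}) := by
    rw [isOpen_iff_mem_nhds]
    rintro c ⟨hc, hc01⟩
    simp only [Set.mem_insert_iff, Set.mem_singleton_iff, not_or] at hc01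
    obtain ⟨a, ha⟩ := kleinJ_surjective c
    have hd := deriv_kleinJ_ne_zero (z := a) (ha ▸ hc01.1) (ha ▸ hc01.2)
    have hs := (mdiff_analyticAt kleinJ_mdifferentiable a).hasStrictDerivAt
    obtain ⟨W', hW', hW'o, haW'⟩ :=
      eventually_nhds_iff.mp (hs.hasStrictFDerivAt_equiv hd).eventually_left_inverse
    set W : Set ℍ := (UpperHalfPlane.coe) ⁻¹' W' with hW
    have hWo : IsOpen W := hW'o.preimage continuous_coe
    have hinjW : ∀ x ∈ W, ∀ y ∈ W, kleinJ x = kleinJ y → x = y := by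
      intro x hx y hy hxy
      have e1 := hW' _ hx
      have e2 := hW' _ hy
      simp only [Function.comp_apply, ofComplex_apply, hxy] at e1 e2
      exact UpperHalfPlane.ext (e1.symm.trans e2)
    let O : Set ℍ := ⋃ γ : SL(2, ℤ), (fun x => γ • x) ⁻¹' W
    have hOo : IsOpen O := isOpen_iUnion fun γ => hWo.preimage
      (continuous_const_smul (Matrix.SpecialLinearGroup.mapGL ℝ γ))
    obtain ⟨R, hR⟩ := exists_im_lt_kleinJ_norm (‖c‖ + 1)
    let K : Set ℍ := ModularGroup.truncatedFundamentalDomain R ∩ Oᶜ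
    have hK : IsCompact K :=
      (ModularGroup.isCompact_truncatedFundamentalDomain R).inter_right hOo.isClosed_compl
    have hcK : c ∉ kleinJ '' K := by
      rintro ⟨x, ⟨-, hxO⟩, hxc⟩
      obtain ⟨γ, hγ⟩ := hc x a hxc ha
      exact hxO (Set.mem_iUnion.mpr ⟨γ, show γ • x ∈ W by rw [hγ]; exact haW'⟩)
    filter_upwards [(hK.image continuous_kleinJ).isClosed.isOpen_compl.mem_nhds hcK,
      Metric.ball_mem_nhds c one_pos, isOpen_compl_singleton.mem_nhds hc01.1,
      isOpen_compl_singleton.mem_nhds hc01.2] with c' hc'K hc'b h0 h1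
    refine ⟨?_, by simp_all⟩
    have hO : ∀ x : ℍ, kleinJ x = c' → x ∈ O := by
      intro x hx
      obtain ⟨g, hg⟩ := ModularGroup.exists_smul_mem_fd x
      have hgx : kleinJ (g • x) = c' := by rw [kleinJ_smul, hx]
      have him : (g • x).im ≤ R := by
        by_contra! hlt
        have := hR _ hlt.le
        rw [hgx] at this
        have := norm_le_norm_add_norm_sub' c' c
        rw [Metric.mem_ball, dist_eq_norm] at hc'b
        linarith
      by_contra hxO
      refine hc'K ⟨g • x, ⟨⟨hg, him⟩, fun hgO => hxO ?_⟩, hgx⟩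
      obtain ⟨γ, hγ⟩ := Set.mem_iUnion.mp hgO
      exact Set.mem_iUnion.mpr ⟨γ * g, by rw [Set.mem_preimage, mul_smul]; exact hγ⟩
    intro x y hx hy
    obtain ⟨γ, hγ⟩ := Set.mem_iUnion.mp (hO x hx)
    obtain ⟨δ, hδ⟩ := Set.mem_iUnion.mp (hO y hy)
    have hxy : γ • x = δ • y := hinjW _ hγ _ hδ (by rw [kleinJ_smul, kleinJ_smul, hx, hy])
    exact ⟨δ⁻¹ * γ, by rw [mul_smul, hxy, inv_smul_smul]⟩
  -- large values are in `U`
  have hne : ∃ c ∈ U, c ≠ 0 ∧ c ≠ 1728 := by
    obtain ⟨R, hR⟩ := exists_injOn_cusp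
    obtain ⟨B, hB⟩ := (ModularGroup.isCompact_truncatedFundamentalDomain R).exists_bound_of_continuousOn
      continuous_kleinJ.continuousOn
    have hM : ‖((max B 1728 + 1 : ℝ) : ℂ)‖ = max B 1728 + 1 := by
      rw [Complex.norm_real, Real.norm_eq_abs, abs_of_nonneg]
      linarith [le_max_right B 1728]
    refine ⟨((max B 1728 + 1 : ℝ) : ℂ), ?_, ?_, ?_⟩
    · intro x y hx hy
      obtain ⟨g, hg⟩ := ModularGroup.exists_smul_mem_fd x
      obtain ⟨g', hg'⟩ := ModularGroup.exists_smul_mem_fd y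
      have hgx : kleinJ (g • x) = _ := (kleinJ_smul g x).trans hx
      have hgy : kleinJ (g' • y) = _ := (kleinJ_smul g' y).trans hy
      have high : ∀ u : ℍ, u ∈ ModularGroup.fd →
          kleinJ u = ((max B 1728 + 1 : ℝ) : ℂ) → R ≤ u.im := by
        intro u hu hu'
        by_contra! hlt
        have := hB u ⟨hu, hlt.le⟩
        rw [hu', hM] at this
        linarith [le_max_left B 1728]
      obtain ⟨n, hn⟩ := hR _ _ (high _ hg hgx) (high _ hg' hgy) (hgx.trans hgy.symm)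
      exact ⟨g'⁻¹ * ModularGroup.T ^ n * g, by rw [mul_smul, mul_smul, hn, inv_smul_smul]⟩
    · intro h0
      rw [h0, norm_zero] at hM
      linarith [le_max_right B 1728]
    · intro h0
      rw [h0] at hM
      norm_num at hM
      linarith [le_max_right B 1728]
  have hconn : IsPreconnected ({0, 1728}ᶜ : Set ℂ) :=
    ((Set.toFinite ({0, 1728} : Set ℂ)).countable.isConnected_compl_of_one_lt_rank
      (by rw [Complex.rank_real_complex]; exact Cardinal.one_lt_two)).isPreconnected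
  have hall : ({0, 1728}ᶜ : Set ℂ) ⊆ U := by
    intro c hc
    by_contra hcU
    obtain ⟨c₀, hc₀, h00, h01⟩ := hne
    have hc₀' : c₀ ∈ ({0, 1728}ᶜ : Set ℂ) := by simp [h00, h01]
    obtain ⟨d, -, ⟨hd1, -⟩, hd2⟩ := hconn (U \ {0, 1728}) Uᶜ hU hV
      (fun d hd => by
        by_cases hdU : d ∈ U
        · exact Or.inl ⟨hdU, hd⟩
        · exact Or.inr hdU)
      ⟨c₀, hc₀', hc₀, hc₀'⟩ ⟨c, hc, hcU⟩
    exact hd2 hd1
  have hU' : Uᶜ = ∅ := by
    by_contra hne'
    obtain ⟨c, hc⟩ := Set.nonempty_iff_ne_empty.mpr hne'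
    have hdense : Dense ({0, 1728}ᶜ : Set ℂ) :=
      (Set.toFinite ({0, 1728} : Set ℂ)).countable.dense_compl ℝ
    obtain ⟨d, hd1, hd2⟩ := hdense.inter_open_nonempty _ hV ⟨c, hc⟩
    exact hd1 (hall hd2)
  have : kleinJ z ∈ U := by
    by_contra hz
    rw [← Set.mem_compl_iff, hU'] at hz
    exact hz
  exact this z w rfl h.symm

end Fermat.Agent.MF
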