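import Mathlib
import Fermat.Agent.MF.Defs

/-!
`q_N`-expansions of slashes of forms on `Γ₀(N)`.
-/

set_option autoImplicit false

noncomputable section

open UpperHalfPlane Filter Complex CongruenceSubgroup ModularForm Function
open scoped ModularForm MatrixGroups Topology Manifold Pointwise

namespace Fermat.Agent.MF

variable {N : ℕ} {k l : ℤ}

theorem conj_T_pow_mem_Gamma0 (N : ℕ) (γ : SL(2, ℤ)) :
    γ * ModularGroup.T ^ (N : ℤ) * γ⁻¹ ∈ Gamma0 N := by
  rw [Gamma0_mem]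
  simp only [Matrix.SpecialLinearGroup.coe_mul, ModularGroup.coe_T_zpow,
    Matrix.SpecialLinearGroup.coe_inv, Matrix.adjugate_fin_two, Matrix.mul_apply,
    Fin.sum_univ_two]
  push_cast
  simp
  ring

theorem natCast_mem_strictPeriods_conj_gamma0 (N : ℕ) (γ : SL(2, ℤ)) :
    (N : ℝ) ∈ (ConjAct.toConjAct (γ : GL (Fin 2) ℝ)⁻¹ •
      ((Gamma0 N : Subgroup SL(2, ℤ)) : Subgroup (GL (Fin 2) ℝ))).strictPeriods := by
  rw [Subgroup.mem_strictPeriods_iff, Subgroup.mem_pointwise_smul_iff_inv_smul_mem,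
    ← ConjAct.toConjAct_inv, inv_inv, ConjAct.toConjAct_smul]
  refine ⟨γ * ModularGroup.T ^ (N : ℤ) * γ⁻¹, conj_T_pow_mem_Gamma0 N γ, ?_⟩
  rw [map_mul, map_mul, map_inv]
  congr 2
  apply Units.ext
  rw [Matrix.SpecialLinearGroup.mapGL_coe_matrix, Matrix.SpecialLinearGroup.map_apply_coe,
    ModularGroup.coe_T_zpow]
  ext i j
  fin_cases i <;> fin_cases j <;> simp

variable [NeZero N]

theorem natCast_pos_real : (0 : ℝ) < N := by exact_mod_cast (NeZero.pos N)

variable {F : Type*} [FunLike F ℍ ℂ]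

omit [NeZero N] in
theorem periodic_slash_gamma0 [ModularFormClass F (Gamma0 N) k] (f : F) (γ : SL(2, ℤ)) :
    Periodic ((⇑f ∣[k] γ) ∘ ofComplex) (N : ℝ) := by
  exact SlashInvariantFormClass.periodic_comp_ofComplex (ModularForm.translate f (γ : GL (Fin 2) ℝ))
      (natCast_mem_strictPeriods_conj_gamma0 N γ)

theorem analyticAt_cuspFunction_slash_gamma0 [ModularFormClass F (Gamma0 N) k] (f : F)
    (γ : SL(2, ℤ)) : AnalyticAt ℂ (cuspFunction (N : ℝ) (⇑f ∣[k] γ)) 0 := by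
  exact ModularFormClass.analyticAt_cuspFunction_zero (ModularForm.translate f (γ : GL (Fin 2) ℝ))
      natCast_pos_real (natCast_mem_strictPeriods_conj_gamma0 N γ)

theorem qExpansion_slash_ne_zero [ModularFormClass F (Gamma0 N) k] (f : F) (hf : ⇑f ≠ 0)
    (γ : SL(2, ℤ)) : qExpansion (N : ℝ) (⇑f ∣[k] γ) ≠ 0 := by
  rw [ne_eq, qExpansion_eq_zero_iff natCast_pos_real (periodic_slash_gamma0 f γ)
    ((ModularFormClass.holo f).slash k _) (ModularFormClass.bdd_at_infty_slash f γ)]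
  exact (SlashAction.slash_eq_zero_iff k γ _).not.mpr hf

theorem order_qExpansion_slash_mul {G : Type*} [FunLike G ℍ ℂ]
    [ModularFormClass F (Gamma0 N) k] [ModularFormClass G (Gamma0 N) l] (f : F) (g : G)
    (γ : SL(2, ℤ)) :
    (qExpansion (N : ℝ) ((⇑f * ⇑g) ∣[k + l] γ)).order =
      (qExpansion (N : ℝ) (⇑f ∣[k] γ)).order + (qExpansion (N : ℝ) (⇑g ∣[l] γ)).order := by
  rw [ModularForm.mul_slash_SL2, qExpansion_mul (analyticAt_cuspFunction_slash_gamma0 f γ)
    (analyticAt_cuspFunction_slash_gamma0 g γ), PowerSeries.order_mul]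

theorem one_le_order_qExpansion_slash_cuspForm (f : CuspForm (Gamma0 N) k) (γ : SL(2, ℤ)) :
    1 ≤ (qExpansion (N : ℝ) (⇑f ∣[k] γ)).order := by
  refine PowerSeries.nat_le_order _ 1 fun i hi ↦ ?_
  obtain rfl : i = 0 := by omega
  rw [qExpansion_coeff_zero natCast_pos_real (analyticAt_cuspFunction_slash_gamma0 f γ)
    (periodic_slash_gamma0 f γ)]
  exact (CuspFormClass.zero_at_infty_slash f γ).valueAtInfty_eq_zero

end Fermat.Agent.MF
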