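import Mathlib

/-!
Behaviour at `i∞` of a ratio of periodic functions in terms of their q-expansions.
-/

set_option autoImplicit false

noncomputable section

open UpperHalfPlane Filter Complex Function
open scoped Topology Manifold

namespace Fermat.Agent.MF

variable {h : ℝ} {f g : ℍ → ℂ}

theorem order_qExpansion_eq_analyticOrderAt (hf : AnalyticAt ℂ (cuspFunction h f) 0) :
    (qExpansion h f).order = analyticOrderAt (cuspFunction h f) 0 := by
  refine ENat.eq_of_forall_natCast_le_iff fun n ↦ ?_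
  rw [natCast_le_analyticOrderAt_iff_iteratedDeriv_eq_zero hf]
  constructor
  · intro hn i hi
    have hc := PowerSeries.coeff_of_lt_order i (lt_of_lt_of_le (by exact_mod_cast hi) hn)
    rw [qExpansion_coeff] at hc
    simpa [Nat.factorial_ne_zero] using hc
  · intro hn
    exact PowerSeries.nat_le_order _ _ fun i hi ↦ by simp [qExpansion_coeff, hn i hi]

theorem qParam_tendsto_nhdsNE (hh : 0 < h) :
    Tendsto (fun τ : ℍ ↦ Periodic.qParam h τ) atImInfty (𝓝[≠] 0) :=
  tendsto_nhdsWithin_iff.mpr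
    ⟨qParam_tendsto_atImInfty hh, .of_forall fun τ ↦ Complex.exp_ne_zero _⟩

theorem eventually_ne_zero_atImInfty (hh : 0 < h)
    (hfper : Periodic (f ∘ ofComplex) h) (hf : AnalyticAt ℂ (cuspFunction h f) 0)
    (hne : qExpansion h f ≠ 0) : ∀ᶠ τ in atImInfty, f τ ≠ 0 := by
  have : ∀ᶠ z in 𝓝[≠] (0 : ℂ), cuspFunction h f z ≠ 0 := by
    refine hf.eventually_eq_zero_or_eventually_ne_zero.resolve_left fun h0 ↦ hne ?_
    rw [← PowerSeries.order_eq_top, order_qExpansion_eq_analyticOrderAt hf,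
      analyticOrderAt_eq_top]
    exact h0
  filter_upwards [(qParam_tendsto_nhdsNE hh).eventually this] with τ hτ
  rwa [eq_cuspFunction τ hh.ne' hfper] at hτ

theorem tendsto_div_atImInfty_zero (hh : 0 < h)
    (hfper : Periodic (f ∘ ofComplex) h) (hf : AnalyticAt ℂ (cuspFunction h f) 0)
    (hgper : Periodic (g ∘ ofComplex) h) (hg : AnalyticAt ℂ (cuspFunction h g) 0)
    (hord : (qExpansion h g).order < (qExpansion h f).order) :
    Tendsto (fun τ ↦ f τ / g τ) atImInfty (𝓝 0) := by
  rw [order_qExpansion_eq_analyticOrderAt hf, order_qExpansion_eq_analyticOrderAt hg] at hord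
  obtain ⟨m, hm⟩ := ENat.ne_top_iff_exists.mp hord.ne_top
  obtain ⟨u, hu, hu0, hgu⟩ := hg.analyticOrderAt_eq_natCast.mp hm.symm
  have hle : ((m + 1 : ℕ) : ℕ∞) ≤ analyticOrderAt (cuspFunction h f) 0 := by
    rw [← hm] at hord
    push_cast
    exact Order.add_one_le_of_lt hord
  obtain ⟨v, hv, hfv⟩ := (natCast_le_analyticOrderAt hf).mp hle
  have hlim : Tendsto (fun z ↦ cuspFunction h f z / cuspFunction h g z) (𝓝[≠] (0 : ℂ)) (𝓝 0) := by
    have hc : ContinuousAt (fun z ↦ z * v z / u z) 0 :=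
      (continuousAt_id.mul hv.continuousAt).div hu.continuousAt hu0
    have h0 : Tendsto (fun z ↦ z * v z / u z) (𝓝[≠] (0 : ℂ)) (𝓝 0) := by
      simpa using tendsto_nhdsWithin_of_tendsto_nhds hc.tendsto
    refine h0.congr' ?_
    filter_upwards [hfv.filter_mono nhdsWithin_le_nhds, hgu.filter_mono nhdsWithin_le_nhds,
      self_mem_nhdsWithin] with z hz hz' (hne : z ≠ 0)
    rw [hz, hz', sub_zero, smul_eq_mul, smul_eq_mul, pow_succ]
    field_simp
  refine (hlim.comp (qParam_tendsto_nhdsNE hh)).congr fun τ ↦ ?_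
  simp only [Function.comp_apply]
  rw [eq_cuspFunction τ hh.ne' hfper, eq_cuspFunction τ hh.ne' hgper]

end Fermat.Agent.MF
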