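import Mathlib

/-!
Division of modular forms: if `Q` divides `P` pointwise in the sense of orders on the upper half
plane and the quotient tends to `0` at every cusp, the quotient is a cusp form.
-/

set_option autoImplicit false

noncomputable section

open UpperHalfPlane Filter Complex
open scoped ModularForm MatrixGroups Topology Manifold

namespace Fermat.Agent.MF

variable {Γ : Subgroup (GL (Fin 2) ℝ)}

/-- An arbitrary holomorphic quotient of two functions on `ℍ`. -/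
theorem exists_mdifferentiable_mul_eq {P Q : ℍ → ℂ} (hP : MDiff P) (hQ : MDiff Q) (hQ0 : Q ≠ 0)
    (hord : ∀ τ : ℍ, meromorphicOrderAt (Q ∘ ofComplex) τ ≤ meromorphicOrderAt (P ∘ ofComplex) τ) :
    ∃ f : ℍ → ℂ, MDiff f ∧ f * Q = P := by
  set U : Set ℂ := {z | 0 < z.im} with hU
  have hUo : IsOpen U := isOpen_lt continuous_const Complex.continuous_im
  have hPa : ∀ z ∈ U, AnalyticAt ℂ (P ∘ ofComplex) z := fun z hz ↦
    (UpperHalfPlane.mdifferentiable_iff.mp hP).analyticAt (hUo.mem_nhds hz)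
  have hQa : ∀ z ∈ U, AnalyticAt ℂ (Q ∘ ofComplex) z := fun z hz ↦
    (UpperHalfPlane.mdifferentiable_iff.mp hQ).analyticAt (hUo.mem_nhds hz)
  set g : ℂ → ℂ := fun z ↦ (P ∘ ofComplex) z / (Q ∘ ofComplex) z with hg
  have hgm : MeromorphicOn g U := fun z hz ↦
    ((hPa z hz).meromorphicAt.div (hQa z hz).meromorphicAt)
  -- `Q` does not vanish on a punctured neighbourhood of any point of `ℍ`
  have hQne : ∀ z ∈ U, ∀ᶠ w in 𝓝[≠] z, (Q ∘ ofComplex) w ≠ 0 := by
    intro z hz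
    rcases (hQa z hz).eventually_eq_zero_or_eventually_ne_zero with h | h
    · exfalso
      apply hQ0
      have hconn : IsPreconnected U := (convex_halfSpace_im_gt 0).isPreconnected
      have := AnalyticOnNhd.eqOn_zero_of_preconnected_of_eventuallyEq_zero
        (fun w hw ↦ hQa w hw) hconn hz h
      funext τ
      simpa using this (show (τ : ℂ) ∈ U from τ.im_pos)
    · exact h
  set F : ℂ → ℂ := toMeromorphicNFOn g U with hF
  have hFa : ∀ z ∈ U, AnalyticAt ℂ F z := by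
    intro z hz
    have hnf : MeromorphicNFAt F z := meromorphicNFOn_toMeromorphicNFOn g U hz
    rw [← hnf.meromorphicOrderAt_nonneg_iff_analyticAt, hF,
      meromorphicOrderAt_toMeromorphicNFOn hgm hz]
    have hne : meromorphicOrderAt (Q ∘ ofComplex) z ≠ ⊤ :=
      (meromorphicOrderAt_ne_top_iff_eventually_ne_zero (hQa z hz).meromorphicAt).mpr (hQne z hz)
    have hle := hord ⟨z, hz⟩
    have hdiv : meromorphicOrderAt g z =
        meromorphicOrderAt (P ∘ ofComplex) z - meromorphicOrderAt (Q ∘ ofComplex) z :=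
      meromorphicOrderAt_div (hPa z hz).meromorphicAt (hQa z hz).meromorphicAt
    rw [hdiv]
    obtain ⟨m, hm⟩ := WithTop.ne_top_iff_exists.mp hne
    replace hle : (m : WithTop ℤ) ≤ meromorphicOrderAt (P ∘ ofComplex) z := hm ▸ hle
    rw [← hm]
    cases h : meromorphicOrderAt (P ∘ ofComplex) z with
    | top => simp
    | coe n =>
      rw [h, WithTop.coe_le_coe] at hle
      rw [← WithTop.LinearOrderedAddCommGroup.coe_sub]
      exact_mod_cast sub_nonneg.mpr hle
  refine ⟨fun τ ↦ F τ, ?_, ?_⟩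
  · rw [UpperHalfPlane.mdifferentiable_iff]
    intro z hz
    have : AnalyticAt ℂ F z := hFa z hz
    refine (this.differentiableAt.congr_of_eventuallyEq ?_).differentiableWithinAt
    filter_upwards [hUo.mem_nhds hz] with w hw
    simp [Function.comp, ofComplex_apply_of_im_pos hw]
  · funext τ
    have hτ : (τ : ℂ) ∈ U := τ.im_pos
    have h1 : ContinuousAt (fun w ↦ F w * (Q ∘ ofComplex) w) τ :=
      (hFa _ hτ).continuousAt.mul (hQa _ hτ).continuousAt
    have h2 : ContinuousAt (P ∘ ofComplex) τ := (hPa _ hτ).continuousAt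
    have hev : (fun w ↦ F w * (Q ∘ ofComplex) w) =ᶠ[𝓝[≠] (τ : ℂ)] (P ∘ ofComplex) := by
      filter_upwards [hgm.toMeromorphicNFOn_eq_self_on_nhdsNE hτ, hQne _ hτ] with w hw hwne
      rw [hF, hw, hg]
      exact div_mul_cancel₀ _ hwne
    have := (h1.eventuallyEq_nhds_iff_eventuallyEq_nhdsNE h2).mp hev
    simpa using this.eq_of_nhds

/-- The quotient of two modular forms is a cusp form if it is holomorphic on `ℍ` and tends to zero
at every cusp. -/
theorem exists_cuspForm_mul_eq [Γ.IsArithmetic] [Γ.HasDetOne] (hΓ : Γ ≤ 𝒮ℒ) {a b k : ℤ} (hk : k + b = a)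
    (P : ModularForm Γ a) (Q : ModularForm Γ b) (hQ0 : Q ≠ 0)
    (hord : ∀ τ : ℍ, meromorphicOrderAt (⇑Q ∘ ofComplex) τ ≤ meromorphicOrderAt (⇑P ∘ ofComplex) τ)
    (hcusp : ∀ γ : SL(2, ℤ), (∀ᶠ τ in atImInfty, (⇑Q ∣[b] γ) τ ≠ 0) ∧
      Tendsto (fun τ ↦ (⇑P ∣[a] γ) τ / (⇑Q ∣[b] γ) τ) atImInfty (𝓝 0)) :
    ∃ f : CuspForm Γ k, ∀ τ, f τ * Q τ = P τ := by
  have hQ0' : ⇑Q ≠ 0 := fun h ↦ hQ0 (ModularForm.ext fun x ↦ congrFun h x)
  obtain ⟨f, hf, hfQ : f * ⇑Q = ⇑P⟩ := exists_mdifferentiable_mul_eq P.holo' Q.holo' hQ0' hord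
  have hmul : ∀ g : SL(2, ℤ), (f ∣[k] g) * (⇑Q ∣[b] g) = ⇑P ∣[a] g := by
    intro g
    rw [← hfQ, ← hk, ← ModularForm.mul_slash_SL2]
  refine ⟨{ toFun := f, slash_action_eq' := ?_, holo' := hf, zero_at_cusps' := ?_ }, congrFun hfQ⟩
  · intro g hg
    obtain ⟨γ, rfl⟩ := hΓ hg
    show f ∣[k] γ = f
    have h1 := hmul γ
    rw [show ⇑Q ∣[b] γ = ⇑Q from Q.slash_action_eq' _ hg,
      show ⇑P ∣[a] γ = ⇑P from P.slash_action_eq' _ hg] at h1
    have h2 : (f ∣[k] γ - f) * ⇑Q = 0 := by rw [sub_mul, h1, hfQ, sub_self]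
    have h3 : MDiff (f ∣[k] γ) := hf.slash k _
    rcases (UpperHalfPlane.mul_eq_zero_iff (h3.sub hf) Q.holo').mp h2 with h | h
    · exact sub_eq_zero.mp h
    · exact absurd h hQ0'
  · intro c hc
    rw [Subgroup.IsArithmetic.isCusp_iff_isCusp_SL2Z] at hc
    rw [OnePoint.isZeroAt_iff_forall_SL2Z hc]
    intro γ _
    obtain ⟨hne, ht⟩ := hcusp γ
    refine ht.congr' ?_
    filter_upwards [hne] with τ hτ
    rw [← hmul γ, Pi.mul_apply, mul_div_assoc, div_self hτ, mul_one]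

end Fermat.Agent.MF
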