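import Mathlib
import Fermat.Agent.MF.Defs
import Fermat.Agent.MF.DivideForms
import Fermat.Agent.MF.CuspRatio
import Fermat.Agent.MF.CuspSlash

/-!
Cusp forms of weight two as ratios: for fixed forms `A` of weight `14` and `D` of weight `12`
(`E₄²E₆` and `Δ` in the application, so that `A / D` is `θ j` up to sign), `f ↦ f D / A` embeds
`S₂(Γ₀(N))` into `MFField N`, and the image is cut out by order conditions.
-/

set_option autoImplicit false

noncomputable section

open UpperHalfPlane Filter Complex CongruenceSubgroup Function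
open scoped ModularForm MatrixGroups Topology Manifold

namespace Fermat.Agent.MF

variable {N : ℕ} {k : ℤ}

theorem meromorphicOrderAt_eq_ordAtH {f : ℍ → ℂ} (hf : MDiff f) (hf0 : f ≠ 0) (τ : ℍ) :
    meromorphicOrderAt (f ∘ ofComplex) (τ : ℂ) = ((ordAtH f τ : ℤ) : WithTop ℤ) := by
  rw [(analyticAt_ofComplex_comp hf τ).meromorphicOrderAt_eq,
    ← Nat.cast_analyticOrderNatAt (analyticOrderAt_ne_top hf hf0 τ)]
  rfl

variable [NeZero N]

/-- `f ↦ f D / A` on cusp forms of weight two. -/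
def cuspToRatio (A : MForm N 14) (D : MForm N 12) :
    CuspForm (Gamma0 N) 2 →ₗ[ℂ] LaurentSeries ℂ where
  toFun f := qL f * qL D / qL A
  map_add' f g := by
    rw [FunLike.coe_add, qL_add (mem_qFunctions_of_form (one_mem_strictPeriods_gamma0 N) f)
      (mem_qFunctions_of_form (one_mem_strictPeriods_gamma0 N) g)]
    ring
  map_smul' c f := by
    rw [RingHom.id_apply, FunLike.coe_smul,
      qL_smul c (mem_qFunctions_of_form (one_mem_strictPeriods_gamma0 N) f), ← HahnSeries.C_mul_eq_smul,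
      ModularCurve.algebraMap_laurentSeries_eq_single, ← HahnSeries.C_apply]
    ring

omit [NeZero N] in
theorem cuspToRatio_apply (A : MForm N 14) (D : MForm N 12) (f : CuspForm (Gamma0 N) 2) :
    cuspToRatio A D f = qL f * qL D / qL A := rfl

omit [NeZero N] in
theorem qL_cuspForm_mem (f : CuspForm (Gamma0 N) k) : ⇑f ∈ qFunctions :=
  mem_qFunctions_of_form (one_mem_strictPeriods_gamma0 N) f

omit [NeZero N] in
theorem cuspToRatio_injective {A : MForm N 14} {D : MForm N 12} (hA : A ≠ 0) (hD : D ≠ 0) :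
    Function.Injective (cuspToRatio A D) := by
  rw [injective_iff_map_eq_zero]
  intro f hf
  rw [cuspToRatio_apply, div_eq_zero_iff, mul_eq_zero, qL_mform_eq_zero_iff,
    qL_mform_eq_zero_iff, or_iff_left hA, or_iff_left hD, qL_eq_zero_iff (qL_cuspForm_mem f)] at hf
  exact (FunLike.coe_zero_iff _).mp hf

theorem cuspToRatio_mem_MFField (A : MForm N 14) (D : MForm N 12) (f : CuspForm (Gamma0 N) 2) :
    cuspToRatio A D f ∈ MFField N := by
  set P : MForm N 14 := ModularForm.mcast (by norm_num : (2 : ℤ) + 12 = 14)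
    ((ModularFormClass.modularForm f).mul D)
  have he : qL P = qL f * qL D := qL_mul (qL_cuspForm_mem f) (coe_mem_qFunctions D)
  rw [cuspToRatio_apply, ← he]
  exact div_mem_MFField P A

/-- The image of `cuspToRatio`, described on an arbitrary representation `x = F / G`. -/
theorem exists_cuspToRatio_eq_iff {A : MForm N 14} {D : MForm N 12} (hA : A ≠ 0) (hD : D ≠ 0)
    {F G : MForm N k} (hF : F ≠ 0) (hG : G ≠ 0) :
    (∃ f, cuspToRatio A D f = qL F / qL G) ↔
      (∀ τ : ℍ, ordAtH G τ + ordAtH D τ ≤ ordAtH F τ + ordAtH A τ) ∧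
      (∀ γ : SL(2, ℤ),
        (qExpansion (N : ℝ) (⇑G ∣[k] γ)).order + (qExpansion (N : ℝ) (⇑D ∣[(12 : ℤ)] γ)).order <
          (qExpansion (N : ℝ) (⇑F ∣[k] γ)).order +
            (qExpansion (N : ℝ) (⇑A ∣[(14 : ℤ)] γ)).order) := by
  have hq : ∀ f : CuspForm (Gamma0 N) 2,
      cuspToRatio A D f = qL F / qL G ↔ ⇑f * ⇑(G.mul D) = ⇑(F.mul A) := fun f ↦ by
    rw [cuspToRatio_apply, div_eq_div_iff (mt (qL_mform_eq_zero_iff A).mp hA)
      (mt (qL_mform_eq_zero_iff G).mp hG), mul_assoc, mul_comm (qL D),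
      ← qL_mform_mul, ← qL_mform_mul, ← qL_mul (qL_cuspForm_mem f) (coe_mem_qFunctions _),
      qL_inj (mul_mem (qL_cuspForm_mem f) (coe_mem_qFunctions _)) (coe_mem_qFunctions _)]
  have hGD0 : G.mul D ≠ 0 := mform_mul_ne_zero hG hD
  have hFA0 : F.mul A ≠ 0 := mform_mul_ne_zero hF hA
  have hordG : ∀ τ, ordAtH (G.mul D) τ = ordAtH G τ + ordAtH D τ := fun τ ↦ ordAtH_mul
    (ModularFormClass.holo G) (ModularFormClass.holo D) (mform_coe_ne_zero hG)
    (mform_coe_ne_zero hD) τ
  have hordF : ∀ τ, ordAtH (F.mul A) τ = ordAtH F τ + ordAtH A τ := fun τ ↦ ordAtH_mul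
    (ModularFormClass.holo F) (ModularFormClass.holo A) (mform_coe_ne_zero hF)
    (mform_coe_ne_zero hA) τ
  simp only [← hordG, ← hordF, ← order_qExpansion_slash_mul, ← ModularForm.coe_mul]
  constructor
  · rintro ⟨f, hf⟩
    rw [hq] at hf
    have hf0 : ⇑f ≠ 0 := fun h ↦ mform_coe_ne_zero hFA0 (by rw [← hf, h, zero_mul])
    refine ⟨fun τ ↦ ?_, fun γ ↦ ?_⟩
    · rw [← hf, ordAtH_mul (CuspFormClass.holo f) (ModularFormClass.holo _) hf0
        (mform_coe_ne_zero hGD0)]
      exact le_add_of_nonneg_left (Int.natCast_nonneg _)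
    · have h14 : (k + 14 : ℤ) = 2 + (k + 12) := by ring
      rw [← hf, h14, order_qExpansion_slash_mul]
      refine lt_of_lt_of_le ?_ (add_le_add_left (one_le_order_qExpansion_slash_cuspForm f γ) _)
      obtain ⟨m, hm⟩ := ENat.ne_top_iff_exists.mp (PowerSeries.order_eq_top.not.mpr
        (qExpansion_slash_ne_zero (k := k + 12) (G.mul D) (mform_coe_ne_zero hGD0) γ))
      rw [← hm]
      exact_mod_cast (by omega : m < 1 + m)
  · rintro ⟨hH, hC⟩
    obtain ⟨f, hf⟩ := exists_cuspForm_mul_eq (k := 2) (Subgroup.map_mono le_top |>.trans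
        (by rw [MonoidHom.range_eq_map])) (by ring : (2 : ℤ) + (k + 12) = k + 14)
      (F.mul A) (G.mul D) hGD0
      (fun τ ↦ by
        rw [meromorphicOrderAt_eq_ordAtH (ModularFormClass.holo _) (mform_coe_ne_zero hGD0),
          meromorphicOrderAt_eq_ordAtH (ModularFormClass.holo _) (mform_coe_ne_zero hFA0)]
        exact WithTop.coe_le_coe.mpr (hH τ))
      (fun γ ↦ ⟨eventually_ne_zero_atImInfty natCast_pos_real (periodic_slash_gamma0 _ γ)
          (analyticAt_cuspFunction_slash_gamma0 _ γ)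
          (qExpansion_slash_ne_zero _ (mform_coe_ne_zero hGD0) γ),
        tendsto_div_atImInfty_zero natCast_pos_real (periodic_slash_gamma0 _ γ)
          (analyticAt_cuspFunction_slash_gamma0 _ γ) (periodic_slash_gamma0 _ γ)
          (analyticAt_cuspFunction_slash_gamma0 _ γ) (hC γ)⟩)
    exact ⟨f, (hq f).mpr (funext hf)⟩

end Fermat.Agent.MF
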