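import Mathlib
import Fermat.Agent.MF.Defs
import Fermat.Agent.MF.Degeneracy
import Fermat.Agent.MF.KleinJ
import Fermat.Agent.MF.CuspFormRatio
import Fermat.Prelude.Thm_UpperHalfPlane_qExpansion_coeff_nat_mul

/-!
`cuspToDiff : f ↦ f Δ / (E₄² E₆)` embeds `S₂(Γ₀(N))` into `MFField N` (up to a constant it is
`f ↦ f dτ / dj`), with image given by order conditions relative to the local degree of `j`.
-/

set_option autoImplicit false

noncomputable section

open UpperHalfPlane CongruenceSubgroup ModularForm EisensteinSeries Function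
open scoped ModularForm MatrixGroups Manifold

namespace Fermat.Agent.MF

variable (N : ℕ)

/-- `E₄² E₆` at level `N`. -/
def cuspA : MForm N 14 :=
  ofLevelOne N (ModularForm.mcast (by norm_num : (4 : ℤ) + 4 + 6 = 14) ((E₄.mul E₄).mul E₆))

/-- `Δ` at level `N`. -/
def cuspD : MForm N 12 := ofLevelOne N (ModularFormClass.modularForm CuspForm.discriminant)

theorem coe_cuspA : ⇑(cuspA N) = ⇑E₄ * ⇑E₄ * ⇑E₆ := rfl

theorem coe_cuspD : ⇑(cuspD N) = ModularForm.discriminant := rfl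

theorem cuspD_ne_zero : cuspD N ≠ 0 := fun h ↦
  discriminant_ne_zero UpperHalfPlane.I (congrArg (fun f : MForm N 12 ↦ f UpperHalfPlane.I) h)

theorem levelOne_coe_ne_zero_of_constantTerm {k : ℤ} (f : ModularForm 𝒮ℒ k)
    (h : (qExpansion 1 f).coeff 0 ≠ 0) : (f : ℍ → ℂ) ≠ 0 := fun h0 ↦ h (by
  rw [h0, qExpansion_zero]; simp)

theorem coe_E₄_ne_zero : (⇑E₄ : ℍ → ℂ) ≠ 0 :=
  levelOne_coe_ne_zero_of_constantTerm _ (by
    rw [EisensteinSeries.E_qExpansion_coeff_zero _ ⟨2, rfl⟩]; norm_num)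

theorem coe_E₆_ne_zero : (⇑E₆ : ℍ → ℂ) ≠ 0 :=
  levelOne_coe_ne_zero_of_constantTerm _ (by
    rw [EisensteinSeries.E_qExpansion_coeff_zero _ ⟨3, rfl⟩]; norm_num)

theorem cuspA_ne_zero : cuspA N ≠ 0 := by
  intro h
  have h0 : (⇑E₄ * ⇑E₄) * ⇑E₆ = 0 := by rw [← coe_cuspA N, h]; rfl
  rcases (UpperHalfPlane.mul_eq_zero_iff ((ModularFormClass.holo E₄).mul (ModularFormClass.holo E₄))
    (ModularFormClass.holo E₆)).mp h0 with h1 | h1
  · rcases (UpperHalfPlane.mul_eq_zero_iff (ModularFormClass.holo E₄)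
      (ModularFormClass.holo E₄)).mp h1 with h2 | h2 <;> exact coe_E₄_ne_zero h2
  · exact coe_E₆_ne_zero h1

theorem ordAtH_eq_zero_of_ne_zero {f : ℍ → ℂ} (hf : MDiff f) {τ : ℍ} (h : f τ ≠ 0) :
    ordAtH f τ = 0 := by
  rw [ordAtH, analyticOrderNatAt, (analyticAt_ofComplex_comp hf τ).analyticOrderAt_eq_zero.mpr
    (by simpa using h)]
  rfl

theorem ordAtH_eq_one_of_deriv_ne_zero {f : ℍ → ℂ} (hf : MDiff f) {τ : ℍ} (h : f τ = 0)
    (hd : deriv (f ∘ ofComplex) (τ : ℂ) ≠ 0) : ordAtH f τ = 1 := by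
  have h1 : analyticOrderAt (f ∘ ofComplex) (τ : ℂ) = 1 := by
    simpa [h] using! (analyticAt_ofComplex_comp hf τ).analyticOrderAt_sub_eq_one_of_deriv_ne_zero hd
  rw [ordAtH, analyticOrderNatAt, h1]
  rfl

theorem ordAtH_cuspA (τ : ℍ) : ordAtH (cuspA N) τ = (kleinJDegree τ : ℤ) - 1 := by
  have h4 := ModularFormClass.holo E₄
  have h6 := ModularFormClass.holo E₆
  have h44 : (⇑E₄ * ⇑E₄ : ℍ → ℂ) ≠ 0 := fun h ↦ by
    rcases (UpperHalfPlane.mul_eq_zero_iff h4 h4).mp h with h | h <;> exact coe_E₄_ne_zero h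
  rw [coe_cuspA, ordAtH_mul (h4.mul h4) h6 h44 coe_E₆_ne_zero,
    ordAtH_mul h4 h4 coe_E₄_ne_zero coe_E₄_ne_zero]
  unfold kleinJDegree
  split_ifs with h0 h1
  · have e := (kleinJ_eq_zero_iff τ).mp h0
    rw [ordAtH_eq_one_of_deriv_ne_zero h4 e (deriv_E₄_ne_zero_of_eq_zero e),
      ordAtH_eq_zero_of_ne_zero h6 (E₄_E₆_ne_zero τ e)]
    norm_num
  · have e := (kleinJ_eq_1728_iff τ).mp h1
    rw [ordAtH_eq_one_of_deriv_ne_zero h6 e (deriv_E₆_ne_zero_of_eq_zero e),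
      ordAtH_eq_zero_of_ne_zero h4 (fun h ↦ E₄_E₆_ne_zero τ h e)]
    norm_num
  · rw [ordAtH_eq_zero_of_ne_zero h4 (mt (kleinJ_eq_zero_iff τ).mpr h0),
      ordAtH_eq_zero_of_ne_zero h6 (mt (kleinJ_eq_1728_iff τ).mpr h1)]
    norm_num

theorem ordAtH_cuspD (τ : ℍ) : ordAtH (cuspD N) τ = 0 :=
  ordAtH_eq_zero_of_ne_zero (ModularFormClass.holo _) (discriminant_ne_zero τ)

variable [NeZero N]

theorem qExpansion_natCast_levelOne_coeff {k : ℤ} (f : ModularForm 𝒮ℒ k) (n : ℕ) :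
    (qExpansion (N : ℝ) f).coeff n =
      if N ∣ n then (qExpansion 1 f).coeff (n / N) else 0 := by
  have h := UpperHalfPlane.qExpansion_coeff_nat_mul one_pos
    (SlashInvariantFormClass.periodic_comp_ofComplex f one_mem_strictPeriods_SL)
    (ModularFormClass.holo f) (ModularFormClass.bdd_at_infty f) (NeZero.pos N) n
  rwa [mul_one] at h

theorem order_qExpansion_cuspA_slash (γ : SL(2, ℤ)) :
    (qExpansion (N : ℝ) (⇑(cuspA N) ∣[(14 : ℤ)] γ)).order = 0 := by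
  set f := ModularForm.mcast (by norm_num : (4 : ℤ) + 4 + 6 = 14) ((E₄.mul E₄).mul E₆)
    with hf
  have he : ⇑(cuspA N) ∣[(14 : ℤ)] γ = ⇑f :=
    SlashInvariantFormClass.slash_action_eq f _ ⟨γ, rfl⟩
  rw [he]
  refine le_antisymm (PowerSeries.order_le 0 ?_) bot_le
  rw [qExpansion_natCast_levelOne_coeff N f, if_pos (dvd_zero N), Nat.zero_div]
  rw [hf, ModularForm.qExpansion_mcast, ModularForm.qExpansion_mul one_pos one_mem_strictPeriods_SL,
    ModularForm.qExpansion_mul one_pos one_mem_strictPeriods_SL]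
  simp only [PowerSeries.coeff_zero_eq_constantCoeff, map_mul]
  simp only [← PowerSeries.coeff_zero_eq_constantCoeff]
  rw [EisensteinSeries.E_qExpansion_coeff_zero _ ⟨2, rfl⟩,
    EisensteinSeries.E_qExpansion_coeff_zero _ ⟨3, rfl⟩]
  norm_num

theorem order_qExpansion_cuspD_slash (γ : SL(2, ℤ)) :
    (qExpansion (N : ℝ) (⇑(cuspD N) ∣[(12 : ℤ)] γ)).order = N := by
  set f : ModularForm 𝒮ℒ 12 := ModularFormClass.modularForm CuspForm.discriminant with hf
  have he : ⇑(cuspD N) ∣[(12 : ℤ)] γ = ⇑f :=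
    SlashInvariantFormClass.slash_action_eq f _ ⟨γ, rfl⟩
  rw [he, PowerSeries.order_eq_nat]
  refine ⟨?_, fun i hi ↦ ?_⟩
  · rw [qExpansion_natCast_levelOne_coeff N f, if_pos dvd_rfl, Nat.div_self (NeZero.pos N)]
    exact discriminant_qExpansion_coeff_one.trans_ne one_ne_zero
  · rw [qExpansion_natCast_levelOne_coeff N f]
    split_ifs with hd
    · obtain rfl : i = 0 := Nat.eq_zero_of_dvd_of_lt hd hi
      rw [Nat.zero_div, qExpansion_coeff_zero one_pos
        (ModularFormClass.analyticAt_cuspFunction_zero f one_pos one_mem_strictPeriods_SL)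
        (SlashInvariantFormClass.periodic_comp_ofComplex f one_mem_strictPeriods_SL)]
      exact discriminant_isZeroAtImInfty.valueAtInfty_eq_zero
    · rfl

/-- `f ↦ f Δ / (E₄² E₆)`. -/
def cuspToDiff : CuspForm (Gamma0 N) 2 →ₗ[ℂ] LaurentSeries ℂ :=
  cuspToRatio (cuspA N) (cuspD N)

omit [NeZero N] in
theorem cuspToDiff_injective : Function.Injective (cuspToDiff N) :=
  cuspToRatio_injective (cuspA_ne_zero N) (cuspD_ne_zero N)

theorem cuspToDiff_mem_MFField (f : CuspForm (Gamma0 N) 2) : cuspToDiff N f ∈ MFField N :=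
  cuspToRatio_mem_MFField _ _ f

variable {N}

/-- Image of `cuspToDiff`: `ord_τ x + d_τ ≥ 1` on `ℍ` and `ord_{q_N} x > N` at the cusps, where
`d_τ` is the local degree of `j`. -/
theorem exists_cuspToDiff_eq_iff {k : ℤ} {F G : MForm N k} (hF : F ≠ 0) (hG : G ≠ 0) :
    (∃ f, cuspToDiff N f = qL F / qL G) ↔
      (∀ τ : ℍ, 1 ≤ mfOrdAt N (qL F / qL G) τ + (kleinJDegree τ : ℤ)) ∧
      (∀ γ : SL(2, ℤ), (qExpansion (N : ℝ) (⇑G ∣[k] γ)).order + N <
        (qExpansion (N : ℝ) (⇑F ∣[k] γ)).order) := by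
  rw [cuspToDiff, exists_cuspToRatio_eq_iff (cuspA_ne_zero N) (cuspD_ne_zero N) hF hG]
  simp only [mfOrdAt_eq hF hG, ordAtH_cuspA, ordAtH_cuspD, order_qExpansion_cuspA_slash,
    order_qExpansion_cuspD_slash, add_zero]
  refine and_congr (forall_congr' fun τ ↦ ?_) Iff.rfl
  omega

end Fermat.Agent.MF
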