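import Mathlib
import Fermat.Agent.MF.CuspFormJ
import Fermat.Agent.FF.KaehlerDivX

/-!
`S₂(Γ₀(N))` as the Riemann–Roch space of `div (dj)` on the field of ratios, given the dictionary
between its places and the points of `ℍ` and the cusps.
-/

set_option autoImplicit false

noncomputable section

open UpperHalfPlane CongruenceSubgroup ModularForm EisensteinSeries AlgebraicCurve
  KaehlerDifferential Fermat.Agent.FF
open scoped ModularForm MatrixGroups

namespace Fermat.Agent.MF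

variable (N : ℕ) [NeZero N]

/-- `P` computes orders at the point `τ`, up to a positive factor. -/
def IsPlaceAt (P : Place ℂ (MFField N)) (τ : ℍ) : Prop :=
  ∃ k : ℕ, 0 < k ∧ ∀ z : MFField N, z ≠ 0 → mfOrdAt N (z : LaurentSeries ℂ) τ = k * P.ord z

/-- `P` computes `q_N`-orders at the cusp `γ ∞`, up to a positive factor. -/
def IsPlaceAtCusp (P : Place ℂ (MFField N)) (γ : SL(2, ℤ)) : Prop :=
  ∃ m : ℕ, 0 < m ∧ ∀ (k : ℤ) (F G : MForm N k), F ≠ 0 → G ≠ 0 → ∀ z : MFField N,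
    (z : LaurentSeries ℂ) = qL F / qL G →
    ((qExpansion (N : ℝ) (⇑F ∣[k] γ)).order.toNat : ℤ)
      - (qExpansion (N : ℝ) (⇑G ∣[k] γ)).order.toNat = m * P.ord z

/-- `E₄³` at level `N`. -/
def cuspE : MForm N 12 :=
  ofLevelOne N (ModularForm.mcast (by norm_num : (4 : ℤ) + 4 + 4 = 12) ((E₄.mul E₄).mul E₄))

omit [NeZero N] in
theorem coe_cuspE : ⇑(cuspE N) = (⇑E₄ : ℍ → ℂ) ^ 3 := by rw [pow_three']; rfl

omit [NeZero N] in
theorem cuspE_ne_zero : cuspE N ≠ 0 := by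
  intro h
  have h0 : (⇑E₄ : ℍ → ℂ) ^ 3 = 0 := by rw [← coe_cuspE N, h]; rfl
  rw [pow_three'] at h0
  rcases (UpperHalfPlane.mul_eq_zero_iff ((ModularFormClass.holo E₄).mul (ModularFormClass.holo E₄))
    (ModularFormClass.holo E₄)).mp h0 with h1 | h1
  · rcases (UpperHalfPlane.mul_eq_zero_iff (ModularFormClass.holo E₄)
      (ModularFormClass.holo E₄)).mp h1 with h2 | h2 <;> exact coe_E₄_ne_zero h2
  · exact coe_E₄_ne_zero h1

theorem order_qExpansion_cuspE_slash (γ : SL(2, ℤ)) :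
    (qExpansion (N : ℝ) (⇑(cuspE N) ∣[(12 : ℤ)] γ)).order = 0 := by
  set f := ModularForm.mcast (by norm_num : (4 : ℤ) + 4 + 4 = 12) ((E₄.mul E₄).mul E₄)
    with hf
  have he : ⇑(cuspE N) ∣[(12 : ℤ)] γ = ⇑f :=
    SlashInvariantFormClass.slash_action_eq f _ ⟨γ, rfl⟩
  rw [he]
  refine le_antisymm (PowerSeries.order_le 0 ?_) bot_le
  rw [qExpansion_natCast_levelOne_coeff N f, if_pos (dvd_zero N), Nat.zero_div]
  rw [hf, ModularForm.qExpansion_mcast, ModularForm.qExpansion_mul one_pos one_mem_strictPeriods_SL,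
    ModularForm.qExpansion_mul one_pos one_mem_strictPeriods_SL]
  simp only [PowerSeries.coeff_zero_eq_constantCoeff, map_mul]
  simp only [← PowerSeries.coeff_zero_eq_constantCoeff]
  rw [EisensteinSeries.E_qExpansion_coeff_zero _ ⟨2, rfl⟩]
  norm_num

variable {N}

omit [NeZero N] in
theorem jElt_sub_eq {x : MFField N}
    (hx : (x : LaurentSeries ℂ) * qL (cuspD N) = qL (cuspE N)) (c : ℂ) :
    ((x - algebraMap ℂ (MFField N) c : MFField N) : LaurentSeries ℂ) =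
      qL (cuspE N - c • cuspD N : MForm N 12) / qL (cuspD N) := by
  have hd : qL (cuspD N) ≠ 0 := mt (qL_mform_eq_zero_iff _).mp (cuspD_ne_zero N)
  rw [eq_div_iff hd, AddSubgroupClass.coe_sub, sub_mul, hx, IntermediateField.coe_algebraMap_apply,
    sub_eq_iff_eq_add, ← qL_mform_smul, ← qL_mform_add, sub_add_cancel]

omit [NeZero N] in
theorem cuspE_sub_smul_ne_zero (c : ℂ) : cuspE N - c • cuspD N ≠ 0 := by
  intro h
  obtain ⟨z, hz⟩ := kleinJ_surjective (c + 1)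
  have h1 : cuspE N z - c * cuspD N z = 0 := by
    simpa using congrArg (fun f : MForm N 12 ↦ f z) h
  rw [coe_cuspE, coe_cuspD, Pi.pow_apply, ← kleinJ_mul_discriminant, hz, add_mul, one_mul,
    add_sub_cancel_left] at h1
  exact discriminant_ne_zero z h1

omit [NeZero N] in
/-- `ord_τ (j - j(τ))` is the local degree. -/
theorem mfOrdAt_jElt_sub {x : MFField N}
    (hx : (x : LaurentSeries ℂ) * qL (cuspD N) = qL (cuspE N)) (τ : ℍ) :
    mfOrdAt N ((x - algebraMap ℂ (MFField N) (kleinJ τ) : MFField N) : LaurentSeries ℂ) τ =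
      (kleinJDegree τ : ℤ) := by
  rw [jElt_sub_eq hx, mfOrdAt_eq (cuspE_sub_smul_ne_zero _) (cuspD_ne_zero N), ordAtH_cuspD,
    sub_zero]
  have hfun : (⇑(cuspE N - kleinJ τ • cuspD N) : ℍ → ℂ) ∘ ofComplex =
      (fun w => (kleinJ ∘ ofComplex) w - kleinJ τ) * (ModularForm.discriminant ∘ ofComplex) := by
    funext w
    simp [coe_cuspE, coe_cuspD, sub_mul, kleinJ_mul_discriminant]
  have hD := analyticAt_ofComplex_comp discriminant_mdifferentiable τ
  have hK : AnalyticAt ℂ (fun w => (kleinJ ∘ ofComplex) w - kleinJ τ) (τ : ℂ) :=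
    (kleinJ_analyticAt τ.im_pos).sub analyticAt_const
  rw [ordAtH, hfun, analyticOrderNatAt, analyticOrderAt_mul hK hD, analyticOrderAt_kleinJ_sub,
    hD.analyticOrderAt_eq_zero.mpr (by simpa using discriminant_ne_zero τ), add_zero]
  rfl

theorem ord_jElt_at_cusp {x : MFField N}
    (hx : (x : LaurentSeries ℂ) * qL (cuspD N) = qL (cuspE N))
    {P : Place ℂ (MFField N)} {γ : SL(2, ℤ)} {m : ℕ}
    (hP : ∀ (k : ℤ) (F G : MForm N k), F ≠ 0 → G ≠ 0 → ∀ z : MFField N,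
      (z : LaurentSeries ℂ) = qL F / qL G →
      ((qExpansion (N : ℝ) (⇑F ∣[k] γ)).order.toNat : ℤ)
        - (qExpansion (N : ℝ) (⇑G ∣[k] γ)).order.toNat = m * P.ord z) :
    (m : ℤ) * P.ord x = -(N : ℤ) := by
  have hd : qL (cuspD N) ≠ 0 := mt (qL_mform_eq_zero_iff _).mp (cuspD_ne_zero N)
  rw [← hP 12 _ _ (cuspE_ne_zero N) (cuspD_ne_zero N) x ((eq_div_iff hd).mpr hx),
    order_qExpansion_cuspE_slash, order_qExpansion_cuspD_slash]
  simp

omit [NeZero N] in
theorem coe_ne_zero_of_ne_zero {z : MFField N} (hz : z ≠ 0) {k : ℤ} {F G : MForm N k}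
    (hzF : (z : LaurentSeries ℂ) = qL F / qL G) : F ≠ 0 := by
  rintro rfl
  exact hz (Subtype.ext (by rw [hzF, FunLike.coe_zero, qL_zero, zero_div]; rfl))

variable [IsCurveOver ℂ (MFField N)]

theorem D_jElt_ne_zero {x : MFField N}
    (hx : (x : LaurentSeries ℂ) * qL (cuspD N) = qL (cuspE N))
    (hPt : ∀ τ : ℍ, ∃ P, IsPlaceAt N P τ) : D ℂ (MFField N) x ≠ 0 := by
  obtain ⟨P, k, hk, hP⟩ := hPt UpperHalfPlane.I
  set c := kleinJ UpperHalfPlane.I
  have hne : x - algebraMap ℂ (MFField N) c ≠ 0 := by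
    intro h
    have h2 : qL (cuspE N - c • cuspD N : MForm N 12) / qL (cuspD N) = (0 : LaurentSeries ℂ) :=
      (jElt_sub_eq hx c).symm.trans (by rw [h]; exact ZeroMemClass.coe_zero _)
    rw [div_eq_zero_iff, qL_mform_eq_zero_iff, qL_mform_eq_zero_iff] at h2
    exact h2.elim (cuspE_sub_smul_ne_zero c) (cuspD_ne_zero N)
  have h := hP _ hne
  rw [mfOrdAt_jElt_sub hx] at h
  have hne0 : (P.ord (x - algebraMap ℂ (MFField N) c) : ℂ) ≠ 0 := by
    rw [Int.cast_ne_zero]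
    intro h0
    rw [h0, mul_zero] at h
    have := kleinJDegree_pos UpperHalfPlane.I
    omega
  have hD := KS.D_ne_zero_of_ord (IsCurveOver.deg_eq_one_of_isAlgClosed P) hne0
  simpa using hD

variable [HasCanonicalDivisor (K := ℂ) (F := MFField N)]

/-- **Weight two cusp forms are the functions of `L(div dj)`.** -/
theorem cuspToDiff_dictionary {x : MFField N}
    (hx : (x : LaurentSeries ℂ) * qL (cuspD N) = qL (cuspE N))
    (hPt : ∀ τ : ℍ, ∃ P, IsPlaceAt N P τ) (hCu : ∀ γ : SL(2, ℤ), ∃ P, IsPlaceAtCusp N P γ)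
    (hDx : D ℂ (MFField N) x ≠ 0) (z : MFField N) :
    (z ∈ riemannRochSpace (canonicalDivisorOf hDx) →
      ∃ f, cuspToDiff N f = (z : LaurentSeries ℂ)) ∧
    ((∀ P : Place ℂ (MFField N), (∃ τ, IsPlaceAt N P τ) ∨ ∃ γ, IsPlaceAtCusp N P γ) →
      (∃ f, cuspToDiff N f = (z : LaurentSeries ℂ)) →
        z ∈ riemannRochSpace (canonicalDivisorOf hDx)) := by
  rcases eq_or_ne z 0 with rfl | hz
  · exact ⟨fun _ ↦ ⟨0, map_zero _⟩, fun _ _ ↦ zero_mem _⟩
  obtain ⟨k, F, G, hG, hzF⟩ := mem_MFField_iff.mp z.2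
  have hF : F ≠ 0 := coe_ne_zero_of_ne_zero hz hzF
  rw [hzF, exists_cuspToDiff_eq_iff hF hG, ← hzF, mem_riemannRochSpace_iff]
  simp only [hz, false_or, canonicalDivisorOf_apply]
  have hdeg : ∀ P : Place ℂ (MFField N), P.deg = 1 := IsCurveOver.deg_eq_one_of_isAlgClosed
  have keyPt : ∀ τ P, IsPlaceAt N P τ →
      (1 ≤ mfOrdAt N (z : LaurentSeries ℂ) τ + (kleinJDegree τ : ℤ) ↔
        -P.ordDifferential (D ℂ (MFField N) x) ≤ P.ord z) := by
    rintro τ P ⟨l, hl, hP⟩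
    have hd : (kleinJDegree τ : ℤ) = l * P.ord (x - algebraMap ℂ (MFField N) (kleinJ τ)) := by
      rw [← mfOrdAt_jElt_sub hx, hP]
      exact sub_ne_zero.mpr (KS.ne_algebraMap_of_D_ne_zero hDx _)
    have hpos : 0 < P.ord (x - algebraMap ℂ (MFField N) (kleinJ τ)) := by
      have := kleinJDegree_pos τ
      nlinarith
    rw [KS.ordDifferential_D_of_sub_pos (hdeg P) hpos, hP z hz, hd, ← mul_add]
    set a := P.ord z
    set b := P.ord (x - algebraMap ℂ (MFField N) (kleinJ τ))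
    constructor
    · intro h
      by_contra hc
      have : (l : ℤ) * (a + b) ≤ 0 := mul_nonpos_of_nonneg_of_nonpos (by omega) (by omega)
      omega
    · intro h
      have : (l : ℤ) * 1 ≤ l * (a + b) := mul_le_mul_of_nonneg_left (by omega) (by omega)
      omega
  have keyCu : ∀ γ P, IsPlaceAtCusp N P γ →
      ((qExpansion (N : ℝ) (⇑G ∣[k] γ)).order + N < (qExpansion (N : ℝ) (⇑F ∣[k] γ)).order ↔
        -P.ordDifferential (D ℂ (MFField N) x) ≤ P.ord z) := by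
    rintro γ P ⟨m, hm, hP⟩
    have hj := ord_jElt_at_cusp hx hP
    have hN := NeZero.pos N
    have hneg : P.ord x < 0 := by nlinarith
    have h := hP k F G hF hG z hzF
    obtain ⟨a, ha⟩ := ENat.ne_top_iff_exists.mp (PowerSeries.order_eq_top.not.mpr
      (qExpansion_slash_ne_zero (k := k) F (mform_coe_ne_zero hF) γ))
    obtain ⟨b, hb⟩ := ENat.ne_top_iff_exists.mp (PowerSeries.order_eq_top.not.mpr
      (qExpansion_slash_ne_zero (k := k) G (mform_coe_ne_zero hG) γ))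
    rw [← ha, ← hb, ENat.toNat_natCast, ENat.toNat_natCast] at h
    rw [KS.ordDifferential_D_of_neg (hdeg P) hneg, ← ha, ← hb]
    norm_cast
    constructor
    · intro h'
      have hpos : 0 < (m : ℤ) * (P.ord z + P.ord x) := by rw [mul_add]; omega
      nlinarith
    · intro h'
      have : (m : ℤ) * 1 ≤ m * (P.ord z + P.ord x) := mul_le_mul_of_nonneg_left (by omega) (by omega)
      rw [mul_add] at this
      omega
  refine ⟨fun h ↦ ⟨fun τ ↦ ?_, fun γ ↦ ?_⟩, fun hAll ↦ ?_⟩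
  · obtain ⟨P, hP⟩ := hPt τ
    exact (keyPt τ P hP).mpr (h P)
  · obtain ⟨P, hP⟩ := hCu γ
    exact (keyCu γ P hP).mpr (h P)
  · rintro ⟨hH, hC⟩ P
    rcases hAll P with ⟨τ, hτ⟩ | ⟨γ, hγ⟩
    · exact (keyPt τ P hτ).mp (hH τ)
    · exact (keyCu γ P hγ).mp (hC γ)

theorem exists_cuspToDiff_iff_mem_riemannRochSpace {x : MFField N}
    (hx : (x : LaurentSeries ℂ) * qL (cuspD N) = qL (cuspE N))
    (hPt : ∀ τ : ℍ, ∃ P, IsPlaceAt N P τ) (hCu : ∀ γ : SL(2, ℤ), ∃ P, IsPlaceAtCusp N P γ)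
    (hAll : ∀ P : Place ℂ (MFField N), (∃ τ, IsPlaceAt N P τ) ∨ ∃ γ, IsPlaceAtCusp N P γ)
    (hDx : D ℂ (MFField N) x ≠ 0) (z : MFField N) :
    (∃ f, cuspToDiff N f = (z : LaurentSeries ℂ)) ↔
      z ∈ riemannRochSpace (canonicalDivisorOf hDx) :=
  ⟨(cuspToDiff_dictionary hx hPt hCu hDx z).2 hAll, (cuspToDiff_dictionary hx hPt hCu hDx z).1⟩

variable (N) in
/-- `cuspToDiff` as a map into the field of ratios. -/
def cuspToDiffField : CuspForm (Gamma0 N) 2 →ₗ[ℂ] MFField N where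
  toFun f := ⟨cuspToDiff N f, cuspToDiff_mem_MFField N f⟩
  map_add' f g := Subtype.ext (map_add (cuspToDiff N) f g)
  map_smul' c f := Subtype.ext (by
    rw [RingHom.id_apply, IntermediateField.coe_smul, Algebra.smul_def]
    simp only [cuspToDiff, cuspToRatio_apply, FunLike.coe_smul]
    rw [qL_smul c (qL_cuspForm_mem f)]
    ring)

/-- `l(div dj) ≤ dim S₂(Γ₀(N))`, from the existence of places at points and cusps. -/
theorem finrank_riemannRochSpace_le_finrank_cuspForm {x : MFField N}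
    (hfin : FiniteDimensional ℂ (CuspForm (Gamma0 N) 2))
    (hx : (x : LaurentSeries ℂ) * qL (cuspD N) = qL (cuspE N))
    (hPt : ∀ τ : ℍ, ∃ P, IsPlaceAt N P τ) (hCu : ∀ γ : SL(2, ℤ), ∃ P, IsPlaceAtCusp N P γ)
    (hDx : D ℂ (MFField N) x ≠ 0) :
    Module.finrank ℂ ↥(riemannRochSpace (canonicalDivisorOf hDx)) ≤
      Module.finrank ℂ (CuspForm (Gamma0 N) 2) := by
  refine le_trans ?_ (LinearMap.finrank_range_le (cuspToDiffField N))
  exact Submodule.finrank_mono fun z hz ↦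
    ((cuspToDiff_dictionary hx hPt hCu hDx z).1 hz).imp fun f hf ↦ Subtype.ext hf

/-- `dim S₂(Γ₀(N)) = l(div dj)`. -/
theorem finrank_cuspForm_eq_finrank_riemannRochSpace {x : MFField N}
    (hx : (x : LaurentSeries ℂ) * qL (cuspD N) = qL (cuspE N))
    (hPt : ∀ τ : ℍ, ∃ P, IsPlaceAt N P τ) (hCu : ∀ γ : SL(2, ℤ), ∃ P, IsPlaceAtCusp N P γ)
    (hAll : ∀ P : Place ℂ (MFField N), (∃ τ, IsPlaceAt N P τ) ∨ ∃ γ, IsPlaceAtCusp N P γ)
    (hDx : D ℂ (MFField N) x ≠ 0) :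
    Module.finrank ℂ (CuspForm (Gamma0 N) 2) =
      Module.finrank ℂ ↥(riemannRochSpace (canonicalDivisorOf hDx)) := by
  let φ : CuspForm (Gamma0 N) 2 →ₗ[ℂ] MFField N := cuspToDiffField N
  have hφ : Function.Injective φ := fun a b h ↦
    cuspToDiff_injective N (congrArg Subtype.val h)
  have hrange : LinearMap.range φ = riemannRochSpace (canonicalDivisorOf hDx) := by
    ext z
    rw [← exists_cuspToDiff_iff_mem_riemannRochSpace hx hPt hCu hAll hDx, LinearMap.mem_range]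
    exact ⟨fun ⟨f, hf⟩ ↦ ⟨f, congrArg Subtype.val hf⟩, fun ⟨f, hf⟩ ↦ ⟨f, Subtype.ext hf⟩⟩
  rw [← hrange, LinearMap.finrank_range_of_inj hφ]

end Fermat.Agent.MF
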