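import Mathlib
import Fermat.Agent.MF.CuspDifferentials
import Fermat.Agent.MF.JExpansion

/-!
`j` as an element of the field of ratios, in the form needed by `MF/CuspDifferentials`.
-/

set_option autoImplicit false

noncomputable section

open UpperHalfPlane CongruenceSubgroup ModularForm EisensteinSeries
open scoped ModularForm MatrixGroups

namespace Fermat.Agent.MF

variable (N : ℕ)

theorem jC_mul_qL_cuspD : jC * qL (cuspD N) = qL (cuspE N) := by
  rw [coe_cuspD, coe_cuspE, jC_mul_discriminant]

theorem jC_eq_cuspE_div_cuspD : jC = qL (cuspE N) / qL (cuspD N) := by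
  rw [eq_div_iff (mt (qL_mform_eq_zero_iff _).mp (cuspD_ne_zero N)), jC_mul_qL_cuspD]

/-- `j` in `MFField N`. -/
def mfJ : MFField N := ⟨jC, by rw [jC_eq_cuspE_div_cuspD N]; exact div_mem_MFField _ _⟩

theorem coe_mfJ : (mfJ N : LaurentSeries ℂ) = jC := rfl

theorem mfJ_mul_qL_cuspD : (mfJ N : LaurentSeries ℂ) * qL (cuspD N) = qL (cuspE N) :=
  jC_mul_qL_cuspD N

end Fermat.Agent.MF
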