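import Mathlib
import Fermat.Agent.MF.CuspJElt
import Fermat.Agent.MF.PlaceOrbits.Abstract
import Fermat.Agent.MF.PlaceOrbits.Valuations

/-!
Every point of `ℍ` and every cusp gives a place of `MFField N`.
-/

set_option autoImplicit false

noncomputable section

open UpperHalfPlane CongruenceSubgroup AlgebraicCurve WithZero
open scoped ModularForm MatrixGroups

namespace Fermat.Agent.MF

variable (N : ℕ) [NeZero N]

theorem exists_isPlaceAt (τ : ℍ) : ∃ P, IsPlaceAt N P τ := by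
  set w := PlaceOrbits.ptVal N τ
  have hK : ∀ a : ℂ, a ≠ 0 → w (algebraMap ℂ (MFField N) a) = 1 :=
    fun a ha ↦ (PlaceOrbits.ptOrder N τ).val_algebraMap ha
  set t : MFField N := mfJ N - algebraMap ℂ (MFField N) (kleinJ τ)
  have hd := mfOrdAt_jElt_sub (mfJ_mul_qL_cuspD N) τ
  have ht0 : t ≠ 0 := by
    intro h
    have h2 : qL (cuspE N - kleinJ τ • cuspD N : MForm N 12) / qL (cuspD N) =
        (0 : LaurentSeries ℂ) :=
      (jElt_sub_eq (mfJ_mul_qL_cuspD N) _).symm.trans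
        (by rw [show mfJ N - algebraMap ℂ (MFField N) (kleinJ τ) = 0 from h]
            exact ZeroMemClass.coe_zero _)
    rw [div_eq_zero_iff, qL_mform_eq_zero_iff, qL_mform_eq_zero_iff] at h2
    exact h2.elim (cuspE_sub_smul_ne_zero _) (cuspD_ne_zero N)
  have hnt : ∃ x : MFField N, w x ≠ 0 ∧ w x ≠ 1 := by
    refine ⟨t, w.ne_zero_iff.2 ht0, fun h ↦ ?_⟩
    rw [PlaceOrbits.mfOrdAt_eq_neg_log_ptVal τ ht0, h, log_one, neg_zero] at hd
    have := kleinJDegree_pos τ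
    omega
  obtain ⟨d, hd0, hscale⟩ := PlaceOrbits.exists_scale_placeOfVal w hK hnt
  exact ⟨_, d, hd0, fun z hz ↦
    (PlaceOrbits.mfOrdAt_eq_neg_log_ptVal τ hz).trans (hscale z)⟩

theorem exists_isPlaceAtCusp (γ : SL(2, ℤ)) : ∃ P, IsPlaceAtCusp N P γ := by
  set o := PlaceOrbits.cuspOrder N γ
  have hK : ∀ a : ℂ, a ≠ 0 → o.val (algebraMap ℂ (MFField N) a) = 1 :=
    fun a ha ↦ o.val_algebraMap ha
  have hj : (mfJ N : LaurentSeries ℂ) = qL (cuspE N) / qL (cuspD N) := jC_eq_cuspE_div_cuspD N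
  have hlog : log (o.val (mfJ N)) = (N : ℤ) := by
    rw [o.log_val (cuspE_ne_zero N) (cuspD_ne_zero N) hj]
    show ((qExpansion (N : ℝ) (⇑(cuspD N) ∣[(12 : ℤ)] γ)).order.toNat : ℤ) -
      (qExpansion (N : ℝ) (⇑(cuspE N) ∣[(12 : ℤ)] γ)).order.toNat = N
    rw [order_qExpansion_cuspD_slash, order_qExpansion_cuspE_slash]
    simp
  have hnt : ∃ x : MFField N, o.val x ≠ 0 ∧ o.val x ≠ 1 := by
    refine ⟨mfJ N, ?_, ?_⟩ <;> intro h <;> rw [h] at hlog
    · have := NeZero.ne N; simp at hlog; omega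
    · have := NeZero.ne N; rw [log_one] at hlog; omega
  obtain ⟨d, hd0, hscale⟩ := PlaceOrbits.exists_scale_placeOfVal o.val hK hnt
  refine ⟨_, d, hd0, fun k F G hF hG z hz ↦ Eq.trans ?_ (hscale z)⟩
  rw [o.log_val hF hG hz, neg_sub]
  rfl

/-- `l(div dj) ≤ dim S₂(Γ₀(N))`. -/
theorem finrank_riemannRochSpace_div_dj_le [IsCurveOver ℂ (MFField N)]
    [HasCanonicalDivisor (K := ℂ) (F := MFField N)]
    (hfin : FiniteDimensional ℂ (CuspForm (Gamma0 N) 2))
    (hDx : KaehlerDifferential.D ℂ (MFField N) (mfJ N) ≠ 0) :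
    Module.finrank ℂ ↥(riemannRochSpace (canonicalDivisorOf hDx)) ≤
      Module.finrank ℂ (CuspForm (Gamma0 N) 2) :=
  finrank_riemannRochSpace_le_finrank_cuspForm hfin (mfJ_mul_qL_cuspD N) (exists_isPlaceAt N)
    (exists_isPlaceAtCusp N) hDx

theorem D_mfJ_ne_zero [IsCurveOver ℂ (MFField N)] :
    KaehlerDifferential.D ℂ (MFField N) (mfJ N) ≠ 0 :=
  D_jElt_ne_zero (mfJ_mul_qL_cuspD N) (exists_isPlaceAt N)

end Fermat.Agent.MF
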