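import Fermat.Agent.MF.PeriodRange
import Fermat.Agent.MF.ParHom.Main

/-!
Eichler–Shimura for `Γ₀(N)`, given the dimension of `S₂(Γ₀(N))`.
-/

set_option autoImplicit false

noncomputable section

namespace Fermat.Agent.MF.Prim

open CongruenceSubgroup ModularCurve
open scoped MatrixGroups

variable (N : ℕ) [NeZero N]

theorem finiteDimensional_cuspForm_two : FiniteDimensional ℂ (CuspForm (Gamma0 N) 2) := by
  have := ParHom.finiteDimensional_parabolicHoms_complex N
  have hinl : Function.Injective
      ((periodHomPair N).comp (LinearMap.inl ℂ _ (CuspForm (Gamma0 N) 2))) :=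
    (injective_periodHomPair N).comp LinearMap.inl_injective
  refine Module.Finite.of_injective (((periodHomPair N).comp (LinearMap.inl ℂ _ _)).codRestrict
    (Period.parabolicHoms ℂ (Gamma0 N) ℂ)
    fun x => range_periodHomPair_le N (LinearMap.mem_range_self _ _)) fun f g h => ?_
  exact hinl (congrArg Subtype.val h)

/-- The upper bound `dim S₂(Γ₀(N)) ≤ g`. -/
theorem finrank_cuspForm_two_le :
    (Module.finrank ℂ (CuspForm (Gamma0 N) 2) : ℚ) ≤ genusFormula N := by
  have := ParHom.finiteDimensional_parabolicHoms_complex N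
  have := finiteDimensional_cuspForm_two N
  have h := LinearMap.finrank_range_of_inj (injective_periodHomPair N)
  rw [Module.finrank_prod] at h
  have h2 := Submodule.finrank_mono (range_periodHomPair_le N)
  rw [h] at h2
  have h3 := ParHom.finrank_parabolicHoms_complex N
  have h4 : ((Module.finrank ℂ (CuspForm (Gamma0 N) 2) +
      Module.finrank ℂ (CuspForm (Gamma0 N) 2) : ℕ) : ℚ) ≤ 2 * genusFormula N :=
    h3 ▸ Nat.cast_le.mpr h2
  push_cast at h4
  linarith

/-- Eichler–Shimura, given `g ≤ dim S₂(Γ₀(N))`. -/
theorem periodHomPair_eichlerShimura_of_le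
    (hS : genusFormula N ≤ (Module.finrank ℂ (CuspForm (Gamma0 N) 2) : ℚ)) :
    Function.Injective (periodHomPair N) ∧
      LinearMap.range (periodHomPair N) = Period.parabolicHoms ℂ (Gamma0 N) ℂ :=
  periodHomPair_eichlerShimura_of_finrank N (ParHom.finiteDimensional_parabolicHoms_complex N)
    (ParHom.finrank_parabolicHoms_complex N) (le_antisymm (finrank_cuspForm_two_le N) hS)

end Fermat.Agent.MF.Prim
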