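import Mathlib
import Fermat.Agent.MF.CuspPlaces
import Fermat.Agent.MF.Genus.Assembly
import Fermat.Agent.MF.PeriodES

/-!
`dim S₂(Γ₀(N)) = genusFormula N` from: the canonical divisor facts for `div (dj)` on the field of
ratios and the degree of that divisor (the upper bound comes from periods).
-/

set_option autoImplicit false

noncomputable section

open CongruenceSubgroup AlgebraicCurve KaehlerDifferential

namespace Fermat.Agent.MF

variable {N : ℕ} [NeZero N] [IsCurveOver ℂ (MFField N)]
  [HasCanonicalDivisor (K := ℂ) (F := MFField N)]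

/-- The lower bound `g ≤ dim S₂`, and equality, from Riemann–Roch for `div (dj)`. -/
theorem finrank_cuspForm_eq_genusFormula_of
    (hRR : Divisor.degree (canonicalDivisorOf (D_mfJ_ne_zero N)) =
      2 * (Module.finrank ℂ ↥(riemannRochSpace (canonicalDivisorOf (D_mfJ_ne_zero N))) : ℤ) - 2)
    (hgenus : (genus ℂ (MFField N) : ℚ) = ModularCurve.genusFormula N) :
    (Module.finrank ℂ (CuspForm (Gamma0 N) 2) : ℚ) = ModularCurve.genusFormula N := by
  refine le_antisymm (Prim.finrank_cuspForm_two_le N) ?_
  rw [← hgenus, Fermat.Agent.FF.KS.genus_eq_of_degree IsCurveOver.deg_eq_one_of_isAlgClosed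
    (D_mfJ_ne_zero N) hRR]
  exact Nat.cast_le.mpr
    (finrank_riemannRochSpace_div_dj_le N (Prim.finiteDimensional_cuspForm_two N) _)

end Fermat.Agent.MF
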