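import Mathlib
import Fermat.Agent.MF.CuspGenus
import Fermat.Agent.MF.PlaceOrbits.Corollaries
import Fermat.Agent.FF.KaehlerGenus

/-!
The field of ratios as a function field over `ℂ`, its genus, and `dim S₂(Γ₀(N))`.
-/

set_option autoImplicit false

noncomputable section

open CongruenceSubgroup AlgebraicCurve KaehlerDifferential IntermediateField

namespace Fermat.Agent.MF

variable (N : ℕ) [NeZero N]

theorem isFunctionField_MFField : FF.IsFunctionField ℂ (MFField N) :=
  (PlaceOrbits.jDataMF N).isFunctionField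

theorem isCurveOver_MFField : IsCurveOver ℂ (MFField N) :=
  haveI := isFunctionField_MFField N
  inferInstance

theorem isSeparatingElement_mfJ : FF.IsSeparatingElement ℂ (mfJ N) :=
  haveI := isFunctionField_MFField N
  have htr : Transcendental ℂ (mfJ N) := (PlaceOrbits.jDataMF N).transcendental_j
  haveI : FiniteDimensional ℂ⟮mfJ N⟯ (MFField N) := FF.finiteDimensional_adjoin htr
  haveI : CharZero ℂ⟮mfJ N⟯ := charZero_of_injective_algebraMap (algebraMap ℂ _).injective
  haveI : Algebra.IsAlgebraic ℂ⟮mfJ N⟯ (MFField N) := Algebra.IsAlgebraic.of_finite _ _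
  ⟨htr, Algebra.IsAlgebraic.isSeparable_of_perfectField⟩

theorem hasCanonicalDivisor_MFField : HasCanonicalDivisor (K := ℂ) (F := MFField N) :=
  haveI := isFunctionField_MFField N
  haveI := FF.IsFunctionField.essFiniteType (K := ℂ) (F := MFField N)
  haveI := isCurveOver_MFField N
  inferInstance

/-- **`dim S₂(Γ₀(N))` is the genus formula.** -/
theorem finrank_cuspForm_eq_genusFormula :
    (Module.finrank ℂ (CuspForm (Gamma0 N) 2) : ℚ) = ModularCurve.genusFormula N := by
  have := isFunctionField_MFField N
  have := isCurveOver_MFField N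
  have := hasCanonicalDivisor_MFField N
  have hx := isSeparatingElement_mfJ N
  have hcan : canonicalDivisorOf (D_mfJ_ne_zero N) = hx.canonicalDiv :=
    FF.KS.canonicalDivisorOf_D hx
  have hdeg : Divisor.degree (canonicalDivisorOf (D_mfJ_ne_zero N)) =
      2 * (genusFF ℂ (MFField N) : ℤ) - 2 := by
    rw [hcan, hx.degree_canonicalDiv]
  have hl : Module.finrank ℂ ↥(riemannRochSpace hx.canonicalDiv) = genusFF ℂ (MFField N) :=
    hx.rrDim_canonicalDiv
  refine finrank_cuspForm_eq_genusFormula_of ?_ ?_
  · rw [hcan, hl, hx.degree_canonicalDiv]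
  · set D' := PlaceOrbits.jDataMF N
    exact Genus.genus_eq_genusFormula_of_fibres N
      (FF.KS.ne_algebraMap_of_D_ne_zero (D_mfJ_ne_zero N)) (D_mfJ_ne_zero N) hdeg
      D'.sum_poles (fun a h0 h1 => D'.card_fibre h0 h1) D'.card_fibre_zero D'.card_fibre_1728
      D'.card_poles

end Fermat.Agent.MF
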