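import Mathlib.NumberTheory.Modular
import Mathlib.NumberTheory.ModularForms.QExpansion
import Mathlib.NumberTheory.ModularForms.CongruenceSubgroups
import Mathlib.Analysis.Complex.HasPrimitives
import Mathlib.Analysis.Complex.RemovableSingularity
import Fermat.Prelude.Def_ModularCurve_PeriodHomPair

/-!
Primitives of weight two cusp forms on `Γ₀(N)` and linearity of the period map.
-/

set_option autoImplicit false

noncomputable section

namespace Fermat.Agent.MF.Prim

open UpperHalfPlane hiding I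
open Complex Filter Topology Function CongruenceSubgroup ModularCurve
open Matrix.SpecialLinearGroup
open scoped MatrixGroups ModularForm Manifold Real

local notation "𝕢" => Function.Periodic.qParam

/-- `F` is a holomorphic primitive of `f` on the upper half plane. -/
def IsPrimitiveOf (F f : ℍ → ℂ) : Prop :=
  ∀ τ : ℍ, HasDerivAt (F ∘ ofComplex) (f τ) ↑τ

theorem IsPrimitiveOf.mdiff {F f : ℍ → ℂ} (hF : IsPrimitiveOf F f) : MDiff F :=
  fun τ => mdifferentiableAt_iff.mpr (hF τ).differentiableAt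

theorem IsPrimitiveOf.continuous {F f : ℍ → ℂ} (hF : IsPrimitiveOf F f) : Continuous F :=
  hF.mdiff.continuous

theorem IsPrimitiveOf.sub_eq {F G f : ℍ → ℂ} (hF : IsPrimitiveOf F f) (hG : IsPrimitiveOf G f)
    (τ τ' : ℍ) : F τ - G τ = F τ' - G τ' := by
  have hd : DifferentiableOn ℂ (fun z => (F ∘ ofComplex) z - (G ∘ ofComplex) z)
      upperHalfPlaneSet := fun z hz =>
    (((hF ⟨z, hz⟩).sub (hG ⟨z, hz⟩)).differentiableAt).differentiableWithinAt
  have h0 : upperHalfPlaneSet.EqOn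
      (deriv fun z => (F ∘ ofComplex) z - (G ∘ ofComplex) z) 0 := fun z hz => by
    have h1 : HasDerivAt (fun z => (F ∘ ofComplex) z - (G ∘ ofComplex) z)
        (f ⟨z, hz⟩ - f ⟨z, hz⟩) z := (hF ⟨z, hz⟩).sub (hG ⟨z, hz⟩)
    simpa using h1.deriv
  obtain ⟨a, ha⟩ := isOpen_upperHalfPlaneSet.exists_is_const_of_deriv_eq_zero
    (convex_halfSpace_im_gt 0).isPreconnected hd h0
  have h1 := ha (τ : ℂ) τ.im_pos
  have h2 := ha (τ' : ℂ) τ'.im_pos
  simp only [comp_apply, ofComplex_apply] at h1 h2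
  rw [h1, h2]

theorem IsPrimitiveOf.eq_of_tendsto {F G f : ℍ → ℂ} {L : ℂ} (hF : IsPrimitiveOf F f)
    (hG : IsPrimitiveOf G f) (hF0 : Tendsto F atImInfty (𝓝 L))
    (hG0 : Tendsto G atImInfty (𝓝 L)) : F = G := by
  funext τ
  have hconst : (fun w => F w - G w) = fun _ => F τ - G τ := funext fun w => hF.sub_eq hG w τ
  have h1 := hF0.sub hG0
  rw [hconst, sub_self, tendsto_const_nhds_iff] at h1
  exact sub_eq_zero.mp h1

theorem IsPrimitiveOf.add {F G f g : ℍ → ℂ} (hF : IsPrimitiveOf F f) (hG : IsPrimitiveOf G g) :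
    IsPrimitiveOf (F + G) (f + g) := fun τ => by
  simpa [IsPrimitiveOf, Pi.add_def, comp_def] using (hF τ).add (hG τ)

theorem IsPrimitiveOf.const_smul {F f : ℍ → ℂ} (hF : IsPrimitiveOf F f) (c : ℂ) :
    IsPrimitiveOf (c • F) (c • f) := fun τ => by
  simpa [Pi.smul_def, comp_def] using (hF τ).const_mul c

/-- A periodic holomorphic function vanishing at infinity has a periodic primitive vanishing at
infinity. -/
theorem exists_primitive {f : ℍ → ℂ} {h : ℝ} (hh : 0 < h)
    (hper : Periodic (f ∘ ofComplex) h) (hol : MDiff f) (h0 : IsZeroAtImInfty f) :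
    ∃ F : ℍ → ℂ, IsPrimitiveOf F f ∧ Tendsto F atImInfty (𝓝 0) ∧
      Periodic (F ∘ ofComplex) h := by
  have hbdd : IsBoundedAtImInfty f := ZeroAtFilter.boundedAtFilter h0
  set g := UpperHalfPlane.cuspFunction h f with hgdef
  have hg : DifferentiableOn ℂ g (Metric.ball 0 1) :=
    differentiableOn_cuspFunction_ball hh hper hol hbdd
  have hg0 : g 0 = 0 := IsZeroAtImInfty.cuspFunction_apply_zero h0 hh
  have hd : DifferentiableOn ℂ (fun q => (h : ℂ) / (2 * π * I) * dslope g 0 q) (Metric.ball 0 1) :=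
    ((differentiableOn_dslope (Metric.ball_mem_nhds 0 one_pos)).mpr hg).const_mul _
  obtain ⟨G, hG0, hG⟩ := hd.isExactOn_ball.with_val_at 0 0
  have hper' : Periodic (fun z : ℂ => 𝕢 h z) h := fun z => by
    simp only [Function.Periodic.qParam]
    rw [mul_add, add_div, Complex.exp_add, mul_div_assoc _ (h : ℂ),
      div_self (ofReal_ne_zero.mpr hh.ne'), mul_one, Complex.exp_two_pi_mul_I, mul_one]
  refine ⟨fun τ => G (𝕢 h τ), fun τ => ?_, ?_, ?_⟩
  · have hq : HasDerivAt (fun z : ℂ => 𝕢 h z) (𝕢 h τ * (2 * π * I / h)) τ := by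
      have := (((hasDerivAt_id (τ : ℂ)).const_mul (2 * π * I)).div_const (h : ℂ)).cexp
      simpa [Function.Periodic.qParam] using this
    have hball : 𝕢 h τ ∈ Metric.ball (0 : ℂ) 1 :=
      mem_ball_zero_iff.mpr (Function.Periodic.norm_qParam_lt_one hh τ.im_pos)
    have hval : (h : ℂ) / (2 * π * I) * dslope g 0 (𝕢 h τ) * (𝕢 h τ * (2 * π * I / h)) = f τ := by
      have hgτ : g (𝕢 h τ) = f τ := eq_cuspFunction τ hh.ne' hper
      have hs := sub_smul_dslope g 0 (𝕢 h τ)
      rw [hg0, hgτ, sub_zero, sub_zero, smul_eq_mul] at hs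
      have : (h : ℂ) ≠ 0 := ofReal_ne_zero.mpr hh.ne'
      field_simp
      linear_combination hs
    have hcomp := (hG _ hball).comp (τ : ℂ) hq
    rw [hval] at hcomp
    refine hcomp.congr_of_eventuallyEq ?_
    filter_upwards [isOpen_upperHalfPlaneSet.mem_nhds τ.im_pos] with z hz
    simp [ofComplex_apply_of_im_pos hz]
  · have hc : ContinuousAt G 0 := (hG 0 (Metric.mem_ball_self one_pos)).continuousAt
    simpa [hG0, comp_def] using hc.tendsto.comp (qParam_tendsto_atImInfty hh)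
  · intro z
    have him : (z + h).im = z.im := by simp
    rcases lt_or_ge 0 z.im with hz | hz
    · simp only [comp_apply, ofComplex_apply_of_im_pos hz,
        ofComplex_apply_of_im_pos (show 0 < (z + h).im by rwa [him])]
      exact congrArg G (hper' z)
    · simp only [comp_apply, ofComplex_apply_of_im_nonpos hz,
        ofComplex_apply_of_im_nonpos (show (z + h).im ≤ 0 by rwa [him])]

theorem hasDerivAt_coe_smul (δ : SL(2, ℤ)) (τ : ℍ) :
    HasDerivAt (fun z : ℂ => ((δ • ofComplex z : ℍ) : ℂ)) (denom δ τ ^ (-2 : ℤ)) ↑τ := by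
  have hne : ((δ 1 0 : ℤ) : ℂ) * τ + (δ 1 1 : ℤ) ≠ 0 := by
    have := denom_ne_zero (δ : GL (Fin 2) ℝ) τ
    rwa [ModularGroup.denom_apply] at this
  have h1 : HasDerivAt (fun z : ℂ => ((δ 0 0 : ℤ) : ℂ) * z + (δ 0 1 : ℤ))
      ((δ 0 0 : ℤ) : ℂ) ↑τ := by
    simpa using ((hasDerivAt_id (τ : ℂ)).const_mul ((δ 0 0 : ℤ) : ℂ)).add_const ((δ 0 1 : ℤ) : ℂ)
  have h2 : HasDerivAt (fun z : ℂ => ((δ 1 0 : ℤ) : ℂ) * z + (δ 1 1 : ℤ))
      ((δ 1 0 : ℤ) : ℂ) ↑τ := by
    simpa using ((hasDerivAt_id (τ : ℂ)).const_mul ((δ 1 0 : ℤ) : ℂ)).add_const ((δ 1 1 : ℤ) : ℂ)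
  have h3 := h1.div h2 hne
  have hdet : ((δ 0 0 : ℤ) : ℂ) * (δ 1 1 : ℤ) - (δ 0 1 : ℤ) * (δ 1 0 : ℤ) = 1 := by
    have := δ.det_coe
    rw [Matrix.det_fin_two] at this
    exact_mod_cast congrArg (fun x : ℤ => (x : ℂ)) this
  have hval : denom δ τ ^ (-2 : ℤ) =
      (((δ 0 0 : ℤ) : ℂ) * (((δ 1 0 : ℤ) : ℂ) * τ + (δ 1 1 : ℤ)) -
        (((δ 0 0 : ℤ) : ℂ) * τ + (δ 0 1 : ℤ)) * ((δ 1 0 : ℤ) : ℂ)) /
        (((δ 1 0 : ℤ) : ℂ) * τ + (δ 1 1 : ℤ)) ^ 2 := by
    rw [ModularGroup.denom_apply, zpow_neg, show (2 : ℤ) = ((2 : ℕ) : ℤ) from rfl,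
      zpow_natCast, eq_div_iff (pow_ne_zero 2 hne), inv_mul_cancel₀ (pow_ne_zero 2 hne)]
    linear_combination -hdet
  rw [hval]
  refine h3.congr_of_eventuallyEq ?_
  filter_upwards [isOpen_upperHalfPlaneSet.mem_nhds τ.im_pos] with z hz
  rw [ofComplex_apply_of_im_pos hz, coe_specialLinearGroup_apply]
  simp

/-- Translating a primitive gives a primitive of the weight two slash. -/
theorem IsPrimitiveOf.comp_smul {F f : ℍ → ℂ} (hF : IsPrimitiveOf F f) (δ : SL(2, ℤ)) :
    IsPrimitiveOf (fun w => F (δ • w)) (f ∣[(2 : ℤ)] δ) := by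
  intro τ
  have h1 : HasDerivAt (F ∘ ofComplex) (f (δ • τ))
      ((fun z : ℂ => ((δ • ofComplex z : ℍ) : ℂ)) τ) := by
    simpa only [ofComplex_apply] using hF (δ • τ)
  have h2 := h1.comp (τ : ℂ) (hasDerivAt_coe_smul δ τ)
  rw [ModularForm.SL_slash_apply]
  refine h2.congr_of_eventuallyEq ?_
  filter_upwards [] with z
  simp [ofComplex_apply]

/-- Composition with translation by a real number. -/
theorem periodic_of_forall_T_zpow {f : ℍ → ℂ} {n : ℤ}
    (hf : ∀ w : ℍ, f (ModularGroup.T ^ n • w) = f w) :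
    Periodic (f ∘ ofComplex) (((n : ℤ) : ℝ) : ℂ) := by
  intro z
  have him : (z + (((n : ℤ) : ℝ) : ℂ)).im = z.im := by simp
  rcases lt_or_ge 0 z.im with hz | hz
  · have hz' : 0 < (z + (((n : ℤ) : ℝ) : ℂ)).im := by rwa [him]
    simp only [comp_apply, ofComplex_apply_of_im_pos hz, ofComplex_apply_of_im_pos hz']
    refine Eq.trans (congrArg f ?_) (hf ⟨z, hz⟩)
    rw [modular_T_zpow_smul]
    ext1
    simp [coe_vadd, add_comm]
  · simp only [comp_apply, ofComplex_apply_of_im_nonpos hz,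
      ofComplex_apply_of_im_nonpos (show (z + (((n : ℤ) : ℝ) : ℂ)).im ≤ 0 by rwa [him])]

theorem conj_T_zpow_mem_Gamma0 (N : ℕ) (δ : SL(2, ℤ)) :
    δ * ModularGroup.T ^ (N : ℤ) * δ⁻¹ ∈ Gamma0 N := by
  have h1 : δ * ModularGroup.T ^ (N : ℤ) * δ⁻¹ ∈ Gamma N :=
    (Gamma_normal N).conj_mem _ (by simpa using ModularGroup_T_pow_mem_Gamma N N dvd_rfl) δ
  rw [Gamma_mem] at h1
  exact Gamma0_mem.mpr h1.2.2.1

variable (N : ℕ)

theorem slash_eq_of_mem {k : ℤ} (f : CuspForm (Gamma0 N) k) {γ : SL(2, ℤ)} (hγ : γ ∈ Gamma0 N) :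
    (⇑f) ∣[k] γ = ⇑f := by
  rw [ModularForm.SL_slash]
  exact SlashInvariantFormClass.slash_action_eq f _ ⟨γ, hγ, rfl⟩

theorem slash_periodic {k : ℤ} (f : CuspForm (Gamma0 N) k) (δ : SL(2, ℤ)) :
    Periodic (((⇑f) ∣[k] δ) ∘ ofComplex) ((N : ℝ) : ℂ) := by
  have h := periodic_of_forall_T_zpow (f := (⇑f) ∣[k] δ) (n := (N : ℤ)) fun w => by
    have h2 : ((⇑f) ∣[k] δ) ∣[k] (ModularGroup.T ^ (N : ℤ)) = (⇑f) ∣[k] δ := by
      rw [← SlashAction.slash_mul,
        show δ * ModularGroup.T ^ (N : ℤ) = δ * ModularGroup.T ^ (N : ℤ) * δ⁻¹ * δ by group,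
        SlashAction.slash_mul, slash_eq_of_mem N f (conj_T_zpow_mem_Gamma0 N δ)]
    have h3 := congrFun h2 w
    rw [ModularForm.SL_slash_apply (f := (⇑f) ∣[k] δ)] at h3
    rw [ModularGroup.denom_apply, ModularGroup.coe_T_zpow] at h3
    simpa using h3
  simpa using h

theorem slash_isZeroAtImInfty [NeZero N] {k : ℤ} (f : CuspForm (Gamma0 N) k) (δ : SL(2, ℤ)) :
    IsZeroAtImInfty ((⇑f) ∣[k] δ) := by
  have hc : IsCusp ((mapGL ℝ δ) • OnePoint.infty)
      ((Gamma0 N : Subgroup SL(2, ℤ)).map (mapGL ℝ)) :=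
    (Subgroup.IsArithmetic.isCusp_iff_isCusp_SL2Z _).mpr (isCusp_SL2Z_iff'.mpr ⟨δ, rfl⟩)
  exact OnePoint.isZeroAt_iff rfl |>.mp (CuspFormClass.zero_at_cusps f hc)

theorem exists_slash_primitive [NeZero N] (f : CuspForm (Gamma0 N) 2) (δ : SL(2, ℤ)) :
    ∃ F : ℍ → ℂ, IsPrimitiveOf F ((⇑f) ∣[(2 : ℤ)] δ) ∧ Tendsto F atImInfty (𝓝 0) ∧
      Periodic (F ∘ ofComplex) ((N : ℝ) : ℂ) :=
  exists_primitive (Nat.cast_pos.mpr (NeZero.pos N)) (slash_periodic N f δ)
    ((CuspFormClass.holo f).slash 2 _) (slash_isZeroAtImInfty N f δ)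

variable [NeZero N]

/-- The primitive of a weight two cusp form vanishing at infinity. -/
def prim (f : CuspForm (Gamma0 N) 2) : ℍ → ℂ := (exists_slash_primitive N f 1).choose

theorem prim_isPrimitiveOf (f : CuspForm (Gamma0 N) 2) : IsPrimitiveOf (prim N f) f := by
  have h := (exists_slash_primitive N f 1).choose_spec.1
  intro τ
  have h2 := h τ
  rwa [congrFun (SlashAction.slash_one (2 : ℤ) (⇑f)) τ] at h2

theorem prim_tendsto (f : CuspForm (Gamma0 N) 2) : Tendsto (prim N f) atImInfty (𝓝 0) :=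
  (exists_slash_primitive N f 1).choose_spec.2.1

/-- At every cusp the primitive is periodic of period `N` with a limit. -/
theorem prim_cusp (f : CuspForm (Gamma0 N) 2) (δ : SL(2, ℤ)) :
    ∃ L : ℂ, Tendsto (fun w => prim N f (δ • w)) atImInfty (𝓝 L) ∧
      Periodic ((fun w => prim N f (δ • w)) ∘ ofComplex) ((N : ℝ) : ℂ) := by
  obtain ⟨G, hG, hG0, hGp⟩ := exists_slash_primitive N f δ
  refine ⟨prim N f (δ • UpperHalfPlane.I) - G UpperHalfPlane.I, ?_, fun z => ?_⟩
  · have : (fun w => prim N f (δ • w)) = fun w => G w + (prim N f (δ • UpperHalfPlane.I) - G UpperHalfPlane.I) :=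
      funext fun w => by
        linear_combination ((prim_isPrimitiveOf N f).comp_smul δ).sub_eq hG w UpperHalfPlane.I
    rw [this]
    simpa using hG0.add_const (prim N f (δ • UpperHalfPlane.I) - G UpperHalfPlane.I)
  · have e := fun w => ((prim_isPrimitiveOf N f).comp_smul δ).sub_eq hG w UpperHalfPlane.I
    have h1 := hGp z
    simp only [comp_apply] at h1 ⊢
    linear_combination e (ofComplex (z + ((N : ℝ) : ℂ))) - e (ofComplex z) + h1

theorem hasEquivariantPrimitive_prim (f : CuspForm (Gamma0 N) 2) :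
    HasEquivariantPrimitive N f (prim N f) := by
  refine ⟨prim_isPrimitiveOf N f, prim_tendsto N f, fun γ => ?_, fun δ => ?_⟩
  · refine ⟨prim N f ((γ : SL(2, ℤ)) • UpperHalfPlane.I) - prim N f UpperHalfPlane.I, fun z => ?_⟩
    have h := (prim_isPrimitiveOf N f).comp_smul (γ : SL(2, ℤ))
    rw [slash_eq_of_mem N f γ.2] at h
    exact (h.sub_eq (prim_isPrimitiveOf N f) z UpperHalfPlane.I)
  · obtain ⟨L, hL, -⟩ := prim_cusp N f δ
    exact ⟨L, hL⟩

theorem periodMap_eq (f : CuspForm (Gamma0 N) 2) (γ : Gamma0 N) (z : ℍ) :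
    periodMap N f (Additive.ofMul γ) = prim N f ((γ : SL(2, ℤ)) • z) - prim N f z := by
  obtain ⟨F₀, h₀, he⟩ := periodMap_def N f (hasEquivariantPrimitive_prim N f)
  have hF : F₀ = prim N f :=
    IsPrimitiveOf.eq_of_tendsto h₀.1 (prim_isPrimitiveOf N f) h₀.2.1 (prim_tendsto N f)
  rw [he, Period.IsEquivariantPrimitive.periodHom_apply,
    ← h₀.2.2.1.sub_eq_period γ z, hF]

theorem prim_add (f g : CuspForm (Gamma0 N) 2) : prim N (f + g) = prim N f + prim N g := by
  refine IsPrimitiveOf.eq_of_tendsto (prim_isPrimitiveOf N _) ?_ (prim_tendsto N _)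
    (by simpa [Pi.add_def] using (prim_tendsto N f).add (prim_tendsto N g))
  simpa using (prim_isPrimitiveOf N f).add (prim_isPrimitiveOf N g)

theorem prim_smul (c : ℂ) (f : CuspForm (Gamma0 N) 2) : prim N (c • f) = c • prim N f := by
  refine IsPrimitiveOf.eq_of_tendsto (prim_isPrimitiveOf N _) ?_ (prim_tendsto N _)
    (by simpa [Pi.smul_def] using (prim_tendsto N f).const_smul c)
  simpa using (prim_isPrimitiveOf N f).const_smul c

/-- The period map as a linear map. -/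
def periodLin : CuspForm (Gamma0 N) 2 →ₗ[ℂ] (Additive (Gamma0 N) →+ ℂ) where
  toFun := periodMap N
  map_add' f g := AddMonoidHom.ext fun x => by
    show periodMap N (f + g) (Additive.ofMul (Additive.toMul x)) =
      periodMap N f (Additive.ofMul (Additive.toMul x)) +
        periodMap N g (Additive.ofMul (Additive.toMul x))
    simp only [periodMap_eq N _ (Additive.toMul x) UpperHalfPlane.I, prim_add, Pi.add_apply]
    ring
  map_smul' c f := AddMonoidHom.ext fun x => by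
    show periodMap N (c • f) (Additive.ofMul (Additive.toMul x)) =
      c • periodMap N f (Additive.ofMul (Additive.toMul x))
    simp only [periodMap_eq N _ (Additive.toMul x) UpperHalfPlane.I, prim_smul, Pi.smul_apply,
      smul_eq_mul]
    ring

@[simp] theorem periodLin_apply (f : CuspForm (Gamma0 N) 2) : periodLin N f = periodMap N f := rfl

theorem existsPeriodMapLinear : ExistsPeriodMapLinear N := ⟨periodLin N, fun _ => rfl⟩

theorem periodHomPair_apply (f g : CuspForm (Gamma0 N) 2) (γ : Gamma0 N) :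
    periodHomPair N (f, g) (Additive.ofMul γ) =
      (periodMap N f (Additive.ofMul γ) +
        periodMap N f (Additive.ofMul (Period.jConjGamma0 N γ))) +
      (periodMap N g (Additive.ofMul γ) -
        periodMap N g (Additive.ofMul (Period.jConjGamma0 N γ))) := by
  obtain ⟨pml, hp, he⟩ := periodHomPair_def N (existsPeriodMapLinear N)
  rw [he]
  simp [hp]

end Fermat.Agent.MF.Prim
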