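import Fermat.Agent.MF.JExpansion
import Fermat.Agent.MF.KleinJ
import Mathlib.NumberTheory.ModularForms.Derivative

/-!
# The operator `q d/dq` and the expansion of the derivative of j
-/

noncomputable section

open UpperHalfPlane Function Filter ModularForm EisensteinSeries Derivative
open scoped Manifold Topology MatrixGroups

namespace Fermat.Agent.MF

local notation "𝕢" => Periodic.qParam

section ThetaL

variable {R : Type*} [CommRing R]

/-- The operator `q d/dq` on Laurent series. -/
def thetaL : LaurentSeries R →+ LaurentSeries R where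
  toFun x :=
    { coeff := fun n => (n : R) * x.coeff n
      isPWO_support' := x.isPWO_support'.mono fun n hn => by
        simp only [Function.mem_support] at hn ⊢
        exact fun h => hn (by rw [h, mul_zero]) }
  map_zero' := by ext n; simp
  map_add' x y := by ext n; simp [mul_add]

@[simp]
lemma thetaL_coeff (x : LaurentSeries R) (n : ℤ) : (thetaL x).coeff n = (n : R) * x.coeff n := rfl

lemma thetaL_mul (x y : LaurentSeries R) : thetaL (x * y) = thetaL x * y + x * thetaL y := by
  ext n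
  have hx : (thetaL x).support ⊆ x.support := fun a ha => by
    simp only [HahnSeries.mem_support, thetaL_coeff] at ha ⊢
    exact fun h => ha (by rw [h, mul_zero])
  have hy : (thetaL y).support ⊆ y.support := fun a ha => by
    simp only [HahnSeries.mem_support, thetaL_coeff] at ha ⊢
    exact fun h => ha (by rw [h, mul_zero])
  rw [thetaL_coeff, HahnSeries.coeff_add, HahnSeries.coeff_mul,
    HahnSeries.coeff_mul_left' (x := thetaL x) x.isPWO_support hx,
    HahnSeries.coeff_mul_right' (y := thetaL y) y.isPWO_support hy,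
    Finset.mul_sum, ← Finset.sum_add_distrib]
  refine Finset.sum_congr rfl fun ij hij => ?_
  obtain ⟨-, -, h⟩ := Finset.mem_antidiagonal.mp hij
  rw [thetaL_coeff, thetaL_coeff, ← h]
  push_cast
  ring

@[simp]
lemma thetaL_single (k : ℤ) (r : R) :
    thetaL (HahnSeries.single k r) = HahnSeries.single k ((k : R) * r) := by
  ext n
  rcases eq_or_ne n k with rfl | h <;> simp [*]

@[simp]
lemma thetaL_C (r : R) : thetaL (HahnSeries.C r : LaurentSeries R) = 0 := by
  simp [HahnSeries.C_apply]

@[simp]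
lemma thetaL_one : thetaL (1 : LaurentSeries R) = 0 := by
  rw [← map_one (HahnSeries.C (Γ := ℤ)), thetaL_C]

lemma thetaL_qExpand (d : ℕ) [NeZero d] (x : LaurentSeries R) :
    thetaL (ModularCurve.qExpand R d x) = (d : R) • ModularCurve.qExpand R d (thetaL x) := by
  ext n
  by_cases h : (d : ℤ) ∣ n
  · obtain ⟨m, rfl⟩ := h
    simp [mul_assoc]
  · simp [ModularCurve.qExpand_coeff_of_not_dvd _ _ h]

lemma coeffMap_thetaL {S : Type*} [CommRing S] (φ : R →+* S) (x : LaurentSeries R) :
    ModularCurve.coeffMap φ (thetaL x) = thetaL (ModularCurve.coeffMap φ x) := by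
  ext n; simp

lemma coeffMap_injective {S : Type*} [CommRing S] {φ : R →+* S} (hφ : Injective φ) :
    Injective (ModularCurve.coeffMap φ) := fun x y h => by
  ext n
  exact hφ (by simpa using congrArg (fun z => z.coeff n) h)

lemma coeffMap_ofPowerSeries {S : Type*} [CommRing S] (φ : R →+* S) (u : PowerSeries R) :
    ModularCurve.coeffMap φ (HahnSeries.ofPowerSeries ℤ R u)
      = HahnSeries.ofPowerSeries ℤ S (u.map φ) := by
  ext k
  rw [ModularCurve.coeffMap_coeff]
  rcases le_or_gt 0 k with hk | hk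
  · lift k to ℕ using hk
    rw [HahnSeries.ofPowerSeries_apply_coeff, HahnSeries.ofPowerSeries_apply_coeff,
      PowerSeries.coeff_map]
  · rw [ModularCurve.ofPowerSeries_coeff_of_neg _ hk, ModularCurve.ofPowerSeries_coeff_of_neg _ hk,
      map_zero]

end ThetaL

section Deriv

variable {f : ℍ → ℂ}

lemma D_eq_disc (hf : f ∈ qFunctions) (τ : ℍ) :
    normalizedDerivOfComplex f τ = 𝕢 1 τ * deriv (cuspFunction 1 f) (𝕢 1 τ) := by
  have hq : 𝕢 1 (τ : ℂ) ∈ Metric.ball (0 : ℂ) 1 := by simpa using norm_q_lt_one τ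
  have hF : HasDerivAt (cuspFunction 1 f) (deriv (cuspFunction 1 f) (𝕢 1 τ)) (𝕢 1 τ) :=
    ((differentiableOn_cuspFunction_of_mem_qFunctions hf).differentiableAt
      (Metric.isOpen_ball.mem_nhds hq)).hasDerivAt
  have hqd : HasDerivAt (𝕢 1) (2 * Real.pi * Complex.I * 𝕢 1 (τ : ℂ)) (τ : ℂ) := by
    have hfun : 𝕢 1 = fun z : ℂ => Complex.exp (2 * Real.pi * Complex.I * z) := by
      funext z; simp [Periodic.qParam]
    simp only [hfun]
    simpa [mul_comm] using ((hasDerivAt_id (τ : ℂ)).const_mul (2 * Real.pi * Complex.I : ℂ)).cexp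
  have he : (f ∘ ofComplex) =ᶠ[𝓝 (τ : ℂ)] (cuspFunction 1 f ∘ 𝕢 1) := by
    filter_upwards [isOpen_upperHalfPlaneSet.mem_nhds τ.im_pos] with w hw
    simpa [ofComplex_apply_of_im_pos hw] using
      (cuspFunction_qParam_of_mem_qFunctions hf ⟨w, hw⟩).symm
  rw [normalizedDerivOfComplex, he.deriv_eq, (hF.comp (τ : ℂ) hqd).deriv]
  field_simp

lemma differentiableOn_mul_deriv_cusp (hf : f ∈ qFunctions) :
    DifferentiableOn ℂ (fun q => q * deriv (cuspFunction 1 f) q) (Metric.ball 0 1) :=
  differentiableOn_id.mul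
    ((differentiableOn_cuspFunction_of_mem_qFunctions hf).deriv Metric.isOpen_ball)

lemma mem_qFunctions_D (hf : f ∈ qFunctions) : normalizedDerivOfComplex f ∈ qFunctions :=
  mem_qFunctions_of_disc (differentiableOn_mul_deriv_cusp hf) (D_eq_disc hf)

lemma coeff_qExpansion_D (hf : f ∈ qFunctions) (n : ℕ) :
    (qExpansion 1 (normalizedDerivOfComplex f)).coeff n = n * (qExpansion 1 f).coeff n := by
  rw [qExpansion_eq_of_hasSum (mem_qFunctions_D hf)
    (c := fun n => (n : ℂ) * (qExpansion 1 f).coeff n) fun τ => ?_, PowerSeries.coeff_mk]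
  rw [D_eq_disc hf]
  have hq : 𝕢 1 (τ : ℂ) ∈ Metric.ball (0 : ℂ) 1 := by simpa using norm_q_lt_one τ
  have h := (Complex.hasSum_taylorSeries_on_ball
    ((differentiableOn_cuspFunction_of_mem_qFunctions hf).deriv Metric.isOpen_ball) hq).mul_left
      (𝕢 1 (τ : ℂ))
  rw [← hasSum_nat_add_iff' 1]
  simp only [Finset.range_one, Finset.sum_singleton, Nat.cast_zero, zero_mul, sub_zero]
  refine h.congr_fun fun m => ?_
  rw [← iteratedDeriv_succ', UpperHalfPlane.qExpansion_coeff, Nat.factorial_succ]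
  simp only [smul_eq_mul, sub_zero]
  have h1 : (m.factorial : ℂ) ≠ 0 := by exact_mod_cast m.factorial_ne_zero
  have h2 : ((m : ℂ) + 1) ≠ 0 := Nat.cast_add_one_ne_zero m
  push_cast
  field_simp
  ring

lemma qL_D (hf : f ∈ qFunctions) : qL (normalizedDerivOfComplex f) = thetaL (qL f) := by
  ext k
  rcases lt_or_ge k 0 with hk | hk
  · rw [qL_coeff_of_neg _ hk, thetaL_coeff, qL_coeff_of_neg _ hk, mul_zero]
  · lift k to ℕ using hk
    rw [qL_coeff_natCast, coeff_qExpansion_D hf, thetaL_coeff, qL_coeff_natCast]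
    simp

end Deriv

lemma mem_qFunctions_E2 : E2 ∈ qFunctions := by
  refine ⟨fun z => ?_, E2_mdifferentiable, isBoundedAtImInfty_E2⟩
  by_cases hz : 0 < z.im
  · have hz1 : 0 < (z + 1).im := by simpa using hz
    have h := congrFun (E2_slash_action ModularGroup.T) ⟨z, hz⟩
    rw [ModularForm.SL_slash_apply, D2_T, modular_T_smul] at h
    simp only [smul_zero, sub_zero] at h
    simp only [comp_apply, ofComplex_apply_of_im_pos hz, ofComplex_apply_of_im_pos hz1]
    have hd : denom (ModularGroup.T : GL (Fin 2) ℝ) ((⟨z, hz⟩ : ℍ) : ℂ) = 1 := by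
      simp [denom, Matrix.SpecialLinearGroup.map_apply_coe, ModularGroup.coe_T]
    rw [hd, one_zpow, mul_one] at h
    refine Eq.trans ?_ h
    congr 1
    ext
    simp [add_comm]
  · have hz1 : (z + 1).im ≤ 0 := by simpa using hz
    simp [comp_apply, ofComplex_apply_of_im_nonpos (not_lt.mp hz),
      ofComplex_apply_of_im_nonpos hz1]

lemma thetaL_qL_discriminant : thetaL (qL discriminant) = qL E2 * qL discriminant := by
  rw [← qL_D mem_qFunctions_discriminant, ← qL_mul mem_qFunctions_E2 mem_qFunctions_discriminant]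
  congr 1
  funext τ
  exact D_discriminant τ

lemma qExpansion_E2_coeff_zero : (qExpansion 1 E2).coeff 0 = 1 := by
  have h : qExpansion 1 (normalizedDerivOfComplex discriminant)
      = qExpansion 1 E2 * qExpansion 1 discriminant := by
    rw [← qExpansion_mul (analyticAt_of_mem_qFunctions mem_qFunctions_E2)
      (analyticAt_of_mem_qFunctions mem_qFunctions_discriminant)]
    congr 1
    funext τ
    exact D_discriminant τ
  have h1 := congrArg (PowerSeries.coeff 1) h
  rw [coeff_qExpansion_D mem_qFunctions_discriminant, discriminant_qExpansion_coeff_one,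
    qExpansion_discriminant, ← mul_assoc, mul_comm _ PowerSeries.X, mul_assoc,
    PowerSeries.coeff_succ_X_mul] at h1
  rw [PowerSeries.coeff_mul, Finset.Nat.antidiagonal_zero, Finset.sum_singleton,
    PowerSeries.coeff_map, PowerSeries.coeff_zero_eq_constantCoeff_apply
      (φ := ModularCurve.dedekindEtaUnit),
    ModularCurve.constantCoeff_dedekindEtaUnit] at h1
  simpa using h1.symm

/-- Ramanujan's identity for `E4`. -/
theorem serreDerivative_E4 (τ : ℍ) : serreDerivative 4 E₄ τ = -(1 / 3) * E₆ τ := by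
  obtain ⟨c, hc⟩ := exists_serreDerivative_E₄
  have hfun : normalizedDerivOfComplex (⇑E₄) = c • ⇑E₆ + (1 / 3 : ℂ) • (E2 * ⇑E₄) := by
    funext z
    simp only [Pi.add_apply, Pi.smul_apply, Pi.mul_apply, smul_eq_mul]
    rw [D_eq_serreDerivative_add 4, hc]
    ring
  have h := congrArg (fun g => (qExpansion 1 g).coeff 0) hfun
  have hA := mul_mem mem_qFunctions_E2 mem_qFunctions_E4
  rw [coeff_qExpansion_D mem_qFunctions_E4,
    qExpansion_add (analyticAt_of_mem_qFunctions (Subalgebra.smul_mem _ mem_qFunctions_E6 c))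
      (analyticAt_of_mem_qFunctions (Subalgebra.smul_mem _ hA (1 / 3 : ℂ))),
    qExpansion_smul (analyticAt_of_mem_qFunctions mem_qFunctions_E6),
    qExpansion_smul (analyticAt_of_mem_qFunctions hA), map_add, PowerSeries.coeff_smul,
    PowerSeries.coeff_smul, qExpansion_mul (analyticAt_of_mem_qFunctions mem_qFunctions_E2)
      (analyticAt_of_mem_qFunctions mem_qFunctions_E4)] at h
  simp only [PowerSeries.coeff_mul, Finset.Nat.antidiagonal_zero, Finset.sum_singleton,
    qExpansion_E2_coeff_zero, E_qExpansion_coeff_zero _ ⟨2, rfl⟩,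
    E_qExpansion_coeff_zero _ ⟨3, rfl⟩, Nat.cast_zero, smul_eq_mul, mul_one] at h
  rw [hc, show c = -(1 / 3) by linear_combination -h]

theorem D_E4 (τ : ℍ) : normalizedDerivOfComplex (⇑E₄) τ = (E2 τ * E₄ τ - E₆ τ) / 3 := by
  rw [D_eq_serreDerivative_add 4, serreDerivative_E4]
  ring

theorem D_kleinJ (τ : ℍ) :
    normalizedDerivOfComplex kleinJ τ = -(E₄ τ ^ 2 * E₆ τ / ModularForm.discriminant τ) := by
  rw [D_kleinJ_eq serreDerivative_E4]
  ring

/-- `θ(j) Δ = -E4² E6`. -/
theorem thetaL_jC_mul_discriminant :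
    thetaL jC * qL discriminant = -(qL (⇑E₄) ^ 2 * qL (⇑E₆)) := by
  have h := thetaL_mul jC (qL discriminant)
  rw [jC_mul_discriminant, thetaL_qL_discriminant, qL_pow mem_qFunctions_E4] at h
  have h4 : thetaL (qL (⇑E₄)) * 3 = qL E2 * qL (⇑E₄) - qL (⇑E₆) := by
    rw [← qL_D mem_qFunctions_E4, ← qL_mul mem_qFunctions_E2 mem_qFunctions_E4,
      ← qL_sub (mul_mem mem_qFunctions_E2 mem_qFunctions_E4) mem_qFunctions_E6]
    rw [show (3 : LaurentSeries ℂ) = algebraMap ℂ (LaurentSeries ℂ) 3 from (map_ofNat _ 3).symm, mul_comm,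
      ← qL_smul 3 (mem_qFunctions_D mem_qFunctions_E4)]
    congr 1
    funext τ
    simp only [Pi.smul_apply, Pi.sub_apply, Pi.mul_apply, smul_eq_mul, D_E4]
    ring
  have h3 : thetaL (qL (⇑E₄) ^ 3) = qL (⇑E₄) ^ 2 * (thetaL (qL (⇑E₄)) * 3) := by
    rw [show qL (⇑E₄) ^ 3 = qL (⇑E₄) * (qL (⇑E₄) * qL (⇑E₄)) by ring, thetaL_mul, thetaL_mul]
    ring
  rw [h3, h4, ← mul_assoc, mul_comm jC (qL E2), mul_assoc,
    jC_mul_discriminant, qL_pow mem_qFunctions_E4] at h
  linear_combination -h

theorem thetaL_jC_eq_div :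
    thetaL jC = -(qL (⇑E₄) ^ 2 * qL (⇑E₆)) / qL discriminant := by
  rw [eq_div_iff qL_discriminant_ne_zero, thetaL_jC_mul_discriminant]

/-- The identity `θ(j) Δ = -E4² E6` with integral coefficients. -/
theorem thetaL_jqModC_int :
    thetaL (ModularCurve.jqModC ℤ) *
        (HahnSeries.single (1 : ℤ) 1 * HahnSeries.ofPowerSeries ℤ ℤ ModularCurve.dedekindEtaUnit)
      = -(HahnSeries.ofPowerSeries ℤ ℤ (ModularCurve.eisenstein4 ^ 2 * eisenstein6)) := by
  apply coeffMap_injective (φ := Int.castRingHom ℂ) Int.cast_injective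
  rw [map_mul, map_mul, map_neg, coeffMap_thetaL, ModularCurve.coeffMap_single, map_one,
    coeffMap_ofPowerSeries, coeffMap_ofPowerSeries, ← qL_discriminant, map_mul, map_pow, map_mul,
    map_pow]
  have hj : ModularCurve.coeffMap (Int.castRingHom ℂ) (ModularCurve.jqModC ℤ) = jC :=
    ModularCurve.map_jqModC (Int.castRingHom ℂ)
  rw [hj, thetaL_jC_mul_discriminant, qL, qL, qExpansion_E4, qExpansion_E6]

end Fermat.Agent.MF
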