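/-
Ratios of level one forms of the same weight are rational functions of `j`.
-/
import Fermat.Agent.MF.JExpansion
import Mathlib.NumberTheory.ModularForms.LevelOne.DimensionFormula
import Mathlib.FieldTheory.IntermediateField.Adjoin.Basic

set_option autoImplicit false

noncomputable section

open UpperHalfPlane ModularForm EisensteinSeries Polynomial
open scoped MatrixGroups Manifold

namespace Fermat.Agent.MF

theorem jC_mul_qL_discriminant : jC * qL ModularForm.discriminant = qL E₄ ^ 3 := by
  rw [jC_mul_discriminant, qL_pow mem_qFunctions_E4]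

/-- A level one form of weight `12 m` is a polynomial of degree `≤ m` in `j`, times `Δ ^ m`. -/
theorem exists_poly_mul_discriminant_pow :
    ∀ (m : ℕ) {k : ℤ} (_ : k = 12 * (m : ℤ)) (F : ModularForm 𝒮ℒ k),
      ∃ P : ℂ[X], P.natDegree ≤ m ∧
        ∀ τ, F τ = P.eval (kleinJ τ) * ModularForm.discriminant τ ^ m := by
  intro m
  induction m with
  | zero =>
    intro k hk F
    obtain rfl : k = 0 := by simpa using hk
    obtain ⟨c, hc⟩ := ModularFormClass.levelOne_weight_zero_const F
    exact ⟨C c, by simp, fun τ => by simp [hc]⟩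
  | succ m ih =>
    intro k hk F
    have hw : ((3 * (m + 1) : ℕ) : ℤ) * 4 = k := by rw [hk]; push_cast; ring
    set E : ModularForm 𝒮ℒ k := ModularForm.mcast hw (E₄.pow (3 * (m + 1))) with hE
    set c := (qExpansion 1 F).coeff 0 with hc
    set G : ModularForm 𝒮ℒ k := F - c • E with hG
    have hEcoe : (E : ℍ → ℂ) = (⇑E₄) ^ (3 * (m + 1)) := by
      rw [hE, ModularForm.coe_mcast, ModularForm.coe_pow]
    have hcusp : (qExpansion 1 G).coeff 0 = 0 := by
      rw [hG, FunLike.coe_sub, ModularForm.qExpansion_sub one_pos one_mem_strictPeriods_SL F (c • E),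
        FunLike.coe_smul, ModularForm.qExpansion_smul one_pos one_mem_strictPeriods_SL c E, hE,
        ModularForm.coe_mcast, ModularForm.qExpansion_pow one_pos one_mem_strictPeriods_SL,
        map_sub, PowerSeries.coeff_smul, PowerSeries.coeff_zero_eq_constantCoeff, map_pow,
        ← PowerSeries.coeff_zero_eq_constantCoeff (R := ℂ), E_qExpansion_coeff_zero _ ⟨2, rfl⟩,
        one_pow, smul_eq_mul, mul_one, sub_self]
    obtain ⟨P, hP, hPe⟩ := ih (k := k - 12) (by rw [hk]; push_cast; ring)
      (CuspForm.discriminantEquiv (toCuspForm G hcusp))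
    refine ⟨C c * X ^ (m + 1) + P, ?_, fun τ => ?_⟩
    · refine (natDegree_add_le _ _).trans (max_le ((natDegree_C_mul_le _ _).trans ?_) ?_)
      · simp
      · omega
    · have h1 := ModularForm.discriminant_mul_discriminantEquiv_apply (toCuspForm G hcusp) τ
      rw [hPe, show (toCuspForm G hcusp) τ = G τ from rfl, hG] at h1
      have h2 : E τ = kleinJ τ ^ (m + 1) * ModularForm.discriminant τ ^ (m + 1) := by
        rw [hEcoe, Pi.pow_apply, pow_mul, ← mul_pow, kleinJ,
          div_mul_cancel₀ _ (discriminant_ne_zero τ)]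
      simp only [sub_apply, _root_.smul_apply, smul_eq_mul, h2] at h1
      simp only [eval_add, eval_mul, eval_C, eval_pow, eval_X]
      linear_combination -h1

theorem exists_poly_qL {m : ℕ} {k : ℤ} (hk : k = 12 * (m : ℤ)) (F : ModularForm 𝒮ℒ k) :
    ∃ P : ℂ[X], P.natDegree ≤ m ∧ qL F = aeval jC P * qL ModularForm.discriminant ^ m := by
  obtain ⟨P, hP, hF⟩ := exists_poly_mul_discriminant_pow m hk F
  refine ⟨P, hP, ?_⟩
  let e : qFunctions := ⟨E₄, coe_levelOne_mem_qFunctions E₄⟩
  let δ : qFunctions := ⟨ModularForm.discriminant, mem_qFunctions_discriminant⟩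
  have h : (⟨F, coe_levelOne_mem_qFunctions F⟩ : qFunctions)
      = ∑ i ∈ Finset.range (m + 1), algebraMap ℂ qFunctions (P.coeff i) * ((e ^ 3) ^ i * δ ^ (m - i)) := by
    refine Subtype.ext (funext fun τ => ?_)
    rw [AddSubmonoidClass.coe_finset_sum, Finset.sum_apply]
    show F τ = _
    rw [hF, eval_eq_sum_range' (Nat.lt_succ_of_le hP), Finset.sum_mul]
    refine Finset.sum_congr rfl fun i hi => ?_
    have him : i ≤ m := Nat.lt_succ_iff.mp (Finset.mem_range.mp hi)
    show _ = P.coeff i * ((E₄ τ ^ 3) ^ i * ModularForm.discriminant τ ^ (m - i))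
    have hne := discriminant_ne_zero τ
    rw [← Nat.add_sub_cancel' him, pow_add, Nat.add_sub_cancel' him, kleinJ, div_pow]
    field_simp
  have h' := congrArg qLHom h
  simp only [map_sum, map_mul, map_pow, AlgHom.commutes, qLHom_apply] at h'
  rw [h', aeval_eq_sum_range' (Nat.lt_succ_of_le hP), Finset.sum_mul]
  refine Finset.sum_congr rfl fun i hi => ?_
  have him : i ≤ m := Nat.lt_succ_iff.mp (Finset.mem_range.mp hi)
  show _ * ((qL E₄ ^ 3) ^ i * qL ModularForm.discriminant ^ (m - i)) = _
  rw [← jC_mul_qL_discriminant, mul_pow, Algebra.smul_def, mul_assoc (jC ^ i), ← pow_add,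
    Nat.add_sub_cancel' him, mul_assoc]

/-- Ratios of level one forms of equal weight lie in `ℂ(j)`. -/
theorem qL_div_mem_adjoin_jC {k : ℤ} (F G : ModularForm 𝒮ℒ k) :
    qL F / qL G ∈ IntermediateField.adjoin ℂ {jC} := by
  rcases eq_or_ne G 0 with rfl | hG
  · simp [qL_zero]
  have hk : 0 ≤ k := by
    by_contra h
    exact hG (DFunLike.ext _ _ fun τ => congrFun
      (ModularFormClass.levelOne_neg_weight_eq_zero (not_le.mp h) G) τ)
  lift k to ℕ using hk
  set F' : ModularForm 𝒮ℒ (12 * (k : ℤ)) :=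
    ModularForm.mcast (by push_cast; ring) (F.mul (G.pow 11)) with hF'
  set G' : ModularForm 𝒮ℒ (12 * (k : ℤ)) :=
    ModularForm.mcast (by push_cast; ring) (G.pow 12) with hG'
  obtain ⟨P, -, hP⟩ := exists_poly_qL rfl F'
  obtain ⟨Q, -, hQ⟩ := exists_poly_qL rfl G'
  have hg0 : qL G ≠ 0 := fun h => hG ((FunLike.coe_zero_iff G).mp
    ((qL_eq_zero_iff (coe_levelOne_mem_qFunctions G)).mp h))
  let f : qFunctions := ⟨F, coe_levelOne_mem_qFunctions F⟩
  let g : qFunctions := ⟨G, coe_levelOne_mem_qFunctions G⟩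
  have h1 : qL F' = qL F * qL G ^ 11 := by
    have : (F' : ℍ → ℂ) = ((f * g ^ 11 : qFunctions) : ℍ → ℂ) := by
      rw [hF', ModularForm.coe_mcast, ModularForm.coe_mul, ModularForm.coe_pow]; rfl
    rw [this]
    exact (map_mul qLHom f (g ^ 11)).trans (by rw [map_pow]; rfl)
  have h2 : qL G' = qL G ^ 12 := by
    have : (G' : ℍ → ℂ) = ((g ^ 12 : qFunctions) : ℍ → ℂ) := by
      rw [hG', ModularForm.coe_mcast, ModularForm.coe_pow]; rfl
    rw [this]
    exact map_pow qLHom g 12
  have key : qL F / qL G = aeval jC P / aeval jC Q := by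
    rw [← mul_div_mul_right _ _ (pow_ne_zero 11 hg0), ← h1, ← pow_succ', ← h2, hP, hQ,
      mul_div_mul_right _ _ (pow_ne_zero _ qL_discriminant_ne_zero)]
  rw [key, IntermediateField.mem_adjoin_simple_iff]
  exact ⟨P, Q, rfl⟩

end Fermat.Agent.MF
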