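/-
Every ratio of forms on `Γ₀(N)` is a root of a monic polynomial over `ℂ(j)` of degree the index.
-/
import Fermat.Agent.MF.LevelOneRatio
import Mathlib.LinearAlgebra.Lagrange

set_option autoImplicit false

noncomputable section

open UpperHalfPlane ModularForm Polynomial CongruenceSubgroup
open scoped MatrixGroups Manifold

namespace Fermat.Agent.MF

/-- The cosets used by the norm from `Γ₀(N)` to `SL(2, ℤ)`. -/
abbrev NormCosets (N : ℕ) : Type :=
  𝒮ℒ ⧸ ((Gamma0 N : Subgroup SL(2, ℤ)) : Subgroup (GL (Fin 2) ℝ)).subgroupOf 𝒮ℒ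

theorem card_normCosets (N : ℕ) : Nat.card (NormCosets N) = (Gamma0 N).index := by
  change ((Gamma0 N).map (Matrix.SpecialLinearGroup.mapGL ℝ)).relIndex
    (Matrix.SpecialLinearGroup.mapGL ℝ).range = _
  rw [MonoidHom.range_eq_map, Subgroup.relIndex_map_map_of_injective _ _
    Matrix.SpecialLinearGroup.mapGL_injective, Subgroup.relIndex_top_right]

variable {N : ℕ} {k : ℤ}

theorem quotientFunc_smul_sub (f g : MForm N k) (x : ℂ) (q : NormCosets N) (τ : ℍ) :
    SlashInvariantForm.quotientFunc (x • g - f : MForm N k) q τ =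
      x * SlashInvariantForm.quotientFunc g q τ - SlashInvariantForm.quotientFunc f q τ := by
  induction q using Quotient.inductionOn with
  | h r =>
    obtain ⟨γ, hγ⟩ := r.2
    have hr : (r.val)⁻¹ = Matrix.SpecialLinearGroup.mapGL ℝ γ⁻¹ := by
      rw [map_inv, hγ]
    have hc : ((x • g - f : MForm N k) : ℍ → ℂ) = x • (g : ℍ → ℂ) + -(f : ℍ → ℂ) := by
      rw [← sub_eq_add_neg]; rfl
    simp only [SlashInvariantForm.quotientFunc_mk, hr, hc]
    show ((x • (g : ℍ → ℂ) + -(f : ℍ → ℂ)) ∣[k] γ⁻¹) τ = x * (⇑g ∣[k] γ⁻¹) τ - (⇑f ∣[k] γ⁻¹) τ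
    rw [SlashAction.add_slash, SlashAction.neg_slash, ModularForm.SL_smul_slash]
    simp [sub_eq_add_neg]

variable [NeZero N]

theorem norm_apply_eq [Fintype (NormCosets N)] (g : MForm N k) (τ : ℍ) :
    ModularForm.norm 𝒮ℒ g τ = ∏ q : NormCosets N, SlashInvariantForm.quotientFunc g q τ := by
  rw [ModularForm.coe_norm, Finset.prod_apply]
  exact Finset.prod_congr (Finset.ext fun q => by simp) fun _ _ => rfl

/-- The polynomial `∏_q (g_q(τ) X - f_q(τ))`. -/
def cosetPoly [Fintype (NormCosets N)] (f g : MForm N k) (τ : ℍ) : ℂ[X] :=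
  ∏ q : NormCosets N,
    (C (SlashInvariantForm.quotientFunc g q τ) * X - C (SlashInvariantForm.quotientFunc f q τ))

theorem natDegree_factor_le (f g : MForm N k) (τ : ℍ) (q : NormCosets N) :
    (C (SlashInvariantForm.quotientFunc g q τ) * X -
      C (SlashInvariantForm.quotientFunc f q τ)).natDegree ≤ 1 :=
  (natDegree_sub_le _ _).trans (max_le ((natDegree_C_mul_le _ _).trans natDegree_X_le) (by simp))

theorem natDegree_cosetPoly_le [Fintype (NormCosets N)] (f g : MForm N k) (τ : ℍ) :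
    (cosetPoly f g τ).natDegree ≤ Nat.card (NormCosets N) :=
  (natDegree_prod_le _ _).trans ((Finset.sum_le_card_nsmul _ _ 1
    fun q _ => natDegree_factor_le f g τ q).trans (by simp [Nat.card_eq_fintype_card]))

theorem eval_cosetPoly [Fintype (NormCosets N)] (f g : MForm N k) (τ : ℍ) (x : ℂ) :
    (cosetPoly f g τ).eval x = ModularForm.norm 𝒮ℒ (x • g - f : MForm N k) τ := by
  simp only [norm_apply_eq, cosetPoly, eval_prod, eval_sub, eval_mul, eval_C, eval_X,
    quotientFunc_smul_sub, mul_comm _ x]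

theorem coeff_cosetPoly_card [Fintype (NormCosets N)] (f g : MForm N k) (τ : ℍ) :
    (cosetPoly f g τ).coeff (Nat.card (NormCosets N)) = ModularForm.norm 𝒮ℒ g τ := by
  rw [norm_apply_eq, cosetPoly, Nat.card_eq_fintype_card, ← Finset.card_univ,
    ← mul_one (Finset.univ.card),
    coeff_prod_of_natDegree_le _ _ _ fun q _ => natDegree_factor_le f g τ q]
  simp

theorem mul_eval_cosetPoly_eq_zero [Fintype (NormCosets N)] (f g : MForm N k) {τ : ℍ}
    (h0 : g τ ≠ 0) : (cosetPoly f g τ).eval (f τ / g τ) = 0 := by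
  rw [cosetPoly, eval_prod]
  refine Finset.prod_eq_zero (Finset.mem_univ (⟦1⟧ : NormCosets N)) ?_
  rw [SlashInvariantForm.quotientFunc_mk, SlashInvariantForm.quotientFunc_mk]
  simp [mul_div_cancel₀ _ h0]

/-- Interpolation: coefficients of a family of polynomials whose values are level one forms. -/
theorem exists_forms_coeff_eq {K : ℤ} (n : ℕ) (P : ℍ → ℂ[X]) (hP : ∀ τ, (P τ).natDegree ≤ n)
    (F : ℂ → ModularForm 𝒮ℒ K) (hF : ∀ τ x, (P τ).eval x = F x τ) :
    ∃ c : ℕ → ModularForm 𝒮ℒ K, ∀ (τ : ℍ) (j : ℕ), (P τ).coeff j = c j τ := by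
  let v : ℕ → ℂ := fun i => (i : ℂ)
  have hv : Set.InjOn v (Finset.range (n + 1)) := fun a _ b _ h => by simpa [v] using h
  refine ⟨fun j => ∑ i ∈ Finset.range (n + 1),
    (Lagrange.basis (Finset.range (n + 1)) v i).coeff j • F (v i), fun τ j => ?_⟩
  have hlt : (P τ).degree < ((Finset.range (n + 1)).card : WithBot ℕ) := by
    rw [Finset.card_range]
    exact (degree_le_natDegree.trans (WithBot.coe_le_coe.mpr (hP τ))).trans_lt
      (WithBot.coe_lt_coe.mpr n.lt_succ_self)
  rw [Lagrange.eq_interpolate_of_eval_eq (fun i => F (v i) τ) hv hlt fun i _ => hF τ (v i),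
    Lagrange.interpolate_apply, finsetSum_coeff]
  simp [coeff_C_mul, mul_comm]

theorem exists_coeff_forms [Fintype (NormCosets N)] (f g : MForm N k) :
    ∃ c : ℕ → ModularForm 𝒮ℒ (k * Nat.card (NormCosets N)),
      ∀ (τ : ℍ) (j : ℕ), (cosetPoly f g τ).coeff j = c j τ :=
  exists_forms_coeff_eq _ (cosetPoly f g) (natDegree_cosetPoly_le f g)
    (fun x => ModularForm.norm 𝒮ℒ (x • g - f : MForm N k)) fun τ x => eval_cosetPoly f g τ x

/-- Every element of `MFField N` is killed by a monic polynomial over `ℂ(j)` of degree the index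
of `Γ₀(N)`. -/
theorem exists_monic_annihilator {x : LaurentSeries ℂ} (hx : x ∈ MFField N) :
    ∃ P : (IntermediateField.adjoin ℂ {jC})[X],
      P.Monic ∧ P.natDegree = (Gamma0 N).index ∧ Polynomial.aeval x P = 0 := by
  classical
  obtain ⟨k, f, g, hg, rfl⟩ := mem_MFField_iff.mp hx
  haveI : Fintype (NormCosets N) := Fintype.ofFinite _
  set n := Nat.card (NormCosets N) with hn
  set s : Finset ℕ := Finset.range (n + 1) with hs
  obtain ⟨c, hcoeff⟩ := exists_coeff_forms f g
  let G : ModularForm 𝒮ℒ (k * n) := ModularForm.norm 𝒮ℒ g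
  have hctop : (c n : ℍ → ℂ) = G := by
    funext τ
    rw [← hcoeff]
    exact coeff_cosetPoly_card f g τ
  let fQ : qFunctions := ⟨f, coe_mem_qFunctions f⟩
  let gQ : qFunctions := ⟨g, coe_mem_qFunctions g⟩
  let cQ : ℕ → qFunctions := fun j => ⟨c j, coe_levelOne_mem_qFunctions (c j)⟩
  have hzero : gQ * ∑ j ∈ s, cQ j * (fQ ^ j * gQ ^ (n - j)) = 0 := by
    refine Subtype.ext (funext fun τ => ?_)
    rw [MulMemClass.coe_mul, Pi.mul_apply, AddSubmonoidClass.coe_finsetSum, Finset.sum_apply]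
    show g τ * ∑ j ∈ s, c j τ * (f τ ^ j * g τ ^ (n - j)) = 0
    rcases eq_or_ne (g τ) 0 with h0 | h0
    · simp [h0]
    · refine mul_eq_zero_of_right _ ?_
      have hev := mul_eval_cosetPoly_eq_zero f g h0
      rw [eval_eq_sum_range' (Nat.lt_succ_of_le (natDegree_cosetPoly_le f g τ))] at hev
      rw [← mul_zero (g τ ^ n), ← hev, Finset.mul_sum]
      refine Finset.sum_congr rfl fun j hj => ?_
      have hjn : j ≤ n := Nat.lt_succ_iff.mp (Finset.mem_range.mp hj)
      rw [hcoeff, div_pow, ← Nat.add_sub_cancel' hjn, pow_add, Nat.add_sub_cancel' hjn]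
      field_simp
  have hgQ : qL g ≠ 0 := mt (qL_mform_eq_zero_iff g).mp hg
  have hG : qL G ≠ 0 := by
    intro h
    exact ModularForm.norm_ne_zero 𝒮ℒ (mform_coe_ne_zero hg) ((FunLike.coe_zero_iff _).mp
      ((qL_eq_zero_iff (coe_levelOne_mem_qFunctions G)).mp h))
  have hsum : ∑ j ∈ s, qL (c j) * (qL f ^ j * qL g ^ (n - j)) = 0 := by
    have h := congrArg qLHom hzero
    simp only [map_mul, map_sum, map_pow, map_zero, qLHom_apply] at h
    exact (mul_eq_zero.mp h).resolve_left hgQ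
  let a : ℕ → IntermediateField.adjoin ℂ {jC} := fun j =>
    ⟨qL (c j) / qL G, qL_div_mem_adjoin_jC (c j) G⟩
  have htop : a n = 1 := Subtype.ext (by simp [a, hctop, div_self hG])
  let P : (IntermediateField.adjoin ℂ {jC})[X] := X ^ n + ∑ j : Fin n, C (a j) * X ^ (j : ℕ)
  have hPm : P.Monic := monic_X_pow_add (degree_sum_fin_lt _)
  have hPn : P.natDegree = n := natDegree_eq_of_degree_eq_some
    (by rw [show P = X ^ n + _ from rfl, degree_add_eq_left_of_degree_lt] <;>
      rw [degree_X_pow]; exact degree_sum_fin_lt _)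
  refine ⟨P, hPm, hPn.trans (card_normCosets N), ?_⟩
  have key : Polynomial.aeval (qL f / qL g) P = ∑ j ∈ s, (a j : LaurentSeries ℂ) * (qL f / qL g) ^ j := by
    rw [hs, Finset.sum_range_succ, htop, show P = X ^ n + _ from rfl, map_add, map_pow, aeval_X,
      map_sum, Finset.sum_range]
    simp [add_comm]
  rw [key]
  have : ∑ j ∈ s, (a j : LaurentSeries ℂ) * (qL f / qL g) ^ j =
      (∑ j ∈ s, qL (c j) * (qL f ^ j * qL g ^ (n - j))) / (qL G * qL g ^ n) := by
    rw [Finset.sum_div]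
    refine Finset.sum_congr rfl fun j hj => ?_
    have hjn : j ≤ n := Nat.lt_succ_iff.mp (Finset.mem_range.mp hj)
    show qL (c j) / qL G * _ = _
    have hpow : qL g ^ n = qL g ^ j * qL g ^ (n - j) := by
      rw [← pow_add, Nat.add_sub_cancel' hjn]
    rw [hpow, div_pow]
    field_simp
  rw [this, hsum, zero_div]

end Fermat.Agent.MF
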