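/-
Functions on `ℍ` that are quotients of `qFunctions`, with their Laurent expansion.
-/
import Fermat.Agent.MF.JExpansion
import Mathlib.Algebra.Polynomial.AlgebraMap

set_option autoImplicit false

noncomputable section

open UpperHalfPlane ModularForm EisensteinSeries Polynomial
open scoped MatrixGroups Manifold

namespace Fermat.Agent.MF

/-- `φ` is a quotient of `qFunctions` with nowhere vanishing denominator, of expansion `x`. -/
def HasLaurent (φ : ℍ → ℂ) (x : LaurentSeries ℂ) : Prop :=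
  ∃ u v : qFunctions, (∀ τ, (v : ℍ → ℂ) τ ≠ 0) ∧ φ * (v : ℍ → ℂ) = u ∧ x * qLHom v = qLHom u

namespace HasLaurent

variable {φ ψ : ℍ → ℂ} {x y : LaurentSeries ℂ}

theorem of_mem (h : φ ∈ qFunctions) : HasLaurent φ (qL φ) :=
  ⟨⟨φ, h⟩, 1, fun _ => one_ne_zero, mul_one φ, by rw [map_one, mul_one]; rfl⟩

theorem const (c : ℂ) : HasLaurent (fun _ => c) (algebraMap ℂ (LaurentSeries ℂ) c) :=
  ⟨algebraMap ℂ qFunctions c, 1, fun _ => one_ne_zero, mul_one _,
    by rw [map_one, mul_one, AlgHom.commutes]⟩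

theorem add (h : HasLaurent φ x) (h' : HasLaurent ψ y) : HasLaurent (φ + ψ) (x + y) := by
  obtain ⟨u, v, hv, hu, hx⟩ := h
  obtain ⟨u', v', hv', hu', hy⟩ := h'
  refine ⟨u * v' + u' * v, v * v', fun τ => mul_ne_zero (hv τ) (hv' τ), ?_, ?_⟩
  · show (φ + ψ) * ((v : ℍ → ℂ) * (v' : ℍ → ℂ)) = (u : ℍ → ℂ) * v' + (u' : ℍ → ℂ) * v
    rw [← hu, ← hu']; ring
  · rw [map_add, map_mul, map_mul, map_mul, ← hx, ← hy]; ring

theorem mul (h : HasLaurent φ x) (h' : HasLaurent ψ y) : HasLaurent (φ * ψ) (x * y) := by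
  obtain ⟨u, v, hv, hu, hx⟩ := h
  obtain ⟨u', v', hv', hu', hy⟩ := h'
  refine ⟨u * u', v * v', fun τ => mul_ne_zero (hv τ) (hv' τ), ?_, ?_⟩
  · show φ * ψ * ((v : ℍ → ℂ) * (v' : ℍ → ℂ)) = (u : ℍ → ℂ) * (u' : ℍ → ℂ)
    rw [← hu, ← hu']; ring
  · rw [map_mul, map_mul, ← hx, ← hy]; ring

theorem unique (h : HasLaurent φ x) (h' : HasLaurent φ y) : x = y := by
  obtain ⟨u, v, hv, hu, hx⟩ := h
  obtain ⟨u', v', hv', hu', hy⟩ := h'
  have hne : ∀ w : qFunctions, (∀ τ, (w : ℍ → ℂ) τ ≠ 0) → qLHom w ≠ 0 := by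
    intro w hw h0
    have : (w : ℍ → ℂ) = 0 := (qL_eq_zero_iff w.2).mp h0
    exact hw UpperHalfPlane.I (congrFun this _)
  have key : u * v' = u' * v := Subtype.ext (by
    show (u : ℍ → ℂ) * v' = (u' : ℍ → ℂ) * v
    rw [← hu, ← hu']; ring)
  refine mul_right_cancel₀ (mul_ne_zero (hne v hv) (hne v' hv')) ?_
  rw [← mul_assoc, hx, ← map_mul, key, map_mul, ← hy]; ring

theorem eq_zero (h : HasLaurent φ 0) : φ = 0 := by
  obtain ⟨u, v, hv, hu, hx⟩ := h
  rw [zero_mul] at hx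
  have h0 : (u : ℍ → ℂ) = 0 := (qL_eq_zero_iff u.2).mp hx.symm
  funext τ
  have := congrFun hu τ
  rw [h0] at this
  exact (mul_eq_zero.mp this).resolve_right (hv τ)

theorem aeval (h : HasLaurent φ x) (P : ℂ[X]) :
    HasLaurent (fun τ => P.eval (φ τ)) (Polynomial.aeval x P) := by
  induction P using Polynomial.induction_on with
  | C c => simpa using const c
  | add P Q hP hQ => simpa [Pi.add_def] using hP.add hQ
  | monomial n c hn => simpa [pow_succ, mul_assoc, Pi.mul_def] using hn.mul h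

theorem eval₂ (h : HasLaurent φ x) (h' : HasLaurent ψ y) (R : ℂ[X][X]) :
    HasLaurent (fun τ => (R.map (Polynomial.evalRingHom (φ τ))).eval (ψ τ))
      (R.eval₂ (Polynomial.aeval x).toRingHom y) := by
  induction R using Polynomial.induction_on with
  | C P => simpa using h.aeval P
  | add P Q hP hQ => simpa [Pi.add_def] using hP.add hQ
  | monomial n P hn => simpa [pow_succ, mul_assoc, Pi.mul_def] using hn.mul h'

end HasLaurent

private theorem kleinJ_mul_disc_eq : kleinJ * ModularForm.discriminant = (⇑E₄) ^ 3 := by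
  funext τ
  simp [kleinJ, div_mul_cancel₀ _ (discriminant_ne_zero τ)]

theorem hasLaurent_kleinJ : HasLaurent kleinJ jC :=
  ⟨⟨_, pow_mem mem_qFunctions_E4 3⟩, ⟨_, mem_qFunctions_discriminant⟩,
    discriminant_ne_zero, kleinJ_mul_disc_eq, jC_mul_discriminant⟩

theorem hasLaurent_kleinJ_scaleH (d : ℕ) [NeZero d] : HasLaurent (kleinJ ∘ scaleH d) (jdC d) :=
  ⟨⟨_, mem_qFunctions_comp_scaleH (pow_mem mem_qFunctions_E4 3) d⟩,
    ⟨_, mem_qFunctions_comp_scaleH mem_qFunctions_discriminant d⟩,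
    fun _ => discriminant_ne_zero _,
    funext fun τ => congrFun kleinJ_mul_disc_eq (scaleH d τ), jdC_mul_discriminant d⟩

end Fermat.Agent.MF
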