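/-
Klein's `j` at infinity: `j(τ) q → 1`.
-/
import Fermat.Agent.MF.KleinJ

set_option autoImplicit false

noncomputable section

open UpperHalfPlane ModularForm EisensteinSeries Function Filter Topology
open scoped MatrixGroups Manifold

namespace Fermat.Agent.MF

/-- `j(τ) q → 1` at infinity. -/
theorem tendsto_kleinJ_mul_qParam :
    Tendsto (fun τ : ℍ => kleinJ τ * Periodic.qParam 1 τ) atImInfty (𝓝 1) := by
  have h := (tendsto_E₄_atImInfty.pow 3).div tendsto_atImInfty_tprod_one_sub_eta_q_pow one_ne_zero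
  rw [one_pow, div_one] at h
  refine h.congr fun τ => ?_
  show E₄ τ ^ 3 / _ = _
  have hq : Periodic.qParam 1 (τ : ℂ) ≠ 0 := Complex.exp_ne_zero _
  rw [kleinJ, discriminant_eq_q_prod]
  field_simp

end Fermat.Agent.MF
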