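/-
The conjugates `τ ↦ j(N γ τ)`, `γ` over `Γ₀(N) \ SL(2, ℤ)`, are pairwise different near `i∞`.
-/
import Fermat.Agent.MF.KleinBasic
import Fermat.Agent.MF.Degeneracy
import Fermat.Agent.MF.Cosets.Index

set_option autoImplicit false

noncomputable section

open UpperHalfPlane ModularForm Filter Topology Complex Matrix.SpecialLinearGroup CongruenceSubgroup
open scoped MatrixGroups Manifold Real

namespace Fermat.Agent.MF

/-- The integral matrix `diag(N, 1) γ`. -/
def diagTimes (N : ℕ) (γ : SL(2, ℤ)) : Matrix (Fin 2) (Fin 2) ℤ :=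
  !![(N : ℤ), 0; 0, 1] * (γ : Matrix (Fin 2) (Fin 2) ℤ)

theorem det_diagTimes (N : ℕ) (γ : SL(2, ℤ)) : (diagTimes N γ).det = N := by
  rw [diagTimes, Matrix.det_mul, γ.2, Matrix.det_fin_two_of]
  ring

theorem exists_triangular_of_det_pos {M : Matrix (Fin 2) (Fin 2) ℤ} (hM : 0 < M.det) :
    ∃ (δ : SL(2, ℤ)) (a b d : ℤ), 0 < a ∧ 0 < d ∧ a * d = M.det ∧
      M = (δ : Matrix (Fin 2) (Fin 2) ℤ) * !![a, b; 0, d] := by
  have hne : ¬ (M 0 0 = 0 ∧ M 1 0 = 0) := by
    rintro ⟨h0, h1⟩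
    simp [Matrix.det_fin_two, h0, h1] at hM
  set g : ℕ := Int.gcd (M 0 0) (M 1 0) with hg
  have hgpos : 0 < g := Nat.pos_of_ne_zero fun h => hne (Int.gcd_eq_zero_iff.mp h)
  obtain ⟨p, hp⟩ := Int.gcd_dvd_left (M 0 0) (M 1 0)
  obtain ⟨r, hr⟩ := Int.gcd_dvd_right (M 0 0) (M 1 0)
  rw [← hg] at hp hr
  have hbez := Int.gcd_eq_gcd_ab (M 0 0) (M 1 0)
  rw [← hg] at hbez
  set A := Int.gcdA (M 0 0) (M 1 0)
  set B := Int.gcdB (M 0 0) (M 1 0)
  have h1 : p * A + r * B = 1 := by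
    refine mul_left_cancel₀ (Int.natCast_ne_zero.mpr hgpos.ne') ?_
    rw [mul_one]; linear_combination -hbez - A * hp - B * hr
  have hdet : (M 0 0) * (M 1 1) - (M 0 1) * (M 1 0) = M.det := (Matrix.det_fin_two M).symm
  refine ⟨⟨!![p, -B; r, A], by rw [Matrix.det_fin_two_of]; linear_combination h1⟩,
    g, A * M 0 1 + B * M 1 1, -r * M 0 1 + p * M 1 1, by exact_mod_cast hgpos, ?_, ?_, ?_⟩
  · have : (g : ℤ) * (-r * M 0 1 + p * M 1 1) = M.det := by
      linear_combination hdet - M 1 1 * hp + M 0 1 * hr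
    exact (mul_pos_iff_of_pos_left (by exact_mod_cast hgpos : (0 : ℤ) < g)).mp (this ▸ hM)
  · linear_combination hdet - M 1 1 * hp + M 0 1 * hr
  · ext i j
    fin_cases i <;> fin_cases j <;> simp [Matrix.mul_apply, Fin.sum_univ_two]
    · rw [hp]; ring
    · linear_combination -(M 0 1) * h1
    · rw [hr]; ring
    · linear_combination -(M 1 1) * h1

/-- Matrices with the same reduced triangular form differ by `SL(2, ℤ)` on the left. -/
theorem mem_gamma0_of_diagTimes_eq {N : ℕ} [NeZero N] {γ γ' δ : SL(2, ℤ)}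
    (h : diagTimes N γ' = (δ : Matrix (Fin 2) (Fin 2) ℤ) * diagTimes N γ) :
    γ' * γ⁻¹ ∈ Gamma0 N := by
  have h' : !![(N : ℤ), 0; 0, 1] * ((γ' * γ⁻¹ : SL(2, ℤ)) : Matrix (Fin 2) (Fin 2) ℤ) =
      (δ : Matrix (Fin 2) (Fin 2) ℤ) * !![(N : ℤ), 0; 0, 1] := by
    rw [Matrix.SpecialLinearGroup.coe_mul, ← mul_assoc]
    show diagTimes N γ' * _ = _
    rw [h, diagTimes, mul_assoc, mul_assoc, ← Matrix.SpecialLinearGroup.coe_mul, mul_inv_cancel]
    simp
  generalize γ' * γ⁻¹ = e at h' ⊢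
  have h10 := congrArg (fun A : Matrix (Fin 2) (Fin 2) ℤ => A 1 0) h'
  simp [Matrix.mul_apply, Fin.sum_univ_two] at h10
  rw [Gamma0_mem]
  show ((e 1 0 : ℤ) : ZMod N) = 0
  rw [h10]
  simp

/-- The point `(α t) i + β`. -/
def imPoint (α β t : ℝ) : ℍ := ofComplex ((α * t : ℝ) * Complex.I + (β : ℂ))

theorem coe_imPoint {α β t : ℝ} (h : 0 < α * t) :
    (imPoint α β t : ℂ) = (α * t : ℝ) * Complex.I + (β : ℂ) := by
  rw [imPoint, ofComplex_apply_of_im_pos (by simpa using h)]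

theorem tendsto_imPoint {α : ℝ} (hα : 0 < α) (β : ℝ) :
    Tendsto (imPoint α β) atTop atImInfty := by
  refine tendsto_comap_iff.mpr ?_
  refine (tendsto_id.const_mul_atTop hα).congr' ?_
  filter_upwards [eventually_gt_atTop 0] with t ht
  show α * id t = (imPoint α β t).im
  rw [← coe_im, coe_imPoint (mul_pos hα ht)]
  simp

theorem eventually_kleinJ_imPoint_ne {α α' : ℝ} (hα : 0 < α) (hα' : 0 < α') {β β' : ℝ}
    (h : ¬ (α = α' ∧ ∃ n : ℤ, β - β' = n)) :
    ∀ᶠ t in atTop, kleinJ (imPoint α β t) ≠ kleinJ (imPoint α' β' t) := by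
  by_contra hfr
  simp only [not_eventually, not_not] at hfr
  set S := {t | kleinJ (imPoint α β t) = kleinJ (imPoint α' β' t)}
  haveI : NeBot (atTop ⊓ 𝓟 S) := frequently_mem_iff_neBot.mp hfr
  have h1 := (tendsto_kleinJ_mul_qParam.comp (tendsto_imPoint hα β)).mono_left
    (inf_le_left : atTop ⊓ 𝓟 S ≤ atTop)
  have h2 := (tendsto_kleinJ_mul_qParam.comp (tendsto_imPoint hα' β')).mono_left
    (inf_le_left : atTop ⊓ 𝓟 S ≤ atTop)
  have h3 := h1.div h2 one_ne_zero
  rw [div_one] at h3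
  have hne : ∀ᶠ t in atTop ⊓ 𝓟 S,
      kleinJ (imPoint α' β' t) * Function.Periodic.qParam 1 (imPoint α' β' t : ℂ) ≠ 0 :=
    h2.eventually_ne one_ne_zero
  have hS : ∀ᶠ t in atTop ⊓ 𝓟 S, t ∈ S :=
    eventually_inf_principal.mpr (Eventually.of_forall fun _ h => h)
  have hpos : ∀ᶠ t in atTop ⊓ 𝓟 S, (0 : ℝ) < t :=
    (eventually_gt_atTop 0).filter_mono inf_le_left
  set c : ℂ := Complex.exp (2 * π * Complex.I * ((β - β' : ℝ) : ℂ)) with hc
  have h4 : Tendsto (fun t : ℝ => (Real.exp (-(2 * π * (α - α') * t)) : ℂ) * c)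
      (atTop ⊓ 𝓟 S) (𝓝 1) := by
    refine h3.congr' ?_
    filter_upwards [hne, hS, hpos] with t hnt hts ht
    have hts' : kleinJ (imPoint α β t) = kleinJ (imPoint α' β' t) := hts
    simp only [Pi.div_apply, Function.comp_apply, hts']
    rw [mul_div_mul_left _ _ (left_ne_zero_of_mul hnt), Function.Periodic.qParam, Function.Periodic.qParam,
      coe_imPoint (mul_pos hα ht), coe_imPoint (mul_pos hα' ht), ← Complex.exp_sub, hc,
      Complex.ofReal_exp, ← Complex.exp_add]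
    congr 1
    push_cast
    linear_combination (2 * (π : ℂ) * t * (α - α')) * Complex.I_sq
  have h5 : Tendsto (fun t : ℝ => Real.exp (-(2 * π * (α - α') * t)))
      (atTop ⊓ 𝓟 S) (𝓝 1) := by
    have := h4.norm
    simpa [hc, Complex.norm_exp, Complex.norm_real, abs_of_pos (Real.exp_pos _)] using this
  have h6 : Tendsto (fun t : ℝ => -(2 * π * (α - α') * t)) (atTop ⊓ 𝓟 S) (𝓝 0) := by
    have := (Real.continuousAt_log one_ne_zero).tendsto.comp h5
    simpa [Function.comp_def] using this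
  have hαα : α = α' := by
    by_contra hne'
    have h7 : Tendsto (fun t : ℝ => t) (atTop ⊓ 𝓟 S) (𝓝 0) := by
      have := h6.const_mul (-(2 * π * (α - α')))⁻¹
      rw [mul_zero] at this
      refine this.congr fun t => ?_
      have : α - α' ≠ 0 := sub_ne_zero.mpr hne'
      field_simp
    exact not_tendsto_nhds_of_tendsto_atTop (tendsto_id.mono_left inf_le_left) 0 h7
  have hc1 : c = 1 := by
    subst hαα
    simp only [sub_self, mul_zero, zero_mul, neg_zero, Real.exp_zero, Complex.ofReal_one,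
      one_mul] at h4
    exact tendsto_nhds_unique tendsto_const_nhds h4
  obtain ⟨n, hn⟩ := Complex.exp_eq_one_iff.mp hc1
  refine h ⟨hαα, n, ?_⟩
  have h2πI : (2 * π * Complex.I : ℂ) ≠ 0 := Complex.two_pi_I_ne_zero
  have hn' : ((β - β' : ℝ) : ℂ) = (n : ℂ) :=
    mul_left_cancel₀ h2πI (by rw [hn]; ring)
  exact_mod_cast hn'

theorem scaleH_smul_eq_imPoint {N : ℕ} [NeZero N] {γ δ : SL(2, ℤ)} {a b d : ℤ} (ha : 0 < a)
    (hd : 0 < d) (h : diagTimes N γ = (δ : Matrix (Fin 2) (Fin 2) ℤ) * !![a, b; 0, d])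
    {t : ℝ} (ht : 0 < t) :
    kleinJ (scaleH N (γ • imPoint 1 0 t)) = kleinJ (imPoint ((a : ℝ) / d) ((b : ℝ) / d) t) := by
  have had : (a : ℝ) * d ≠ 0 := by
    have : a * d ≠ 0 := by positivity
    exact_mod_cast this
  set U := upperTriangularGL (a : ℝ) b d had
  have heq : heckeDiagMatrix N * mapGL ℝ γ = mapGL ℝ δ * U := by
    apply Units.ext
    rw [Units.val_mul, Units.val_mul, val_heckeDiagMatrix (NeZero.ne N), val_upperTriangularGL]
    have h' := congrArg (fun A : Matrix (Fin 2) (Fin 2) ℤ => A.map (Int.castRingHom ℝ)) h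
    simp only [diagTimes, Matrix.map_mul] at h'
    convert h' using 2 <;>
      first | rfl | (ext i j; fin_cases i <;> fin_cases j <;> simp)
  have hU : U • imPoint 1 0 t = imPoint ((a : ℝ) / d) ((b : ℝ) / d) t := by
    have hpos : 0 < (U.det : ℝ) := by
      rw [Matrix.GeneralLinearGroup.val_det_apply, val_upperTriangularGL, Matrix.det_fin_two_of]
      have : 0 < a * d := mul_pos ha hd
      simp; exact_mod_cast this
    refine UpperHalfPlane.ext ?_
    rw [UpperHalfPlane.coe_smul_of_det_pos hpos, coe_imPoint (by simpa using ht),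
      coe_imPoint (mul_pos (div_pos (by exact_mod_cast ha) (by exact_mod_cast hd)) ht)]
    simp only [num, denom, U, val_upperTriangularGL]
    simp
    have : (d : ℂ) ≠ 0 := by exact_mod_cast hd.ne'
    field_simp
  have hact : ∀ z : ℍ, (γ • z : ℍ) = mapGL ℝ γ • z := fun _ => rfl
  rw [scaleH, hact, ← mul_smul, heq, mul_smul, hU]
  exact kleinJ_smul δ _

variable (N : ℕ) [NeZero N]

/-- The conjugate of `j(Nτ)` attached to a coset. -/
def jNConj (q : Cosets.X0 N) (τ : ℍ) : ℂ := kleinJ (scaleH N ((q.out)⁻¹ • τ))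

theorem eventually_jNConj_ne {q q' : Cosets.X0 N} (hne : q ≠ q') :
    ∀ᶠ t in atTop, jNConj N q (imPoint 1 0 t) ≠ jNConj N q' (imPoint 1 0 t) := by
  have hN : (0 : ℤ) < (N : ℤ) := by exact_mod_cast Nat.pos_of_ne_zero (NeZero.ne N)
  obtain ⟨δ, a, b, d, ha, hd, had, hM⟩ :=
    exists_triangular_of_det_pos (M := diagTimes N q.out⁻¹) (by rw [det_diagTimes]; exact hN)
  obtain ⟨δ', a', b', d', ha', hd', had', hM'⟩ :=
    exists_triangular_of_det_pos (M := diagTimes N q'.out⁻¹) (by rw [det_diagTimes]; exact hN)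
  rw [det_diagTimes] at had had'
  have hcond : ¬ ((a : ℝ) / d = a' / d' ∧ ∃ n : ℤ, (b : ℝ) / d - b' / d' = n) := by
    rintro ⟨h1, n, h2⟩
    apply hne
    have hdR : (d : ℝ) ≠ 0 := by exact_mod_cast hd.ne'
    have hd'R : (d' : ℝ) ≠ 0 := by exact_mod_cast hd'.ne'
    have h1' : a * d' = a' * d := by
      rw [div_eq_div_iff hdR hd'R] at h1
      exact_mod_cast h1
    have hdd : d = d' := by
      have hprod : a * d * (d' * d' - d * d) = 0 := by
        linear_combination (d * d') * h1' - (d * d) * (had - had')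
      have h0 : d' * d' - d * d = 0 :=
        (mul_eq_zero.mp hprod).resolve_left (by positivity)
      nlinarith
    subst hdd
    have haa : a = a' := mul_right_cancel₀ hd.ne' h1'
    subst haa
    have hb : b = b' + n * d := by
      rw [← sub_div, div_eq_iff hdR] at h2
      have : (b : ℝ) = ((b' + n * d : ℤ) : ℝ) := by push_cast; linarith
      exact_mod_cast this
    have hU : !![a, b; 0, d] =
        ((ModularGroup.T ^ n : SL(2, ℤ)) : Matrix (Fin 2) (Fin 2) ℤ) * !![a, b'; 0, d] := by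
      rw [ModularGroup.coe_T_zpow, hb]
      ext i j
      fin_cases i <;> fin_cases j <;> simp [Matrix.mul_apply, Fin.sum_univ_two]
    have key : diagTimes N q.out⁻¹ =
        ((δ * ModularGroup.T ^ n * δ'⁻¹ : SL(2, ℤ)) : Matrix (Fin 2) (Fin 2) ℤ) *
          diagTimes N q'.out⁻¹ := by
      rw [hM', Matrix.SpecialLinearGroup.coe_mul, mul_assoc, ← mul_assoc (((δ'⁻¹ : SL(2, ℤ))) :
        Matrix (Fin 2) (Fin 2) ℤ), ← Matrix.SpecialLinearGroup.coe_mul δ'⁻¹ δ', inv_mul_cancel,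
        Matrix.SpecialLinearGroup.coe_one, one_mul, Matrix.SpecialLinearGroup.coe_mul, mul_assoc,
        ← hU]
      exact hM
    have hmem := mem_gamma0_of_diagTimes_eq key
    rw [inv_inv] at hmem
    rw [← QuotientGroup.out_eq' q, ← QuotientGroup.out_eq' q', QuotientGroup.eq]
    exact hmem
  filter_upwards [eventually_kleinJ_imPoint_ne (div_pos (by exact_mod_cast ha)
    (by exact_mod_cast hd)) (div_pos (by exact_mod_cast ha') (by exact_mod_cast hd')) hcond,
    eventually_gt_atTop 0] with t hne' ht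
  rw [jNConj, jNConj, scaleH_smul_eq_imPoint ha hd hM ht, scaleH_smul_eq_imPoint ha' hd' hM' ht]
  exact hne'

theorem eventually_injective_jNConj :
    ∀ᶠ t in atTop, Function.Injective fun q : Cosets.X0 N => jNConj N q (imPoint 1 0 t) := by
  haveI : Finite (Cosets.X0 N) := Subgroup.finite_quotient_of_finiteIndex
  have h : ∀ᶠ t in atTop, ∀ p : Cosets.X0 N × Cosets.X0 N, p.1 ≠ p.2 →
      jNConj N p.1 (imPoint 1 0 t) ≠ jNConj N p.2 (imPoint 1 0 t) := by
    rw [eventually_all]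
    intro p
    by_cases hp : p.1 = p.2
    · exact Eventually.of_forall fun _ h => absurd hp h
    · exact (eventually_jNConj_ne N hp).mono fun _ h _ => h
  exact h.mono fun t ht q q' hqq => by_contra fun hne => ht (q, q') hne hqq

end Fermat.Agent.MF
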