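/-
`MFField N = ℂ(j, j(Nτ))`, of degree `dedekindPsi N` over `ℂ(j)`.
-/
import Fermat.Agent.MF.LevelOneRatio
import Fermat.Agent.MF.KleinBasic
import Fermat.Agent.MF.CosetPoly
import Fermat.Agent.MF.HasLaurent
import Fermat.Agent.MF.JSeparation
import Fermat.Agent.MF.Cosets.Index
import Fermat.Prelude.Def_ModularCurve_X0ModL
import Mathlib.FieldTheory.PrimitiveElement

set_option autoImplicit false

noncomputable section

open UpperHalfPlane ModularForm EisensteinSeries IntermediateField Polynomial Filter
open scoped MatrixGroups Manifold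

namespace Fermat.Agent.MF

set_option quotPrecheck false in
local notation "Kj" => IntermediateField.adjoin ℂ {jC}

theorem eventually_kleinJ_imPoint_not_root {P : ℂ[X]} (hP : P ≠ 0) :
    ∀ᶠ t in atTop, P.eval (kleinJ (imPoint 1 0 t)) ≠ 0 := by
  classical
  have h : ∀ᶠ t in atTop, ∀ c ∈ P.roots.toFinset, kleinJ (imPoint 1 0 t) ≠ c := by
    rw [eventually_all_finset]
    intro c _
    filter_upwards [(tendsto_norm_kleinJ_atImInfty.comp
      (tendsto_imPoint one_pos 0)).eventually_gt_atTop ‖c‖] with t ht heq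
    simp [heq] at ht
  refine h.mono fun t ht h0 => ht _ ?_ rfl
  simp [hP, h0]

theorem transcendental_jC : Transcendental ℂ jC := by
  rintro ⟨P, hP, h0⟩
  have h := hasLaurent_kleinJ.aeval P
  rw [h0] at h
  obtain ⟨t, ht⟩ := (eventually_kleinJ_imPoint_not_root hP).exists
  exact ht (congrFun h.eq_zero _)

theorem aeval_jC_ne_zero {P : ℂ[X]} (hP : P ≠ 0) : Polynomial.aeval jC P ≠ 0 :=
  fun h => transcendental_jC ⟨P, hP, h⟩

/-- `Δ` as a modular form of level one. -/
def discriminantForm : ModularForm 𝒮ℒ 12 := (CuspForm.discriminant : ModularForm 𝒮ℒ 12)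

@[simp] theorem coe_discriminantForm :
    (discriminantForm : ℍ → ℂ) = ModularForm.discriminant := rfl

/-- `E₄³` as a modular form of level one. -/
def E₄Cubed : ModularForm 𝒮ℒ 12 := ModularForm.mcast (by norm_num) (E₄.pow 3)

@[simp] theorem coe_E₄Cubed : (E₄Cubed : ℍ → ℂ) = (⇑E₄) ^ 3 := by
  rw [E₄Cubed, ModularForm.coe_mcast, ModularForm.coe_pow]

theorem jC_mem_MFField (N : ℕ) : jC ∈ MFField N := by
  have h := div_mem_MFField (ofLevelOne N E₄Cubed) (ofLevelOne N discriminantForm)
  rwa [coe_ofLevelOne, coe_ofLevelOne, coe_E₄Cubed, coe_discriminantForm,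
    ← jqModC_eq_div] at h

theorem jdC_mem_MFField (N : ℕ) [NeZero N] (d : ℕ) [NeZero d] (h : d ∣ N) :
    jdC d ∈ MFField N := by
  have h' := div_mem_MFField (levelOneScaled d h E₄Cubed) (levelOneScaled d h discriminantForm)
  rwa [coe_levelOneScaled, coe_levelOneScaled, coe_E₄Cubed, coe_discriminantForm,
    ← jdC_eq_div] at h'

theorem adjoin_jC_le_MFField (N : ℕ) : IntermediateField.adjoin ℂ {jC} ≤ MFField N := by
  rw [IntermediateField.adjoin_le_iff]
  exact Set.singleton_subset_iff.mpr (jC_mem_MFField N)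

/-- `MFField N` as an extension of `ℂ(j)`. -/
def mfExtension (N : ℕ) :
    IntermediateField (IntermediateField.adjoin ℂ {jC}) (LaurentSeries ℂ) :=
  IntermediateField.extendScalars (adjoin_jC_le_MFField N)

@[simp] theorem mem_mfExtension {N : ℕ} {x : LaurentSeries ℂ} :
    x ∈ mfExtension N ↔ x ∈ MFField N :=
  Iff.rfl

section Degree

variable (N : ℕ) [NeZero N]

theorem isIntegral_of_mem_MFField {x : LaurentSeries ℂ} (hx : x ∈ MFField N) :
    IsIntegral Kj x := by
  obtain ⟨P, hP, -, h⟩ := exists_monic_annihilator hx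
  exact ⟨P, hP, h⟩

theorem natDegree_minpoly_le {x : LaurentSeries ℂ} (hx : x ∈ MFField N) :
    (minpoly Kj x).natDegree ≤ ModularCurve.dedekindPsi N := by
  obtain ⟨P, hP, hdeg, h⟩ := exists_monic_annihilator hx
  rw [← Cosets.Gamma0_index_eq_dedekindPsi N, ← hdeg]
  exact natDegree_le_natDegree (minpoly.min _ _ hP h)

theorem exists_fraction (c : Kj) :
    ∃ r s : ℂ[X], Polynomial.aeval jC s ≠ 0 ∧
      (c : LaurentSeries ℂ) * Polynomial.aeval jC s = Polynomial.aeval jC r := by
  obtain ⟨r, s, h⟩ := (IntermediateField.mem_adjoin_simple_iff ℂ _).mp c.2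
  by_cases hs : Polynomial.aeval jC s = 0
  · refine ⟨0, 1, by simp, ?_⟩
    simp [h, hs]
  · exact ⟨r, s, hs, by rw [h, div_mul_cancel₀ _ hs]⟩

/-- A polynomial over `ℂ(j)` killing `j(Nτ)` has degree at least `ψ(N)`. -/
theorem dedekindPsi_le_natDegree {P : Polynomial Kj} (hP : P ≠ 0)
    (h0 : Polynomial.aeval (jdC N) P = 0) :
    ModularCurve.dedekindPsi N ≤ P.natDegree := by
  classical
  set n := P.natDegree with hn
  choose r s hs hrs using fun i : ℕ => exists_fraction (P.coeff i)
  set S := Finset.range (n + 1) with hS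
  let coef : ℕ → ℂ[X] := fun i => r i * ∏ k ∈ S.erase i, s k
  let R : ℂ[X][X] := ∑ i ∈ S, Polynomial.C (coef i) * Polynomial.X ^ i
  have hRdeg : R.natDegree ≤ n :=
    natDegree_sum_le_of_forall_le _ _ fun i hi =>
      (natDegree_C_mul_X_pow_le _ _).trans (Nat.lt_succ_iff.mp (Finset.mem_range.mp hi))
  have hcoefn : coef n ≠ 0 := by
    refine mul_ne_zero ?_ (Finset.prod_ne_zero_iff.mpr fun k _ hk => hs k (by simp [hk]))
    intro hr
    have h1 := hrs n
    rw [hr, map_zero, mul_eq_zero, or_iff_left (hs n), ZeroMemClass.coe_eq_zero] at h1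
    exact leadingCoeff_ne_zero.mpr hP h1
  have hRn : R.coeff n = coef n := by
    simp [R, finsetSum_coeff, Polynomial.coeff_C_mul, Polynomial.coeff_X_pow, hS]
  have hR0 : R.eval₂ (Polynomial.aeval jC).toRingHom (jdC N) = 0 := by
    have hterm : ∀ i ∈ S, Polynomial.aeval jC (coef i) * jdC N ^ i =
        (∏ k ∈ S, Polynomial.aeval jC (s k)) * ((P.coeff i : LaurentSeries ℂ) * jdC N ^ i) := by
      intro i hi
      rw [map_mul, map_prod, ← Finset.mul_prod_erase S _ hi, ← hrs i]
      ring
    rw [eval₂_finsetSum]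
    simp only [eval₂_mul, eval₂_C, eval₂_X_pow, AlgHom.toRingHom_eq_coe, RingHom.coe_coe]
    rw [Finset.sum_congr rfl hterm, ← Finset.mul_sum]
    rw [aeval_eq_sum_range] at h0
    simp only [Algebra.smul_def] at h0
    exact mul_eq_zero_of_right _ h0
  have hfun := hasLaurent_kleinJ.eval₂ (hasLaurent_kleinJ_scaleH N) R
  rw [hR0] at hfun
  obtain ⟨t, hinj, hne⟩ :=
    ((eventually_injective_jNConj N).and (eventually_kleinJ_imPoint_not_root hcoefn)).exists
  set τ := imPoint 1 0 t
  set Q := R.map (Polynomial.evalRingHom (kleinJ τ)) with hQ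
  have hQ0 : Q ≠ 0 := fun h => hne (by
    have := congrArg (fun T => Polynomial.coeff T n) h
    simpa [hQ, Polynomial.coeff_map, hRn] using this)
  haveI : Fintype (Cosets.X0 N) := @Fintype.ofFinite _ Subgroup.finite_quotient_of_finiteIndex
  have hroots : ∀ q : Cosets.X0 N, Q.eval (jNConj N q τ) = 0 := by
    intro q
    have h : (R.map (Polynomial.evalRingHom (kleinJ (q.out⁻¹ • τ)))).eval
        (kleinJ (scaleH N (q.out⁻¹ • τ))) = 0 := congrFun hfun.eq_zero (q.out⁻¹ • τ)
    rw [kleinJ_smul] at h
    rw [hQ, jNConj]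
    exact h
  by_contra hlt
  refine hQ0 (eq_zero_of_natDegree_lt_card_of_eval_eq_zero Q hinj hroots ?_)
  rw [← Nat.card_eq_fintype_card, Cosets.card_X0]
  exact lt_of_le_of_lt (natDegree_map_le.trans hRdeg) (not_le.mp hlt)

theorem natDegree_minpoly_jNC :
    (minpoly (IntermediateField.adjoin ℂ {jC}) (jdC N)).natDegree =
      ModularCurve.dedekindPsi N :=
  le_antisymm (natDegree_minpoly_le N (jdC_mem_MFField N N dvd_rfl))
    (dedekindPsi_le_natDegree N
      (minpoly.ne_zero (isIntegral_of_mem_MFField N (jdC_mem_MFField N N dvd_rfl)))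
      (minpoly.aeval _ _))

theorem mfExtension_eq_adjoin :
    mfExtension N = IntermediateField.adjoin (IntermediateField.adjoin ℂ {jC}) {jdC N} := by
  have hjN := isIntegral_of_mem_MFField N (jdC_mem_MFField N N dvd_rfl)
  refine le_antisymm (fun y hy => ?_) ?_
  swap
  · rw [IntermediateField.adjoin_le_iff]
    exact Set.singleton_subset_iff.mpr (jdC_mem_MFField N N dvd_rfl)
  set L := IntermediateField.adjoin Kj ({jdC N, y} : Set (LaurentSeries ℂ)) with hL
  haveI : FiniteDimensional Kj L := IntermediateField.finiteDimensional_adjoin (by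
    rintro z (rfl | rfl)
    · exact hjN
    · exact isIntegral_of_mem_MFField N hy)
  haveI : CharZero Kj := charZero_of_injective_algebraMap (algebraMap ℂ Kj).injective
  have halg : Algebra.IsAlgebraic Kj L := Algebra.IsAlgebraic.of_finite Kj L
  haveI : Algebra.IsSeparable Kj L :=
    @Algebra.IsAlgebraic.isSeparable_of_perfectField _ _ _ _ _ halg _
  obtain ⟨α, hα⟩ := Field.exists_primitive_element Kj L
  have hαint : IsIntegral Kj α := IsIntegral.of_finite Kj α
  have hαmem : (α : LaurentSeries ℂ) ∈ mfExtension N := by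
    refine (IntermediateField.adjoin_le_iff.mpr ?_ : L ≤ mfExtension N) α.2
    rintro z (rfl | rfl)
    · exact jdC_mem_MFField N N dvd_rfl
    · exact hy
  have hLle : Module.finrank Kj L ≤ ModularCurve.dedekindPsi N := by
    rw [← IntermediateField.finrank_top', ← hα, IntermediateField.adjoin.finrank hαint]
    calc (minpoly Kj α).natDegree = (minpoly Kj (α : LaurentSeries ℂ)).natDegree :=
          congrArg Polynomial.natDegree
            (minpoly.algebraMap_eq (algebraMap L (LaurentSeries ℂ)).injective α).symm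
      _ ≤ _ := natDegree_minpoly_le N hαmem
  have hEle : IntermediateField.adjoin Kj {jdC N} ≤ L :=
    IntermediateField.adjoin.mono _ _ _ (Set.singleton_subset_iff.mpr (Set.mem_insert _ _))
  have hEdim : Module.finrank Kj (IntermediateField.adjoin Kj {jdC N}) =
      ModularCurve.dedekindPsi N := by
    rw [IntermediateField.adjoin.finrank hjN, natDegree_minpoly_jNC]
  rw [IntermediateField.eq_of_le_of_finrank_le hEle (hLle.trans hEdim.ge)]
  exact IntermediateField.subset_adjoin _ _ (Set.mem_insert_of_mem _ rfl)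

theorem finiteDimensional_mfExtension :
    FiniteDimensional (IntermediateField.adjoin ℂ {jC}) (mfExtension N) := by
  rw [mfExtension_eq_adjoin N]
  exact IntermediateField.adjoin.finiteDimensional
    (isIntegral_of_mem_MFField N (jdC_mem_MFField N N dvd_rfl))

/-- `[MF_N : ℂ(j)] = ψ(N)`. -/
theorem finrank_mfExtension :
    Module.finrank (IntermediateField.adjoin ℂ {jC}) (mfExtension N) =
      ModularCurve.dedekindPsi N := by
  rw [mfExtension_eq_adjoin N,
    IntermediateField.adjoin.finrank (isIntegral_of_mem_MFField N (jdC_mem_MFField N N dvd_rfl)),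
    natDegree_minpoly_jNC]

/-- `MF_N = ℂ(j, j(Nτ))`. -/
theorem MFField_eq_modularFunctionFieldC :
    MFField N = ModularCurve.modularFunctionFieldC ℂ N := by
  have h : (mfExtension N).restrictScalars ℂ = MFField N := rfl
  rw [← h, mfExtension_eq_adjoin N, IntermediateField.adjoin_adjoin_left, Set.singleton_union]
  rfl

theorem MFField_eq_modularFunctionFieldFullC :
    MFField N = ModularCurve.modularFunctionFieldFullC ℂ N := by
  refine le_antisymm ?_ ?_
  · rw [MFField_eq_modularFunctionFieldC N]
    exact ModularCurve.modularFunctionFieldC_le_full ℂ N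
  · rw [ModularCurve.modularFunctionFieldFullC, IntermediateField.adjoin_le_iff]
    rintro x ⟨d, hne, hdvd, rfl⟩
    exact jdC_mem_MFField N d hdvd

/-- `MF_N` is the complexification of the rational modular function field. -/
theorem MFField_eq_laurentBaseChange :
    MFField N = ModularCurve.laurentBaseChange ℂ (ModularCurve.modularFunctionFieldFull N) := by
  refine le_antisymm ?_ ?_
  · rw [MFField_eq_modularFunctionFieldFullC N, ModularCurve.modularFunctionFieldFullC,
      IntermediateField.adjoin_le_iff]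
    rintro x ⟨d, hne, hdvd, rfl⟩
    rw [← coeffEmb_qExpand_jq d]
    exact ModularCurve.coeffEmb_mem_laurentBaseChange ℂ (ModularCurve.jqd_mem_full N hdvd)
  · rw [ModularCurve.laurentBaseChange, IntermediateField.adjoin_le_iff]
    rintro _ ⟨x, hx, rfl⟩
    have hx' : x ∈ IntermediateField.adjoin ℚ (ModularCurve.divisorExpansions N) := hx
    clear hx
    show ModularCurve.coeffEmb ℂ x ∈ MFField N
    induction hx' using IntermediateField.adjoin_induction with
    | mem y hy =>
      obtain ⟨d, hne, hdvd, rfl⟩ := hy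
      rw [coeffEmb_qExpand_jq d]
      exact jdC_mem_MFField N d hdvd
    | algebraMap c =>
      rw [ModularCurve.algebraMap_apply_eq_single, ModularCurve.coeffEmb,
        ModularCurve.coeffMap_single, ← ModularCurve.algebraMap_laurentSeries_eq_single]
      exact (MFField N).algebraMap_mem _
    | add y z _ _ hy hz => rw [map_add]; exact add_mem hy hz
    | inv y _ hy => rw [map_inv₀]; exact inv_mem hy
    | mul y z _ _ hy hz => rw [map_mul]; exact mul_mem hy hz

end Degree

end Fermat.Agent.MF
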