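import Fermat.Agent.MF.PeriodEichler

/-!
The period lattice separates cusp forms (Eichler integral argument).
-/

set_option autoImplicit false

noncomputable section

namespace Fermat.Agent.MF.Periods

open UpperHalfPlane hiding I
open Complex Filter Topology Function Polynomial
open Matrix.SpecialLinearGroup
open Fermat.Agent.MF.PeriodPoly
open scoped MatrixGroups ModularForm Real Manifold

variable {Γ : Subgroup SL(2, ℤ)} [Γ.FiniteIndex] {w : ℕ}
variable (f : CuspForm (Γ : Subgroup (GL (Fin 2) ℝ)) ((w : ℤ) + 2))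

section Separation

variable (hf : ∀ (P : ℤ[X]) (hP : P.natDegree ≤ w) (α β : SL(2, ℤ)), periodFun P hP α β f = 0)
include hf

/-- When all periods vanish, a primitive vanishing at `∞` vanishes at every cusp. -/
lemma exists_prim_cuspLim_zero {j : ℕ} (hj : j ≤ w) :
    ∃ G : ℂ → ℂ, IsPrim (⇑f) (X ^ j) G ∧ ∀ α : SL(2, ℤ), CuspLim G (mapGL ℝ α) 0 := by
  have hP : (X ^ j : ℤ[X]).natDegree ≤ w := (natDegree_X_pow_le j).trans hj
  obtain ⟨G, hG⟩ := exists_prim f (X ^ j)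
  obtain ⟨L, hL⟩ := exists_cuspLim f hP hG 1
  refine ⟨fun z => G z + -L, fun τ => (hG τ).add_const _, fun α => ?_⟩
  obtain ⟨M, hM⟩ := exists_cuspLim f hP hG α
  have h := hf (X ^ j) hP α 1
  rw [periodFun_eq hP hG hM hL, sub_eq_zero] at h
  subst h
  simpa using hM.add_const (c := -M) (G := fun z => G z + -M) fun z _ => rfl

/-- The chosen primitive of `f X^j` vanishing at all cusps. -/
def nullPrim (j : ℕ) : ℂ → ℂ :=
  if hj : j ≤ w then (exists_prim_cuspLim_zero f hf hj).choose else 0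

lemma nullPrim_spec {j : ℕ} (hj : j ≤ w) :
    IsPrim (⇑f) (X ^ j) (nullPrim f hf j) ∧
      ∀ α : SL(2, ℤ), CuspLim (nullPrim f hf j) (mapGL ℝ α) 0 := by
  rw [nullPrim, dif_pos hj]
  exact (exists_prim_cuspLim_zero f hf hj).choose_spec

lemma isPrim_pullFamily (α : SL(2, ℤ)) {i : ℕ} (hi : i ≤ w) :
    IsPrim ((⇑f) ∣[((w : ℤ) + 2)] mapGL ℝ α) (X ^ i) (pullFamily (nullPrim f hf) w α i) := by
  obtain ⟨Q, hQ⟩ : ∃ Q, Q = polyTr w (α : Matrix (Fin 2) (Fin 2) ℤ).adjugate (X ^ i) := ⟨_, rfl⟩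
  have hQd : Q.natDegree ≤ w := hQ ▸ natDegree_polyTr_le _ _ _
  have h1 : IsPrim (⇑f) Q
      (fun z => ∑ j ∈ Finset.range (w + 1), (Q.coeff j : ℂ) * nullPrim f hf j z) := by
    have h := IsPrim.poly_sum (f := ⇑f) (s := Finset.range (w + 1)) (c := fun j => Q.coeff j)
      (P := fun j => X ^ j) (G := nullPrim f hf)
      fun j hj => (nullPrim_spec f hf (Nat.lt_succ_iff.mp (Finset.mem_range.mp hj))).1
    have e : ∑ j ∈ Finset.range (w + 1), Q.coeff j • (X : ℤ[X]) ^ j = Q := by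
      conv_rhs => rw [Q.as_sum_range' (w + 1) (Nat.lt_succ_of_le hQd)]
      simp [← smul_X_eq_monomial, zsmul_eq_mul]
    rwa [e] at h
  rw [hQ] at h1
  have h2 := h1.compAct_adjugate (intPos_mapGL α) ((natDegree_X_pow_le i).trans hi)
  have e2 : pullFamily (nullPrim f hf) w α i = compAct (fun z => ∑ j ∈ Finset.range (w + 1),
      ((polyTr w (α : Matrix (Fin 2) (Fin 2) ℤ).adjugate (X ^ i)).coeff j : ℂ) *
        nullPrim f hf j z) (mapGL ℝ α) := by
    funext z
    simp [pullFamily, polyEv, compAct]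
  rwa [e2]

lemma cuspLim_pullFamily (α : SL(2, ℤ)) (i : ℕ) :
    CuspLim (pullFamily (nullPrim f hf) w α i) 1 0 := by
  intro x
  simp only [pullFamily, polyEv, one_smul, ofComplex_apply]
  have := tendsto_finsetSum (Finset.range (w + 1)) fun j hj =>
    ((nullPrim_spec f hf (Nat.lt_succ_iff.mp (Finset.mem_range.mp hj))).2 α x).const_mul
      (((polyTr w (α : Matrix (Fin 2) (Fin 2) ℤ).adjugate (X ^ i)).map
        (Int.castRingHom ℂ)).coeff j)
  simpa using this

lemma pullFamily_eq_of_mem {γ : SL(2, ℤ)} (hγ : γ ∈ Γ) {i : ℕ} (hi : i ≤ w) {z : ℂ}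
    (hz : 0 < z.im) : pullFamily (nullPrim f hf) w γ i z = nullPrim f hf i z := by
  have h1 := isPrim_pullFamily f hf γ hi
  rw [slash_mapGL_of_mem f hγ] at h1
  obtain ⟨c, hc⟩ := h1.eq_add_const (nullPrim_spec f hf hi).1
  have h2 : CuspLim (nullPrim f hf i) 1 0 := by
    simpa using (nullPrim_spec f hf hi).2 1
  have := (cuspLim_pullFamily f hf γ i).unique (h2.add_const hc)
  rw [zero_add] at this
  rw [hc z hz, ← this, add_zero]

/-- The Eichler integral as a function on the upper half plane. -/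
def eichlerFun (τ : ℍ) : ℂ := eichler (nullPrim f hf) w τ

lemma eichlerFun_slash (α : SL(2, ℤ)) (τ : ℍ) :
    (eichlerFun f hf ∣[(-(w : ℤ))] mapGL ℝ α) τ =
      eichler (pullFamily (nullPrim f hf) w α) w τ := by
  rw [eichler_pullFamily, (intPos_mapGL α).slash_eq, (intPos_mapGL α).denom_eq, α.det_coe, neg_neg,
    zpow_natCast, eichlerFun]
  simp [mul_comm]

lemma eichlerFun_slash_of_mem {γ : SL(2, ℤ)} (hγ : γ ∈ Γ) :
    eichlerFun f hf ∣[(-(w : ℤ))] mapGL ℝ γ = eichlerFun f hf := by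
  funext τ
  rw [eichlerFun_slash, eichlerFun, eichler, eichler]
  refine Finset.sum_congr rfl fun i hi => ?_
  rw [pullFamily_eq_of_mem f hf hγ (Nat.lt_succ_iff.mp (Finset.mem_range.mp hi)) τ.im_pos]

lemma mdiff_eichlerFun : MDiff (eichlerFun f hf) := by
  rw [UpperHalfPlane.mdifferentiable_iff]
  intro z hz
  have h : DifferentiableAt ℂ (eichler (nullPrim f hf) w) z := by
    unfold eichler
    refine DifferentiableAt.fun_sum fun j hj => ?_
    exact ((differentiableAt_pow _).const_mul _).mul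
      ((nullPrim_spec f hf (Nat.lt_succ_iff.mp (Finset.mem_range.mp hj))).1
        ⟨z, hz⟩).differentiableAt
  refine (h.congr_of_eventuallyEq ?_).differentiableWithinAt
  filter_upwards [isOpen_upperHalfPlaneSet.mem_nhds hz] with u hu
  simp [eichlerFun, ofComplex_apply_of_im_pos hu]

lemma eichlerFun_slash_periodic (α : SL(2, ℤ)) :
    ∃ n : ℕ, 0 < n ∧ ∀ (τ : ℍ) (m : ℤ), (eichlerFun f hf ∣[(-(w : ℤ))] mapGL ℝ α)
      (mapGL ℝ (ModularGroup.T ^ ((n : ℤ) * m)) • τ) =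
      (eichlerFun f hf ∣[(-(w : ℤ))] mapGL ℝ α) τ := by
  obtain ⟨n, hn, hmem⟩ := exists_period_pos (Γ := Γ) α
  refine ⟨n, hn, fun τ m => ?_⟩
  have hm : α * ModularGroup.T ^ ((n : ℤ) * m) * α⁻¹ ∈ Γ := by
    rw [← conj_zpow, zpow_mul, conj_zpow]
    exact zpow_mem hmem m
  have h2 : (eichlerFun f hf ∣[(-(w : ℤ))] mapGL ℝ α) ∣[(-(w : ℤ))]
      mapGL ℝ (ModularGroup.T ^ ((n : ℤ) * m)) = eichlerFun f hf ∣[(-(w : ℤ))] mapGL ℝ α := by
    rw [← SlashAction.slash_mul, ← map_mul,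
      show α * ModularGroup.T ^ ((n : ℤ) * m) =
        α * ModularGroup.T ^ ((n : ℤ) * m) * α⁻¹ * α by group,
      map_mul, SlashAction.slash_mul, eichlerFun_slash_of_mem f hf hm]
  have h3 := congrFun h2 τ
  rw [(intPos_mapGL (ModularGroup.T ^ ((n : ℤ) * m))).slash_eq
    (eichlerFun f hf ∣[(-(w : ℤ))] mapGL ℝ α)] at h3
  refine Eq.trans ?_ h3
  simp [ModularGroup.coe_T_zpow]

lemma isZeroAtImInfty_eichlerFun_slash (α : SL(2, ℤ)) :
    IsZeroAtImInfty (eichlerFun f hf ∣[(-(w : ℤ))] mapGL ℝ α) := by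
  obtain ⟨n, hn, hper⟩ := eichlerFun_slash_periodic f hf α
  have hb : ∀ i : {i // i ∈ Finset.range (w + 1)}, ∃ c : ℝ, 0 < c ∧ ∃ C A : ℝ, 0 < A ∧
      ∀ x y : ℝ, |x| ≤ n → A ≤ y →
        ‖((x : ℂ) + (y : ℂ) * I) ^ (w - i.1) *
          pullFamily (nullPrim f hf) w α i ((x : ℂ) + (y : ℂ) * I)‖ ≤
          C * ((1 + n + y) ^ w * Real.exp (-c * y)) := fun i => by
    obtain ⟨c, hc, hb⟩ := norm_le_of_cuspLim_zero
      (isPrim_pullFamily f hf α (Nat.lt_succ_iff.mp (Finset.mem_range.mp i.2)))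
      (continuous_slash f α) (expSmall_slash f α) (cuspLim_pullFamily f hf α i)
    obtain ⟨C, A, hA, hb⟩ := hb n
    refine ⟨c, hc, C, A, hA, fun x y hx hy => ?_⟩
    have hy0 : 0 < y := hA.trans_le hy
    have h1 := hb x y hx hy
    have h2 : ‖(x : ℂ) + (y : ℂ) * I‖ ^ (w - i.1) ≤ (1 + n + y) ^ w := by
      refine (pow_le_pow_left₀ (norm_nonneg _) ?_ _).trans
        (pow_le_pow_right₀ (by linarith [(Nat.cast_nonneg n : (0 : ℝ) ≤ n)]) (Nat.sub_le _ _))
      have := Complex.norm_le_abs_re_add_abs_im ((x : ℂ) + (y : ℂ) * I)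
      simp [abs_of_pos hy0] at this
      linarith
    rw [norm_mul, norm_pow]
    calc _ ≤ (1 + n + y) ^ w * (C * Real.exp (-c * y)) :=
          mul_le_mul h2 h1 (norm_nonneg _) (by positivity)
      _ = _ := by ring
  choose c hc C A hA hbd using hb
  rw [IsZeroAtImInfty, ZeroAtFilter, Metric.tendsto_nhds]
  intro ε hε
  have hlim : Tendsto (fun y : ℝ => ∑ i : {i // i ∈ Finset.range (w + 1)},
      ‖((-1 : ℂ) ^ i.1 * (w.choose i.1 : ℂ))‖ * (C i * ((1 + n + y) ^ w * Real.exp (-c i * y))))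
      atTop (𝓝 0) := by
    rw [show (0 : ℝ) = ∑ i : {i // i ∈ Finset.range (w + 1)},
      ‖((-1 : ℂ) ^ i.1 * (w.choose i.1 : ℂ))‖ * (C i * 0) by simp]
    refine tendsto_finsetSum _ fun i _ => ((Tendsto.const_mul _ ?_).const_mul _)
    have h1 := (Real.tendsto_pow_mul_exp_neg_atTop_nhds_zero w).comp
      ((tendsto_id.const_mul_atTop (hc i)).atTop_add
        (tendsto_const_nhds (x := c i * (1 + n))))
    have h2 := h1.const_mul (Real.exp (c i * (1 + n)) / c i ^ w)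
    rw [mul_zero] at h2
    refine h2.congr fun y => ?_
    have hci := (hc i).ne'
    simp only [Function.comp_apply, id]
    rw [show -(c i * y + c i * (1 + (n : ℝ))) = -c i * y + -(c i * (1 + n)) by ring, Real.exp_add,
      Real.exp_neg (c i * (1 + n)), show c i * y + c i * (1 + (n : ℝ)) = c i * (1 + n + y) by ring,
      mul_pow]
    field_simp
  obtain ⟨B, hB⟩ := (eventually_atTop.mp ((Metric.tendsto_nhds.mp hlim) ε hε))
  obtain ⟨A₁, hA₁⟩ : ∃ A₁ : ℝ, ∀ i, A i ≤ A₁ :=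
    ⟨∑ i, A i, fun i => Finset.single_le_sum (f := A) (fun i _ => (hA i).le) (Finset.mem_univ i)⟩
  refine (atImInfty_mem _).mpr ⟨max B A₁, fun τ hτ => ?_⟩
  obtain ⟨m, hm⟩ : ∃ m : ℤ, |τ.re + (n : ℝ) * m| ≤ n := by
    refine ⟨-⌊τ.re / n⌋, ?_⟩
    have hn' : (0 : ℝ) < n := by exact_mod_cast hn
    have h1 := Int.floor_le (τ.re / n)
    have h2 := Int.lt_floor_add_one (τ.re / n)
    rw [le_div_iff₀ hn'] at h1
    rw [div_lt_iff₀ hn'] at h2
    push_cast
    rw [abs_le]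
    constructor <;> nlinarith
  have hB' := hB τ.im ((le_max_left _ _).trans hτ)
  simp only [Real.dist_eq, sub_zero] at hB'
  simp only [Set.mem_ofPred_eq, dist_zero_right]
  rw [← hper τ m]
  have hpt : ((mapGL ℝ (ModularGroup.T ^ ((n : ℤ) * m)) • τ : ℍ) : ℂ) =
      ((τ.re + (n : ℝ) * m : ℝ) : ℂ) + (τ.im : ℂ) * I := by
    rw [(intPos_mapGL _).coe_smul, ModularGroup.coe_T_zpow]
    apply Complex.ext <;> simp
  rw [eichlerFun_slash, hpt, eichler, ← Finset.sum_coe_sort]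
  refine lt_of_le_of_lt (norm_sum_le _ _) (lt_of_le_of_lt (Finset.sum_le_sum fun i _ => ?_)
    (lt_of_le_of_lt (le_abs_self _) hB'))
  rw [mul_assoc ((-1 : ℂ) ^ i.1 * (w.choose i.1 : ℂ)), norm_mul]
  exact mul_le_mul_of_nonneg_left
    (hbd i _ _ hm ((hA₁ i).trans ((le_max_right _ _).trans hτ))) (norm_nonneg _)

/-- The Eichler integral as a modular form of weight `-w`. -/
def eichlerForm : ModularForm (Γ : Subgroup (GL (Fin 2) ℝ)) (-(w : ℤ)) where
  toFun := eichlerFun f hf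
  slash_action_eq' := by
    rintro _ ⟨γ, hγ, rfl⟩
    exact eichlerFun_slash_of_mem f hf hγ
  holo' := mdiff_eichlerFun f hf
  bdd_at_cusps' := fun {c} hc => by
    rw [Subgroup.IsArithmetic.isCusp_iff_isCusp_SL2Z] at hc
    obtain ⟨α, rfl⟩ := isCusp_SL2Z_iff'.mp hc
    exact (OnePoint.isBoundedAt_iff rfl).mpr
      (ZeroAtFilter.boundedAtFilter (isZeroAtImInfty_eichlerFun_slash f hf α))

/-- **The period functionals separate cusp forms.** -/
theorem eq_zero_of_periods : f = 0 := by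
  have hzero : ∀ τ : ℍ, eichlerFun f hf τ = 0 := by
    rcases Nat.eq_zero_or_pos w with h0 | hpos
    · have h00 : (-(w : ℤ)) = 0 := by omega
      obtain ⟨g, hg⟩ : ∃ g : ModularForm (Γ : Subgroup (GL (Fin 2) ℝ)) 0,
          (⇑g : ℍ → ℂ) = eichlerFun f hf :=
        ⟨ModularForm.mcast h00 (eichlerForm f hf) rfl, rfl⟩
      obtain ⟨c, hc⟩ := ModularForm.eq_const_of_weight_zero g
      rw [hg] at hc
      have h1 := isZeroAtImInfty_eichlerFun_slash f hf 1
      rw [map_one, SlashAction.slash_one, hc] at h1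
      have hc0 : c = 0 := tendsto_const_nhds_iff.mp h1
      intro τ
      rw [hc, hc0]
      rfl
    · have h := ModularForm.isZero_of_neg_weight (by omega) (eichlerForm f hf)
      exact fun τ => DFunLike.congr_fun h τ
  ext τ
  have := eichler_of_le (nullPrim f hf) (fun z => f (ofComplex z)) w
    (fun j hj z hz => by
      have h := (nullPrim_spec f hf hj).1 ⟨z, hz⟩
      simpa [ofComplex_apply_of_im_pos hz] using h)
    (fun z hz => hzero ⟨z, hz⟩) τ τ.im_pos
  simpa [ofComplex_apply] using this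

end Separation

theorem eq_zero_of_periodLattice
    (f : CuspForm (Γ : Subgroup (GL (Fin 2) ℝ)) ((w : ℤ) + 2))
    (hf : ∀ φ ∈ periodLattice Γ w, φ f = 0) : f = 0 :=
  eq_zero_of_periods f fun P hP α β => hf _ (periodFun_mem_periodLattice P hP α β)

end Fermat.Agent.MF.Periods
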