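import Fermat.Prelude.Def_CuspForm_HeckeAlgebra
import Fermat.Agent.MF.PeriodSeparation

/-!
Integrality of algebras of operators on `S_{w+2}(Γ)` given by slashes by integral matrices, and its
specialisation to the Hecke algebra of `Γ₀(N)` (every weight `≥ 2`, every `S`).
-/

set_option autoImplicit false

noncomputable section

namespace Fermat.Agent.MF.Periods

open scoped MatrixGroups ModularForm

variable {Γ : Subgroup SL(2, ℤ)} [Γ.FiniteIndex] {w : ℕ}

/-- An operator given by a sum of slashes by integral matrices of positive determinant. -/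
def IsIntSlashSum (t : Module.End ℂ (CuspForm (Γ : Subgroup (GL (Fin 2) ℝ)) ((w : ℤ) + 2))) :
    Prop :=
  ∃ (m : ℕ) (g : Fin m → GL (Fin 2) ℝ) (M : Fin m → Matrix (Fin 2) (Fin 2) ℤ),
    (∀ i, IntPos (g i) (M i)) ∧ ∀ f, ⇑(t f) = ∑ i, (⇑f) ∣[((w : ℤ) + 2)] g i

/-- An algebra generated by sums of slashes preserves the period lattice. -/
theorem comp_mem_periodLattice_of_mem_adjoin
    {s : Set (Module.End ℂ (CuspForm (Γ : Subgroup (GL (Fin 2) ℝ)) ((w : ℤ) + 2)))}
    (hs : ∀ t ∈ s, IsIntSlashSum t)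
    {t : Module.End ℂ (CuspForm (Γ : Subgroup (GL (Fin 2) ℝ)) ((w : ℤ) + 2))}
    (ht : t ∈ Algebra.adjoin ℤ s) :
    ∀ φ ∈ periodLattice Γ w, φ.comp t ∈ periodLattice Γ w := by
  induction ht using Algebra.adjoin_induction with
  | mem t ht =>
    obtain ⟨m, g, M, hgM, hfm⟩ := hs t ht
    exact fun φ hφ => comp_mem_periodLattice Finset.univ g M (fun i _ => hgM i) t hfm hφ
  | algebraMap n =>
    intro φ hφ
    have e : φ.comp (algebraMap ℤ (Module.End ℂ
        (CuspForm (Γ : Subgroup (GL (Fin 2) ℝ)) ((w : ℤ) + 2))) n) = n • φ :=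
      LinearMap.ext fun x => by simp [Module.algebraMap_end_apply, map_zsmul]
    rw [e]; exact Submodule.smul_mem _ n hφ
  | add x y _ _ hx hy =>
    intro φ hφ
    rw [LinearMap.comp_add]; exact add_mem (hx φ hφ) (hy φ hφ)
  | mul x y _ _ hx hy =>
    intro φ hφ
    exact hy _ (hx φ hφ)

/-- **Integrality**: an algebra generated by sums of slashes by integral matrices of positive
determinant is a finitely generated `ℤ`-module. -/
theorem moduleFinite_adjoin
    (s : Set (Module.End ℂ (CuspForm (Γ : Subgroup (GL (Fin 2) ℝ)) ((w : ℤ) + 2))))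
    (hs : ∀ t ∈ s, IsIntSlashSum t) : Module.Finite ℤ (Algebra.adjoin ℤ s) := by
  obtain ⟨gens, hgens⟩ := id (periodLattice_fg Γ w)
  have : Module.Finite ℤ (periodLattice Γ w) := Module.Finite.iff_fg.mpr (periodLattice_fg Γ w)
  let Φ : Algebra.adjoin ℤ s →ₗ[ℤ] (gens → periodLattice Γ w) :=
    { toFun := fun t φ => ⟨φ.1.comp t.1, comp_mem_periodLattice_of_mem_adjoin hs t.2 φ.1
        (hgens ▸ Submodule.subset_span φ.2)⟩
      map_add' := fun x y => funext fun φ => Subtype.ext (LinearMap.comp_add x.1 y.1 φ.1)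
      map_smul' := fun n x => funext fun φ => Subtype.ext (LinearMap.ext fun v => by
        simp [map_zsmul]) }
  have : IsNoetherian ℤ (gens → periodLattice Γ w) := isNoetherian_of_isNoetherianRing_of_finite ℤ _
  refine Module.Finite.of_injective Φ fun x y hxy => Subtype.ext (LinearMap.ext fun v => ?_)
  rw [← sub_eq_zero]
  refine eq_zero_of_periodLattice _ fun φ hφ => ?_
  rw [← hgens] at hφ
  induction hφ using Submodule.span_induction with
  | zero => simp
  | add a b _ _ ha hb => simp only [LinearMap.add_apply, ha, hb, add_zero]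
  | smul c a _ ha => simp only [LinearMap.smul_apply, ha, smul_zero]
  | mem φ hφ =>
    have e : φ (x.1 v) = φ (y.1 v) :=
      LinearMap.congr_fun (congrArg Subtype.val (congrFun hxy ⟨φ, hφ⟩)) v
    rw [map_sub, e, sub_self]

section Gamma0

open CongruenceSubgroup ModularForm

variable (N : ℕ) [NeZero N] (w : ℕ)

lemma intPos_heckeMatrix {p : ℕ} (hp : p ≠ 0) (j : ℕ) :
    IntPos (heckeMatrix p j) !![(1 : ℤ), (j : ℤ); 0, (p : ℤ)] := by
  refine ⟨?_, by simp [Matrix.det_fin_two_of, Nat.pos_of_ne_zero hp]⟩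
  rw [val_heckeMatrix hp]
  ext i k
  fin_cases i <;> fin_cases k <;> simp

lemma intPos_heckeDiagMatrix {p : ℕ} (hp : p ≠ 0) :
    IntPos (heckeDiagMatrix p) !![(p : ℤ), 0; 0, 1] := by
  refine ⟨?_, by simp [Matrix.det_fin_two_of, Nat.pos_of_ne_zero hp]⟩
  rw [val_heckeDiagMatrix hp]
  ext i k
  fin_cases i <;> fin_cases k <;> simp

lemma isIntSlashSum_of_mem_heckeGenerators (S : Set ℕ)
    {t : Module.End ℂ (CuspForm (Gamma0 N) ((w : ℤ) + 2))}
    (ht : t ∈ CuspForm.heckeGenerators N ((w : ℤ) + 2) S) : IsIntSlashSum t := by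
  rcases ht with ⟨l, hl, hlN, -, rfl⟩ | ⟨q, hqN, hq, -, rfl⟩
  · refine ⟨l + 1, Fin.snoc (fun j : Fin l => heckeMatrix l j) (heckeDiagMatrix l),
      Fin.snoc (fun j : Fin l => !![(1 : ℤ), ((j : ℕ) : ℤ); 0, (l : ℤ)]) !![(l : ℤ), 0; 0, 1],
      fun i => ?_, fun f => ?_⟩
    · refine Fin.lastCases ?_ (fun j => ?_) i
      · simpa using intPos_heckeDiagMatrix hl.ne_zero
      · simpa using intPos_heckeMatrix hl.ne_zero (j : ℕ)
    · rw [CuspForm.coe_heckeTLin_apply, heckeT_def, Fin.sum_univ_castSucc]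
      simp [Finset.sum_range]
  · refine ⟨q, fun j => heckeMatrix q j, fun j => !![(1 : ℤ), ((j : ℕ) : ℤ); 0, (q : ℤ)],
      fun i => intPos_heckeMatrix hq.ne_zero _, fun f => ?_⟩
    rw [CuspForm.coe_heckeULin_apply, heckeU_def]
    simp [Finset.sum_range]

/-- The Hecke algebra of `S_{w+2}(Γ₀(N))` is a finitely generated `ℤ`-module. -/
theorem moduleFinite_heckeAlgebra (S : Set ℕ) :
    Module.Finite ℤ (CuspForm.heckeAlgebra N ((w : ℤ) + 2) S) :=
  moduleFinite_adjoin _ fun _ ht => isIntSlashSum_of_mem_heckeGenerators N w S ht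

omit w in
/-- Cusp forms on `Γ₀(N)` of weight less than `2` vanish. -/
theorem cuspForm_eq_zero_of_lt_two {k : ℤ} (hk : k < 2) (f : CuspForm (Gamma0 N) k) : f = 0 := by
  rcases lt_trichotomy k 0 with h | h | h
  · ext τ
    have := ModularForm.isZero_of_neg_weight h (f : ModularForm (Gamma0 N) k)
    exact DFunLike.congr_fun this τ
  · subst h
    obtain ⟨c, hc⟩ := ModularForm.eq_const_of_weight_zero (f : ModularForm (Gamma0 N) 0)
    have h0 := slash_isZeroAtImInfty f 1
    have hc' : (⇑f : UpperHalfPlane → ℂ) = Function.const UpperHalfPlane c := hc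
    rw [map_one, SlashAction.slash_one, hc'] at h0
    have hc0 : c = 0 := tendsto_const_nhds_iff.mp h0
    ext τ
    simp [hc', hc0]
  · obtain rfl : k = 1 := by omega
    have hmem : (-1 : SL(2, ℤ)) ∈ Gamma0 N := by simp
    have h1 := slash_mapGL_of_mem f hmem
    ext τ
    have h2 := congrFun h1 τ
    rw [(intPos_mapGL _).slash_eq] at h2
    have hτ : Matrix.SpecialLinearGroup.mapGL ℝ (-1 : SL(2, ℤ)) • τ = τ := by
      apply UpperHalfPlane.ext
      rw [(intPos_mapGL _).coe_smul]
      simp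
    rw [hτ] at h2
    simp at h2
    simpa [CharZero.neg_eq_self_iff] using h2

end Gamma0

end Fermat.Agent.MF.Periods
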