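import Mathlib
import Fermat.Prelude.Def_ModularCurve_PeriodHomPair
import Fermat.Prelude.Thm_CongruenceSubgroup_one_mem_strictPeriods_Gamma0

/-!
The real structure `f ↦ conj (f (-conj τ))` on cusp forms for `Γ₀(N)`.
-/

set_option autoImplicit false

noncomputable section

open UpperHalfPlane Filter Complex CongruenceSubgroup
open scoped ModularForm MatrixGroups Topology Manifold ComplexConjugate

namespace Fermat.Agent.MF

variable {N : ℕ} {k : ℤ}

theorem J_mul_mapGL_eq (γ : SL(2, ℤ)) :
    (J : GL (Fin 2) ℝ) * Matrix.SpecialLinearGroup.mapGL ℝ γ =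
      Matrix.SpecialLinearGroup.mapGL ℝ (ModularCurve.Period.jConjSL γ) * J := by
  ext i j
  fin_cases i <;> fin_cases j <;> simp [Matrix.mul_apply, Fin.sum_univ_two, J]

theorem slash_J_slash (f : ℍ → ℂ) (γ : SL(2, ℤ)) :
    (f ∣[k] J) ∣[k] γ = (f ∣[k] ModularCurve.Period.jConjSL γ) ∣[k] J := by
  rw [ModularForm.SL_slash, ModularForm.SL_slash, ← SlashAction.slash_mul, ← SlashAction.slash_mul]
  exact congrArg (fun g ↦ f ∣[k] g) (J_mul_mapGL_eq γ)

theorem slash_J_apply (f : ℍ → ℂ) (τ : ℍ) : (f ∣[k] J) τ = conj (f (J • τ)) := by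
  simp [ModularForm.slash_apply]

/-- `f ↦ conj (f (-conj τ))` on cusp forms for `Γ₀(N)`. -/
def conjForm [NeZero N] (f : CuspForm (Gamma0 N) k) : CuspForm (Gamma0 N) k where
  toFun := ⇑f ∣[k] J
  slash_action_eq' := by
    rintro _ ⟨γ, hγ, rfl⟩
    show (⇑f ∣[k] J) ∣[k] γ = ⇑f ∣[k] J
    rw [slash_J_slash, show ⇑f ∣[k] ModularCurve.Period.jConjSL γ = ⇑f from
      SlashInvariantFormClass.slash_action_eq f _
        ⟨_, ModularCurve.Period.jConjSL_mem_Gamma0 hγ, rfl⟩]
  holo' := (CuspForm.holo' f).slash k J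
  zero_at_cusps' := by
    intro c hc
    rw [Subgroup.IsArithmetic.isCusp_iff_isCusp_SL2Z] at hc
    rw [OnePoint.isZeroAt_iff_forall_SL2Z hc]
    intro γ _
    rw [slash_J_slash]
    exact IsZeroAtImInfty.slash k (g := J) (by simp) (CuspFormClass.zero_at_infty_slash f _)

variable [NeZero N]

theorem coe_conjForm (f : CuspForm (Gamma0 N) k) : ⇑(conjForm f) = ⇑f ∣[k] J := rfl

theorem conjForm_apply (f : CuspForm (Gamma0 N) k) (τ : ℍ) :
    conjForm f τ = conj (f (J • τ)) :=
  slash_J_apply _ τ

theorem conjForm_add (f g : CuspForm (Gamma0 N) k) :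
    conjForm (f + g) = conjForm f + conjForm g := by
  ext τ
  simp only [add_apply, conjForm_apply, map_add]

theorem conjForm_smul (c : ℂ) (f : CuspForm (Gamma0 N) k) :
    conjForm (c • f) = conj c • conjForm f := by
  ext τ
  simp only [smul_apply, conjForm_apply, smul_eq_mul, map_mul]

theorem conjForm_conjForm (f : CuspForm (Gamma0 N) k) : conjForm (conjForm f) = f := by
  ext τ
  rw [conjForm_apply, conjForm_apply, smul_smul, ← sq, J_sq, one_smul, Complex.conj_conj]

/-- `conjForm` as a semilinear equivalence. -/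
def conjFormEquiv : CuspForm (Gamma0 N) k ≃ₛₗ[starRingEnd ℂ] CuspForm (Gamma0 N) k where
  toFun := conjForm
  invFun := conjForm
  map_add' := conjForm_add
  map_smul' := conjForm_smul
  left_inv := conjForm_conjForm
  right_inv := conjForm_conjForm

theorem qExpansion_coeff_conjForm (f : CuspForm (Gamma0 N) k) (n : ℕ) :
    (qExpansion 1 (conjForm f)).coeff n = conj ((qExpansion 1 f).coeff n) := by
  have hp := CongruenceSubgroup.one_mem_strictPeriods_Gamma0 N
  refine (ModularFormClass.qExpansion_coeff_unique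
    (c := fun m ↦ conj ((qExpansion 1 f).coeff m)) one_pos hp (f := conjForm f) ?_ n).symm
  intro τ
  have h := ModularForm.hasSum_qExpansion f one_pos hp (J • τ)
  rw [conjForm_apply]
  have hq : conj (Function.Periodic.qParam 1 (↑(J • τ) : ℂ)) = Function.Periodic.qParam 1 (τ : ℂ) := by
    rw [Function.Periodic.qParam, Function.Periodic.qParam, ← Complex.exp_conj, coe_J_smul]
    congr 1
    simp [map_mul, map_ofNat]
  simpa only [map_mul, map_pow, hq, smul_eq_mul, Function.comp_def, RingHom.toAddMonoidHom_eq_coe,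
    AddMonoidHom.coe_coe] using h.map (starRingEnd ℂ).toAddMonoidHom Complex.continuous_conj

end Fermat.Agent.MF
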