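import Fermat.Agent.MF.HolCrit.SymForms
import Fermat.Agent.MF.HolCrit.Asymptotics
import Fermat.Agent.MF.HolCrit.PolyJ
import Fermat.Agent.MF.PlaceOrbits.Descent

/-!
Integrality over the local rings of the `j`-line for ratios of modular forms:
no pole over `a` ⇔ integral at `j = a`, no pole at the cusps ⇔ integral at `j = ∞`,
holomorphic ⇔ integral over `ℂ[j]`.
-/

noncomputable section

open UpperHalfPlane ModularForm CongruenceSubgroup Filter Asymptotics Polynomial
open scoped MatrixGroups ModularForm Topology Manifold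

namespace Fermat.Agent.MF

open PlaceOrbits HolCrit

variable {N : ℕ} [NeZero N] {k : ℤ}

theorem HolCrit.homogenize_relation {K : Type*} [Field K] {F G : K} (hG : G ≠ 0) (n : ℕ) (a : K)
    (c : ℕ → K) (T : K) :
    T * G ^ n * (a * (F / G) ^ n + ∑ i ∈ Finset.range n, c i * (F / G) ^ i) =
      T * a * F ^ n + ∑ i ∈ Finset.range n, T * c i * F ^ i * G ^ (n - i) := by
  rw [mul_add, Finset.mul_sum]
  refine congrArg₂ (· + ·) ?_ (Finset.sum_congr rfl fun i hi => ?_)
  · rw [div_pow]; field_simp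
  · have hin := (Finset.mem_range.mp hi).le
    rw [div_pow, ← Nat.add_sub_cancel' hin, pow_add, Nat.add_sub_cancel' hin]
    field_simp

/-- The norm relation of a ratio, with coefficients polynomials in `j`. -/
theorem exists_norm_relation (f : MForm N k) {g : MForm N k} (hg : g ≠ 0) :
    ∃ (n : ℕ) (P : ℕ → ℂ[X]), P n ≠ 0 ∧
      (∑ i ∈ Finset.range (n + 1), aeval jC (P i) * (qL f / qL g) ^ i = 0) ∧
      ∀ (l : Filter ℍ), (∀ γ : SL(2, ℤ), ((f : ℍ → ℂ) ∣[k] γ) =O[l] ((g : ℍ → ℂ) ∣[k] γ)) →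
        ∀ i, (fun τ => (P i).eval (kleinJ τ)) =O[l] fun τ => (P n).eval (kleinJ τ) := by
  set n := Fintype.card (Cosets N) with hn
  set G := symForm f g n with hG
  have hG0 : G ≠ 0 := fun h => symFun_card_ne_zero f hg (by
    funext τ
    exact DFunLike.congr_fun h τ)
  have hw : 0 ≤ k * n := by
    by_contra h
    exact hG0 (DFunLike.ext _ _ fun τ => congrFun
      (ModularFormClass.levelOne_neg_weight_eq_zero (not_le.mp h) G) τ)
  obtain ⟨w, hw'⟩ := Int.eq_ofNat_of_zero_le hw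
  have hL : ∀ i, ∃ P : ℂ[X], P.natDegree ≤ w ∧ ∀ τ, symFun f g i τ * symFun f g n τ ^ 11 =
      P.eval (kleinJ τ) * ModularForm.discriminant τ ^ w := by
    intro i
    obtain ⟨P, hP, hPe⟩ := exists_poly_mul_discriminant_pow w rfl
      (ModularForm.mcast (by rw [hw']; ring : k * n + ((11 : ℕ) : ℤ) * (k * n) = 12 * (w : ℤ))
        ((symForm f g i).mul (G.pow 11)))
    refine ⟨P, hP, fun τ => ?_⟩
    rw [← hPe τ, ModularForm.coe_mcast, ModularForm.coe_mul, ModularForm.coe_pow]
    rfl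
  choose P hPdeg hPe using hL
  refine ⟨n, P, fun h0 => ?_, ?_, fun l hl i => ?_⟩
  · refine symFun_card_ne_zero f hg (funext fun τ => ?_)
    have := hPe n τ
    rw [h0, eval_zero, zero_mul, mul_eq_zero, pow_eq_zero_iff (by norm_num), or_self] at this
    exact this
  · let fq : qFunctions := ⟨f, coe_mem_qFunctions f⟩
    let gq : qFunctions := ⟨g, coe_mem_qFunctions g⟩
    have hzero : gq * ∑ i ∈ Finset.range (n + 1), polyDelta (P i) w * fq ^ i * gq ^ (n - i) = 0 := by
      refine Subtype.ext (funext fun τ => ?_)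
      rw [MulMemClass.coe_mul, AddSubmonoidClass.coe_finsetSum, Pi.mul_apply, Finset.sum_apply]
      show g τ * ∑ i ∈ Finset.range (n + 1),
        ((polyDelta (P i) w : ℍ → ℂ) τ * f τ ^ i * g τ ^ (n - i)) = 0
      simp only [polyDelta_apply (hPdeg _), ← hPe]
      calc _ = symFun f g n τ ^ 11 * (g τ * ∑ i ∈ Finset.range (n + 1),
            symFun f g i τ * f τ ^ i * g τ ^ (n - i)) := by
            rw [Finset.mul_sum, Finset.mul_sum, Finset.mul_sum]
            exact Finset.sum_congr rfl fun i _ => by ring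
        _ = 0 := by rw [symFun_relation, mul_zero]
    have h1 := congrArg qLHom hzero
    simp only [map_mul, map_sum, map_pow, map_zero, qLHom_polyDelta (hPdeg _), qLHom_apply] at h1
    have hgne : qL g ≠ 0 := mt (qL_mform_eq_zero_iff g).mp hg
    have h2 := (mul_eq_zero.mp h1).resolve_left hgne
    have h3 : qL ModularForm.discriminant ^ w * qL g ^ n *
        ∑ i ∈ Finset.range (n + 1), aeval jC (P i) * (qL f / qL g) ^ i = 0 := by
      rw [← h2, Finset.mul_sum]
      refine Finset.sum_congr rfl fun i hi => ?_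
      have hin : i ≤ n := Nat.lt_succ_iff.mp (Finset.mem_range.mp hi)
      show _ = _ * qL f ^ i * qL g ^ (n - i)
      rw [div_pow, ← Nat.add_sub_cancel' hin, pow_add, Nat.add_sub_cancel' hin]
      field_simp
    exact (mul_eq_zero.mp h3).resolve_left
      (mul_ne_zero (pow_ne_zero _ qL_discriminant_ne_zero) (pow_ne_zero _ hgne))
  · obtain ⟨C', hC⟩ := ((isBigO_symFun f g l hl i).mul
      (isBigO_refl (fun τ => symFun f g n τ ^ 11) l)).bound
    refine IsBigO.of_bound C' ?_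
    filter_upwards [hC] with τ hτ
    have hpos : 0 < ‖ModularForm.discriminant τ ^ w‖ :=
      norm_pos_iff.mpr (pow_ne_zero _ (discriminant_ne_zero τ))
    have e1 := hPe i τ
    have e2 := hPe n τ
    simp only [e1, ← hn, e2, norm_mul] at hτ
    nlinarith

omit [NeZero N] in
/-- Translates of dominated forms are dominated near a point. -/
theorem isBigO_slash_nhds (f g : MForm N k) (γ : SL(2, ℤ)) (τ : ℍ)
    (h : (f : ℍ → ℂ) =O[𝓝 (γ • τ)] (g : ℍ → ℂ)) :
    ((f : ℍ → ℂ) ∣[k] γ) =O[𝓝 τ] ((g : ℍ → ℂ) ∣[k] γ) := by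
  have hc : Tendsto (fun z : ℍ => γ • z) (𝓝 τ) (𝓝 (γ • τ)) :=
    (continuous_const_smul (Matrix.SpecialLinearGroup.mapGL ℝ γ)).tendsto τ
  refine ((h.comp_tendsto hc).mul (isBigO_refl (fun z : ℍ => denom γ z ^ (-k)) _)).congr
    (fun z => ?_) (fun z => ?_) <;> rw [ModularForm.SL_slash_apply] <;> rfl

omit [NeZero N] in
theorem exists_dominated_local (f : MForm N k) {g : MForm N k} {n : ℕ} {P : ℕ → ℂ[X]}
    (hP : ∀ (l : Filter ℍ),
      (∀ γ : SL(2, ℤ), ((f : ℍ → ℂ) ∣[k] γ) =O[l] ((g : ℍ → ℂ) ∣[k] γ)) →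
        ∀ i, (fun τ => (P i).eval (kleinJ τ)) =O[l] fun τ => (P n).eval (kleinJ τ))
    (hg : g ≠ 0) (a : ℂ) (h : ∀ τ : ℍ, kleinJ τ = a → f ≠ 0 → ordAtH g τ ≤ ordAtH f τ) (i : ℕ) :
    (fun z => (P i).eval z) =O[𝓝[≠] a] fun z => (P n).eval z := by
  obtain ⟨τ, rfl⟩ := kleinJ_surjective a
  have hl : ∀ γ : SL(2, ℤ), ((f : ℍ → ℂ) ∣[k] γ) =O[𝓝 τ] ((g : ℍ → ℂ) ∣[k] γ) := fun γ =>
    isBigO_slash_nhds f g γ τ (isBigO_of_ordAtH_le (ModularFormClass.holo f)
      (ModularFormClass.holo g) (mform_coe_ne_zero hg)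
      (fun hf => h _ (kleinJ_smul γ τ) fun h0 => hf (by rw [h0]; rfl)))
  have h1 : (fun z => (P i).eval z) =O[map kleinJ (𝓝 τ)] fun z => (P n).eval z :=
    isBigO_map.mpr (hP _ hl i)
  exact (h1.mono (isOpenMap_kleinJ.nhds_le τ)).mono nhdsWithin_le_nhds

/-- No pole at the points over `a` makes a ratio integral over the local ring at `j = a`. -/
theorem integralAtPt_of_ordAtH (f : MForm N k) {g : MForm N k} (hg : g ≠ 0) (a : ℂ)
    (h : ∀ τ : ℍ, kleinJ τ = a → f ≠ 0 → ordAtH g τ ≤ ordAtH f τ) :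
    IntegralAtPt jC (qL f / qL g) a := by
  obtain ⟨n, P, hn, hrel, hP⟩ := exists_norm_relation f hg
  obtain ⟨D₀, hD, hD₀⟩ := (P n).exists_eq_pow_rootMultiplicity_mul_and_not_dvd hn a
  choose c hc using fun i => pow_dvd_of_isBigO _ hD (exists_dominated_local f hP hg a h i)
  refine ⟨n, c, D₀, fun h0 => hD₀ (dvd_iff_isRoot.mpr h0), ?_⟩
  set b := (P n).rootMultiplicity a
  have h2 : aeval jC ((X - C a) ^ b) * (aeval jC D₀ * (qL f / qL g) ^ n +
      ∑ i ∈ Finset.range n, aeval jC (c i) * (qL f / qL g) ^ i) = 0 := by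
    rw [mul_add, Finset.mul_sum, ← mul_assoc, ← map_mul, ← hD]
    simp only [← mul_assoc, ← map_mul, ← hc]
    rw [add_comm, ← Finset.sum_range_succ]
    exact hrel
  exact (mul_eq_zero.mp h2).resolve_left
    (aeval_jC_ne_zero (pow_ne_zero _ (X_sub_C_ne_zero a)))

omit [NeZero N] in
theorem isBigO_slash_atImInfty [NeZero N] (f g : MForm N k) (hg : g ≠ 0) (γ : SL(2, ℤ))
    (h : (qExpansion (N : ℝ) ((g : ℍ → ℂ) ∣[k] γ)).order ≤
      (qExpansion (N : ℝ) ((f : ℍ → ℂ) ∣[k] γ)).order) :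
    ((f : ℍ → ℂ) ∣[k] γ) =O[atImInfty] ((g : ℍ → ℂ) ∣[k] γ) :=
  isBigO_atImInfty_of_order_le natCast_pos_real (periodic_slash_gamma0 f γ)
    (analyticAt_cuspFunction_slash_gamma0 f γ) (periodic_slash_gamma0 g γ)
    (analyticAt_cuspFunction_slash_gamma0 g γ)
    (qExpansion_slash_ne_zero g (mform_coe_ne_zero hg) γ) h

theorem tendsto_kleinJ_cobounded : Tendsto kleinJ atImInfty (Bornology.cobounded ℂ) :=
  tendsto_norm_atTop_iff_cobounded.mp tendsto_norm_kleinJ_atImInfty

/-- No pole at the cusps makes a ratio integral over the local ring at `j = ∞`. -/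
theorem integralAtInf_of_order (f : MForm N k) {g : MForm N k} (hg : g ≠ 0)
    (h : ∀ γ : SL(2, ℤ), (qExpansion (N : ℝ) ((g : ℍ → ℂ) ∣[k] γ)).order ≤
      (qExpansion (N : ℝ) ((f : ℍ → ℂ) ∣[k] γ)).order) :
    IntegralAtInf ℂ jC (qL f / qL g) := by
  obtain ⟨n, P, hn, hrel, hP⟩ := exists_norm_relation f hg
  refine ⟨n, P, P n, hn, fun i _ => natDegree_le_of_isBigO tendsto_kleinJ_cobounded
    (hP _ (fun γ => isBigO_slash_atImInfty f g hg γ (h γ)) i), ?_⟩
  rw [Finset.sum_range_succ, add_comm] at hrel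
  exact hrel

/-- Holomorphic on the upper half plane gives a relation with constant leading coefficient. -/
theorem exists_relation_one (f : MForm N k) {g : MForm N k} (hg : g ≠ 0)
    (h : ∀ τ : ℍ, f ≠ 0 → ordAtH g τ ≤ ordAtH f τ) :
    ∃ (n : ℕ) (c : ℕ → ℂ[X]), JRelation jC (qL f / qL g) n c 1 := by
  obtain ⟨n, P, hn, hrel, hP⟩ := exists_norm_relation f hg
  have hdvd : ∀ i, P n ∣ P i := by
    intro i
    rw [(IsAlgClosed.splits (P n)).eq_prod_roots, Finset.prod_multiset_map_count]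
    refine (C_mul_dvd (leadingCoeff_ne_zero.mpr hn)).mpr ?_
    refine Finset.prod_dvd_of_coprime (fun a _ b _ hab => ?_) fun a _ => ?_
    · exact (pairwise_coprime_X_sub_C Function.injective_id hab).pow
    · obtain ⟨D₀, hD, -⟩ := (P n).exists_eq_pow_rootMultiplicity_mul_and_not_dvd hn a
      rw [count_roots]
      exact pow_dvd_of_isBigO _ hD (exists_dominated_local f hP hg a (fun τ _ => h τ) i)
  choose c hc using hdvd
  refine ⟨n, c, ?_⟩
  have h2 : aeval jC (P n) * (aeval jC (1 : ℂ[X]) * (qL f / qL g) ^ n +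
      ∑ i ∈ Finset.range n, aeval jC (c i) * (qL f / qL g) ^ i) = 0 := by
    rw [map_one, one_mul, mul_add, Finset.mul_sum]
    simp only [← mul_assoc, ← map_mul, ← hc]
    rw [add_comm, ← Finset.sum_range_succ]
    exact hrel
  exact (mul_eq_zero.mp h2).resolve_left (aeval_jC_ne_zero hn)

/-- Holomorphic on the upper half plane ⇒ integral over `ℂ[j]`. -/
theorem isIntegral_adjoin_jC (f : MForm N k) {g : MForm N k} (hg : g ≠ 0)
    (h : ∀ τ : ℍ, f ≠ 0 → ordAtH g τ ≤ ordAtH f τ) :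
    IsIntegral (Algebra.adjoin ℂ ({jC} : Set (LaurentSeries ℂ))) (qL f / qL g) := by
  obtain ⟨n, c, hc⟩ := exists_relation_one f hg h
  let e : ℕ → Algebra.adjoin ℂ ({jC} : Set (LaurentSeries ℂ)) := fun i =>
    ⟨aeval jC (c i), aeval_mem_adjoin_singleton _ _⟩
  refine ⟨X ^ n + ∑ i ∈ Finset.range n, C (e i) * X ^ i, ?_, ?_⟩
  · refine monic_X_pow_add ((degree_sum_le _ _).trans_lt ?_)
    refine (Finset.sup_lt_iff (WithBot.bot_lt_coe n)).mpr fun i hi => ?_
    exact (degree_C_mul_X_pow_le i (e i)).trans_lt (WithBot.coe_lt_coe.mpr (Finset.mem_range.mp hi))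
  · rw [eval₂_add, eval₂_X_pow, eval₂_finsetSum]
    simp only [eval₂_mul, eval₂_C, eval₂_X_pow]
    rw [JRelation, map_one, one_mul] at hc
    exact hc

omit [NeZero N] in
/-- A relation over `ℂ(j)` holds for the values of the functions. -/
theorem relation_apply {f g : MForm N k} (hg : g ≠ 0) {n : ℕ} {c : ℕ → ℂ[X]} {D : ℂ[X]}
    (h : JRelation jC (qL f / qL g) n c D) (z : ℍ) :
    D.eval (kleinJ z) * f z ^ n +
      ∑ i ∈ Finset.range n, (c i).eval (kleinJ z) * f z ^ i * g z ^ (n - i) = 0 := by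
  set m := max D.natDegree ((Finset.range n).sup fun i => (c i).natDegree) with hm
  have hD : D.natDegree ≤ m := le_max_left _ _
  have hc : ∀ i ∈ Finset.range n, (c i).natDegree ≤ m := fun i hi =>
    (Finset.le_sup (f := fun i => (c i).natDegree) hi).trans (le_max_right _ _)
  let fq : qFunctions := ⟨f, coe_mem_qFunctions f⟩
  let gq : qFunctions := ⟨g, coe_mem_qFunctions g⟩
  have hzero : polyDelta D m * fq ^ n +
      ∑ i ∈ Finset.range n, polyDelta (c i) m * fq ^ i * gq ^ (n - i) = 0 := by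
    refine qLHom_injective ?_
    simp only [map_add, map_mul, map_sum, map_pow, map_zero, qLHom_polyDelta hD]
    rw [JRelation] at h
    have hgne : qL g ≠ 0 := mt (qL_mform_eq_zero_iff g).mp hg
    rw [Finset.sum_congr rfl fun i hi => congrArg
      (fun u => u * qLHom fq ^ i * qLHom gq ^ (n - i)) (qLHom_polyDelta (hc i hi))]
    have key := homogenize_relation (F := qL f) hgne n (aeval jC D) (fun i => aeval jC (c i))
      (qL ModularForm.discriminant ^ m)
    rw [h, mul_zero] at key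
    simp only [qLHom_apply, fq, gq]
    rw [mul_comm (aeval jC D), key]
    refine congrArg₂ (· + ·) rfl (Finset.sum_congr rfl fun i _ => ?_)
    rw [mul_comm (aeval jC (c i))]
  have h1 := congrArg (fun u : qFunctions => (u : ℍ → ℂ) z) hzero
  simp only [AddMemClass.coe_add, MulMemClass.coe_mul, AddSubmonoidClass.coe_finsetSum,
    Pi.add_apply, Pi.mul_apply, Finset.sum_apply, SubmonoidClass.coe_pow, Pi.pow_apply,
    ZeroMemClass.coe_zero, Pi.zero_apply, polyDelta_apply hD, fq, gq] at h1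
  have hne := pow_ne_zero m (discriminant_ne_zero z)
  refine (mul_eq_zero.mp ?_).resolve_left hne
  rw [← h1, mul_add, Finset.mul_sum]
  refine congrArg₂ (· + ·) (by ring) (Finset.sum_congr rfl fun i hi => ?_)
  rw [polyDelta_apply (hc i hi)]
  ring

omit [NeZero N] in
theorem norm_le_of_jrelation {f g : MForm N k} (hg : g ≠ 0) {n : ℕ} {c : ℕ → ℂ[X]} {D : ℂ[X]}
    (h : JRelation jC (qL f / qL g) n c D) {z : ℍ} {B : ℝ} (hD : D.eval (kleinJ z) ≠ 0)
    (hgz : g z ≠ 0) (hc : ∀ i < n, ‖(c i).eval (kleinJ z)‖ ≤ B * ‖D.eval (kleinJ z)‖) :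
    ‖f z‖ ≤ max 1 (n * B) * ‖g z‖ := by
  have h1 := relation_apply hg h z
  have h2 : D.eval (kleinJ z) * (f z / g z) ^ n +
      ∑ i ∈ Finset.range n, (c i).eval (kleinJ z) * (f z / g z) ^ i = 0 := by
    refine (mul_eq_zero.mp ?_).resolve_left (pow_ne_zero n hgz)
    have key := homogenize_relation (F := f z) hgz n (D.eval (kleinJ z))
      (fun i => (c i).eval (kleinJ z)) 1
    simp only [one_mul] at key
    rw [key, h1]
  have h3 := norm_le_of_relation hD hc h2
  rw [norm_div, div_le_iff₀ (norm_pos_iff.mpr hgz)] at h3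
  exact h3

omit [NeZero N] in
/-- Conversely, integrality at `j = a` bounds the order at the points over `a`. -/
theorem ordAtH_le_of_integralAtPt {f g : MForm N k} (hf : f ≠ 0) (hg : g ≠ 0) {a : ℂ}
    (h : IntegralAtPt jC (qL f / qL g) a) {τ : ℍ} (hτ : kleinJ τ = a) :
    ordAtH g τ ≤ ordAtH f τ := by
  obtain ⟨n, c, D, hDa, hrel⟩ := h
  refine ordAtH_le_of_isBigO (ModularFormClass.holo f) (ModularFormClass.holo g)
    (mform_coe_ne_zero hf) (mform_coe_ne_zero hg) ?_
  set B : ℝ := ∑ i ∈ Finset.range n, (‖(c i).eval a‖ / ‖D.eval a‖ + 1) with hB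
  refine IsBigO.of_bound (max 1 (n * B)) ?_
  have hDc : ∀ᶠ z in 𝓝 τ, D.eval (kleinJ z) ≠ 0 :=
    ((D.continuous.comp continuous_kleinJ).continuousAt (x := τ)).eventually_ne (show D.eval (kleinJ τ) ≠ 0 by rw [hτ]; exact hDa)
  have hcb : ∀ᶠ z in 𝓝 τ, ∀ i ∈ Finset.range n,
      ‖(c i).eval (kleinJ z)‖ / ‖D.eval (kleinJ z)‖ < ‖(c i).eval a‖ / ‖D.eval a‖ + 1 := by
    refine (Finset.eventually_all _).mpr fun i _ => ?_
    have hcont : ContinuousAt (fun z => ‖(c i).eval (kleinJ z)‖ / ‖D.eval (kleinJ z)‖) τ :=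
      (((c i).continuous.comp continuous_kleinJ).continuousAt.norm).div
        ((D.continuous.comp continuous_kleinJ).continuousAt.norm) (by simpa [hτ] using hDa)
    exact hcont.eventually_lt continuousAt_const (by simp [hτ])
  have hgz : ∀ᶠ z in 𝓝[≠] τ, g z ≠ 0 := by
    have hA := analyticAt_ofComplex_comp (ModularFormClass.holo g) τ
    have := (hA.eventually_eq_zero_or_eventually_ne_zero).resolve_left fun h0 =>
      analyticOrderAt_ne_top (ModularFormClass.holo g) (mform_coe_ne_zero hg) τ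
        (analyticOrderAt_eq_top.mpr h0)
    have ht : Tendsto ((↑) : ℍ → ℂ) (𝓝[≠] τ) (𝓝[≠] (τ : ℂ)) :=
      tendsto_nhdsWithin_iff.mpr ⟨continuous_coe.continuousAt.tendsto.mono_left nhdsWithin_le_nhds,
        eventually_nhdsWithin_of_forall fun z hz he => hz (UpperHalfPlane.ext he)⟩
    filter_upwards [ht.eventually this] with z hz
    simpa using hz
  filter_upwards [hDc.filter_mono nhdsWithin_le_nhds, hcb.filter_mono nhdsWithin_le_nhds, hgz]
    with z hz1 hz2 hz3
  refine norm_le_of_jrelation hg hrel hz1 hz3 fun i hi => ?_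
  have h1 := (hz2 i (Finset.mem_range.mpr hi)).le
  rw [div_le_iff₀ (norm_pos_iff.mpr hz1)] at h1
  refine h1.trans (mul_le_mul_of_nonneg_right ?_ (norm_nonneg _))
  exact Finset.single_le_sum (f := fun i => ‖(c i).eval a‖ / ‖D.eval a‖ + 1)
    (fun i _ => by positivity) (Finset.mem_range.mpr hi)

theorem isBigO_cobounded_of_natDegree_le {P D : ℂ[X]} (hD : D ≠ 0)
    (h : P.natDegree ≤ D.natDegree) :
    (fun z => P.eval z) =O[Bornology.cobounded ℂ] fun z => D.eval z := by
  rcases eq_or_ne P 0 with rfl | hP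
  · simpa using isBigO_zero _ _
  rcases lt_or_eq_of_le h with h | h
  · exact (isLittleO_cobounded_of_degree_lt (degree_lt_degree h)).isBigO
  · refine (isEquivalent_cobounded_leading_monomial.trans_isBigO ?_).trans
      isEquivalent_cobounded_leading_monomial.symm.isBigO
    rw [h]
    exact ((isBigO_refl (fun z : ℂ => z ^ D.natDegree) _).const_mul_left _).const_mul_right
      (leadingCoeff_ne_zero.mpr hD)

/-- Conversely, integrality at `j = ∞` bounds the orders at the cusps. -/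
theorem order_le_of_integralAtInf {f g : MForm N k} (hg : g ≠ 0)
    (h : IntegralAtInf ℂ jC (qL f / qL g)) (γ : SL(2, ℤ)) :
    (qExpansion (N : ℝ) ((g : ℍ → ℂ) ∣[k] γ)).order ≤
      (qExpansion (N : ℝ) ((f : ℍ → ℂ) ∣[k] γ)).order := by
  obtain ⟨n, c, D, hD0, hdeg, hrel⟩ := h
  refine order_le_of_isBigO_atImInfty natCast_pos_real (periodic_slash_gamma0 f γ)
    (analyticAt_cuspFunction_slash_gamma0 f γ) (periodic_slash_gamma0 g γ)
    (analyticAt_cuspFunction_slash_gamma0 g γ) ?_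
  choose B hB using fun i : Finset.range n => ((isBigO_cobounded_of_natDegree_le hD0
    (hdeg i (Finset.mem_range.mp i.2))).comp_tendsto tendsto_kleinJ_cobounded).bound
  set B' : ℝ := ∑ i, max (B i) 0 with hB'
  refine IsBigO.of_bound (max 1 (n * B')) ?_
  have hDne : ∀ᶠ z in atImInfty, D.eval (kleinJ z) ≠ 0 := by
    have h0 : ∀ᶠ w in Bornology.cobounded ℂ, D.eval w ≠ 0 := by
      filter_upwards [Bornology.isBounded_def.mp
        (D.finite_setOfPred_isRoot hD0).isBounded] with z hz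
      exact hz
    exact tendsto_kleinJ_cobounded.eventually h0
  have hgne := eventually_ne_zero_atImInfty natCast_pos_real (periodic_slash_gamma0 g γ)
    (analyticAt_cuspFunction_slash_gamma0 g γ)
    (qExpansion_slash_ne_zero g (mform_coe_ne_zero hg) γ)
  filter_upwards [eventually_all.mpr hB, hDne, hgne] with z hz1 hz2 hz3
  rw [ModularForm.SL_slash_apply] at hz3
  have key : ‖f (γ • z)‖ ≤ max 1 (n * B') * ‖g (γ • z)‖ := by
    refine norm_le_of_jrelation hg hrel (by rwa [kleinJ_smul]) (left_ne_zero_of_mul hz3)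
      fun i hi => ?_
    rw [kleinJ_smul]
    refine (hz1 ⟨i, Finset.mem_range.mpr hi⟩).trans (mul_le_mul_of_nonneg_right ?_ (norm_nonneg _))
    exact (le_max_left _ 0).trans (Finset.single_le_sum (f := fun i => max (B i) 0)
      (fun i _ => le_max_right _ _) (Finset.mem_univ _))
  rw [ModularForm.SL_slash_apply, ModularForm.SL_slash_apply, norm_mul, norm_mul, ← mul_assoc]
  exact mul_le_mul_of_nonneg_right key (norm_nonneg _)

omit [NeZero N] in
/-- Integral over `ℂ[j]` ⇒ holomorphic on the upper half plane. -/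
theorem ordAtH_le_of_isIntegral {f g : MForm N k} (hf : f ≠ 0) (hg : g ≠ 0)
    (h : IsIntegral (Algebra.adjoin ℂ ({jC} : Set (LaurentSeries ℂ))) (qL f / qL g)) (τ : ℍ) :
    ordAtH g τ ≤ ordAtH f τ := by
  obtain ⟨p, hp, hpx⟩ := h
  have hc : ∀ i, ∃ c : ℂ[X], aeval jC c = (p.coeff i : LaurentSeries ℂ) := fun i => by
    have := (p.coeff i).2
    exact (AlgHom.mem_range _).mp ((Algebra.adjoin_singleton_eq_range_aeval ℂ jC).le this)
  choose c hc using hc
  refine ordAtH_le_of_integralAtPt hf hg ⟨p.natDegree, c, 1, by simp, ?_⟩ (a := kleinJ τ) rfl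
  rw [eval₂_eq_sum_range, Finset.sum_range_succ, hp.coeff_natDegree, map_one, one_mul,
    add_comm] at hpx
  rw [JRelation, map_one, one_mul]
  simpa only [hc] using! hpx

end Fermat.Agent.MF
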