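import Fermat.Agent.MF.PeriodLattice

/-! Algebra of Eichler integrals built from primitives of `f(z) z^j`. -/

set_option autoImplicit false

noncomputable section

namespace Fermat.Agent.MF.Periods

open UpperHalfPlane hiding I
open Complex Filter Topology Function Polynomial
open Matrix.SpecialLinearGroup
open Fermat.Agent.MF.PeriodPoly
open scoped MatrixGroups ModularForm Real

/-- Linear extension in the polynomial of a family of primitives. -/
def polyEv (G : ℕ → ℂ → ℂ) (w : ℕ) (P : ℂ[X]) (z : ℂ) : ℂ :=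
  ∑ j ∈ Finset.range (w + 1), P.coeff j * G j z

lemma polyEv_sum {ι : Type*} (G : ℕ → ℂ → ℂ) (w : ℕ) (s : Finset ι) (c : ι → ℂ) (P : ι → ℂ[X])
    (z : ℂ) : ∑ i ∈ s, c i * polyEv G w (P i) z = polyEv G w (∑ i ∈ s, C (c i) * P i) z := by
  simp only [polyEv, finsetSum_coeff, coeff_C_mul, Finset.sum_mul, Finset.mul_sum]
  rw [Finset.sum_comm]
  exact Finset.sum_congr rfl fun i _ => Finset.sum_congr rfl fun j _ => by ring

/-- The Eichler integral `∑ (-1)^j C(n, j) z^(n - j) G_j(z)`. -/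
def eichler (G : ℕ → ℂ → ℂ) (n : ℕ) (z : ℂ) : ℂ :=
  ∑ j ∈ Finset.range (n + 1), (-1) ^ j * (n.choose j : ℂ) * z ^ (n - j) * G j z

lemma eichler_eq_zero_pred (G : ℕ → ℂ → ℂ) (h : ℂ → ℂ) (n : ℕ)
    (hG : ∀ j ≤ n + 1, ∀ z : ℂ, 0 < z.im → HasDerivAt (G j) (h z * z ^ j) z)
    (hE : ∀ z : ℂ, 0 < z.im → eichler G (n + 1) z = 0) :
    ∀ z : ℂ, 0 < z.im → eichler G n z = 0 := by
  intro z hz
  have hd : HasDerivAt (eichler G (n + 1))
      (∑ j ∈ Finset.range (n + 1 + 1), ((-1) ^ j * ((n + 1).choose j : ℂ) *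
        (((n + 1 - j : ℕ) : ℂ) * z ^ (n + 1 - j - 1)) * G j z +
        (-1) ^ j * ((n + 1).choose j : ℂ) * z ^ (n + 1 - j) * (h z * z ^ j))) z := by
    unfold eichler
    refine HasDerivAt.fun_sum fun j hj => ?_
    have hj' : j ≤ n + 1 := Nat.lt_succ_iff.mp (Finset.mem_range.mp hj)
    exact ((hasDerivAt_pow (n + 1 - j) z).const_mul _).mul (hG j hj' z hz)
  have h0 : HasDerivAt (eichler G (n + 1)) 0 z := by
    refine (hasDerivAt_const z (0 : ℂ)).congr_of_eventuallyEq ?_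
    filter_upwards [(isOpen_lt continuous_const Complex.continuous_im).mem_nhds hz] with u hu
    exact hE u hu
  have key := hd.unique h0
  rw [Finset.sum_add_distrib] at key
  have h1 : ∑ j ∈ Finset.range (n + 1 + 1),
      (-1 : ℂ) ^ j * ((n + 1).choose j : ℂ) * z ^ (n + 1 - j) * (h z * z ^ j) = 0 := by
    have halt : (∑ j ∈ Finset.range (n + 1 + 1), (-1 : ℂ) ^ j * ((n + 1).choose j : ℂ)) = 0 := by
      have := add_pow (-1 : ℂ) 1 (n + 1)
      simpa using this.symm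
    calc _ = ∑ j ∈ Finset.range (n + 1 + 1),
        ((-1 : ℂ) ^ j * ((n + 1).choose j : ℂ)) * (h z * z ^ (n + 1)) :=
          Finset.sum_congr rfl fun j hj => by
            have hj' : j ≤ n + 1 := Nat.lt_succ_iff.mp (Finset.mem_range.mp hj)
            have e : z ^ (n + 1 - j) * z ^ j = z ^ (n + 1) := by
              rw [← pow_add, Nat.sub_add_cancel hj']
            linear_combination ((-1 : ℂ) ^ j * ((n + 1).choose j : ℂ) * h z) * e
      _ = 0 := by rw [← Finset.sum_mul, halt, zero_mul]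
  rw [h1, add_zero, Finset.sum_range_succ] at key
  simp only [Nat.sub_self, Nat.cast_zero, zero_mul, mul_zero, add_zero] at key
  have h2 : ((n + 1 : ℕ) : ℂ) * eichler G n z = 0 := by
    rw [eichler, Finset.mul_sum, ← key]
    refine Finset.sum_congr rfl fun j hj => ?_
    have hj' : j ≤ n := Nat.lt_succ_iff.mp (Finset.mem_range.mp hj)
    have e : ((n.choose j : ℕ) : ℂ) * ((n + 1 : ℕ) : ℂ) =
        ((n + 1).choose j : ℂ) * ((n + 1 - j : ℕ) : ℂ) := by
      exact_mod_cast Nat.choose_mul_succ_eq n j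
    rw [show n + 1 - j - 1 = n - j by omega]
    linear_combination ((-1 : ℂ) ^ j * z ^ (n - j) * G j z) * e
  exact (mul_eq_zero.mp h2).resolve_left (by exact_mod_cast Nat.succ_ne_zero n)

lemma eichler_of_le (G : ℕ → ℂ → ℂ) (h : ℂ → ℂ) (n : ℕ)
    (hG : ∀ j ≤ n, ∀ z : ℂ, 0 < z.im → HasDerivAt (G j) (h z * z ^ j) z)
    (hE : ∀ z : ℂ, 0 < z.im → eichler G n z = 0) : ∀ z : ℂ, 0 < z.im → h z = 0 := by
  induction n with
  | zero =>
    intro z hz
    have h0 : HasDerivAt (G 0) 0 z := by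
      refine (hasDerivAt_const z (0 : ℂ)).congr_of_eventuallyEq ?_
      filter_upwards [(isOpen_lt continuous_const Complex.continuous_im).mem_nhds hz] with u hu
      simpa [eichler] using hE u hu
    simpa using (hG 0 le_rfl z hz).unique h0
  | succ n ih =>
    exact ih (fun j hj => hG j (hj.trans n.le_succ)) (eichler_eq_zero_pred G h n hG hE)

/-- Pullback of a family of primitives: primitives of `(f|α) X^i`. -/
def pullFamily (G : ℕ → ℂ → ℂ) (w : ℕ) (α : SL(2, ℤ)) (i : ℕ) (z : ℂ) : ℂ :=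
  polyEv G w
    ((polyTr w (α : Matrix (Fin 2) (Fin 2) ℤ).adjugate (X ^ i)).map (Int.castRingHom ℂ))
    ((mapGL ℝ α • ofComplex z : ℍ) : ℂ)

/-- Equivariance of the Eichler integral. -/
lemma eichler_pullFamily (G : ℕ → ℂ → ℂ) (w : ℕ) (α : SL(2, ℤ)) (τ : ℍ) :
    eichler (pullFamily G w α) w τ =
      denom (mapGL ℝ α) τ ^ w * eichler G w ((mapGL ℝ α • τ : ℍ) : ℂ) := by
  set s := ((mapGL ℝ α • τ : ℍ) : ℂ) with hs
  have h := intPos_mapGL α
  set a : ℂ := ((α 0 0 : ℤ) : ℂ) with ha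
  set b : ℂ := ((α 0 1 : ℤ) : ℂ) with hb
  set c : ℂ := ((α 1 0 : ℤ) : ℂ) with hc
  set d : ℂ := ((α 1 1 : ℤ) : ℂ) with hd
  obtain ⟨q, hq⟩ : ∃ q, q = c * τ + d := ⟨_, rfl⟩
  have hden : denom (mapGL ℝ α) (τ : ℂ) = q := hq ▸ h.denom_eq _
  have hq0 : q ≠ 0 := hden ▸ denom_ne_zero _ τ
  have hsq : s * q = a * τ + b := by
    rw [hq] at hq0
    rw [hs, h.coe_smul, hq, div_mul_cancel₀]
    exact hq0
  have key : ∑ i ∈ Finset.range (w + 1), C ((-1) ^ i * (w.choose i : ℂ) * (τ : ℂ) ^ (w - i)) *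
      (polyTr w (α : Matrix (Fin 2) (Fin 2) ℤ).adjugate (X ^ i)).map (Int.castRingHom ℂ) =
      ∑ j ∈ Finset.range (w + 1), C (q ^ w * ((-1) ^ j * (w.choose j : ℂ) * s ^ (w - j))) *
        X ^ j := by
    have lhs : ∑ i ∈ Finset.range (w + 1), C ((-1) ^ i * (w.choose i : ℂ) * (τ : ℂ) ^ (w - i)) *
        (polyTr w (α : Matrix (Fin 2) (Fin 2) ℤ).adjugate (X ^ i)).map (Int.castRingHom ℂ) =
        (-(C d * X - C b) + C (τ : ℂ) * (-(C c * X) + C a)) ^ w := by
      rw [add_pow]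
      refine Finset.sum_congr rfl fun i hi => ?_
      rw [polyTr_X_pow w _ (Nat.lt_succ_iff.mp (Finset.mem_range.mp hi)), Matrix.adjugate_fin_two]
      simp only [Matrix.of_apply, Matrix.cons_val', Matrix.cons_val_zero, Matrix.cons_val_one,
        Matrix.cons_val_fin_one, Polynomial.map_mul, Polynomial.map_pow, Polynomial.map_add,
        Polynomial.map_C, Polynomial.map_X, map_neg, Polynomial.map_neg, Int.coe_castRingHom,
        Int.cast_neg, ha, hb, hc, hd, map_mul, map_pow, map_one, map_natCast, mul_pow]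
      rw [neg_pow (C (((α 1 1 : ℤ) : ℂ)) * X - C (((α 0 1 : ℤ) : ℂ)))]
      ring
    have rhs : ∑ j ∈ Finset.range (w + 1), C (q ^ w * ((-1) ^ j * (w.choose j : ℂ) * s ^ (w - j))) *
        X ^ j = (C q * (-X + C s)) ^ w := by
      rw [mul_pow, add_pow (-X : ℂ[X]) (C s), Finset.mul_sum]
      refine Finset.sum_congr rfl fun j _ => ?_
      rw [neg_pow (X : ℂ[X])]
      simp only [map_mul, map_pow, map_neg, map_one, map_natCast]
      ring
    rw [lhs, rhs]
    congr 1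
    rw [hq, map_add, map_mul]
    have hC : C s * (C c * C (τ : ℂ) + C d) = C a * C (τ : ℂ) + C b := by
      rw [← map_mul, ← map_add, ← map_mul, ← map_mul, ← map_add, ← hq, hsq]
    linear_combination -hC
  have lhs : eichler (pullFamily G w α) w τ = polyEv G w
      (∑ i ∈ Finset.range (w + 1), C ((-1) ^ i * (w.choose i : ℂ) * (τ : ℂ) ^ (w - i)) *
        (polyTr w (α : Matrix (Fin 2) (Fin 2) ℤ).adjugate (X ^ i)).map (Int.castRingHom ℂ)) s := by
    rw [← polyEv_sum]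
    simp [eichler, pullFamily, hs, ofComplex_apply]
  rw [lhs, key, hden, eichler, Finset.mul_sum, polyEv]
  refine Finset.sum_congr rfl fun j hj => ?_
  simp only [finsetSum_coeff, coeff_C_mul_X_pow]
  rw [Finset.sum_ite_eq, if_pos hj]
  ring

end Fermat.Agent.MF.Periods
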