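import Fermat.Agent.MF.PeriodParabolic
import Mathlib.Analysis.Calculus.Deriv.Star
import Fermat.Agent.MF.PeriodGamma.MaxPrinciple

/-!
Injectivity of the pairing of periods, by the maximum principle.
-/

set_option autoImplicit false

noncomputable section

namespace Fermat.Agent.MF.Prim

open UpperHalfPlane hiding I
open Complex Filter Topology Function CongruenceSubgroup ModularCurve
open Matrix.SpecialLinearGroup
open scoped MatrixGroups ModularForm Manifold ComplexConjugate

/-! ### The reflection `z ↦ -conj z` -/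

theorem smul_J_smul (δ : SL(2, ℤ)) (z : ℍ) : δ • (J • z) = J • (Period.jConjSL δ • z) := by
  ext1
  simp only [coe_J_smul, coe_specialLinearGroup_apply, Period.jConjSL_coe,
    Period.jConjMat_apply_zero_zero, Period.jConjMat_apply_zero_one,
    Period.jConjMat_apply_one_zero, Period.jConjMat_apply_one_one, algebraMap_int_eq,
    Int.coe_castRingHom, ofReal_intCast, map_div₀, map_add, map_mul, map_intCast,
    map_neg]
  simp
  ring

theorem J_smul_smul (δ : SL(2, ℤ)) (z : ℍ) : J • (δ • z) = Period.jConjSL δ • (J • z) := by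
  rw [smul_J_smul, Period.jConjSL_jConjSL]

theorem J_smul_tendsto : Tendsto (fun w : ℍ => J • w) atImInfty atImInfty := by
  have h : (UpperHalfPlane.im ∘ fun w : ℍ => J • w) = UpperHalfPlane.im := funext fun w => by
    simp only [comp_apply, ← coe_im, coe_J_smul, neg_im, conj_im, neg_neg]
  simp only [atImInfty, tendsto_comap_iff, h]
  exact tendsto_comap

theorem hasDerivAt_conj_J {F f : ℍ → ℂ} (hF : IsPrimitiveOf F f) :
    IsPrimitiveOf (fun z => conj (F (J • z))) (fun z => -conj (f (J • z))) := by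
  intro τ
  have h1 : HasDerivAt (F ∘ ofComplex) (f (J • τ)) (-conj (τ : ℂ)) := by
    simpa [coe_J_smul] using hF (J • τ)
  have h1' : HasDerivAt (fun z => (F ∘ ofComplex) (-z)) (-f (J • τ)) (conj (τ : ℂ)) := by
    have := h1.comp (conj (τ : ℂ)) (hasDerivAt_neg (conj (τ : ℂ)))
    simpa [comp_def] using this
  have h2 := h1'.conj_conj
  rw [Complex.conj_conj, map_neg] at h2
  refine h2.congr_of_eventuallyEq ?_
  filter_upwards [isOpen_upperHalfPlaneSet.mem_nhds τ.im_pos] with z hz
  have hz' : 0 < (-conj z).im := by simpa using hz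
  simp only [comp_apply, ofComplex_apply_of_im_pos hz, ofComplex_apply_of_im_pos hz']
  congr 2
  ext1
  simp [coe_J_smul]

variable (N : ℕ) [NeZero N]

theorem periodMap_eq_zero_of_conj_T (f : CuspForm (Gamma0 N) 2) (δ : SL(2, ℤ)) (w : ℍ)
    (m : ℤ) (hm : δ * ModularGroup.T ^ m * δ⁻¹ ∈ Gamma0 N) :
    prim N f (δ • ModularGroup.T ^ m • w) = prim N f (δ • w) := by
  have h := periodMap_mem_parabolicHoms N f ⟨_, hm⟩ (by rw [conj_T_zpow_trace]; norm_num)
  rw [periodMap_eq N f ⟨_, hm⟩ (δ • w), sub_eq_zero] at h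
  rw [← h, smul_smul, smul_smul]
  simp

theorem injective_periodHomPair : Function.Injective (periodHomPair N) := by
  rw [← LinearMap.ker_eq_bot, LinearMap.ker_eq_bot']
  rintro ⟨f, g⟩ hfg
  set Fu := prim N (f + g) with hFu
  set Fv := prim N (f - g) with hFv
  have hsum : ∀ γ : Gamma0 N, periodMap N (f + g) (Additive.ofMul γ) +
      periodMap N (f - g) (Additive.ofMul (Period.jConjGamma0 N γ)) = 0 := fun γ => by
    have h := periodHomPair_apply N f g γ
    rw [hfg] at h
    rw [← periodLin_apply N (f + g), ← periodLin_apply N (f - g), map_add, map_sub,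
      periodLin_apply, periodLin_apply]
    simp only [AddMonoidHom.add_apply, AddMonoidHom.sub_apply, AddMonoidHom.zero_apply] at h ⊢
    linear_combination -h
  set Φ : ℍ → ℂ := fun z => Fu z + Fv (J • z) with hΦ
  have hΦinv : ∀ (γ : Gamma0 N) (z : ℍ), Φ ((γ : SL(2, ℤ)) • z) = Φ z := fun γ z => by
    have h := hsum γ
    rw [periodMap_eq N (f + g) γ z, periodMap_eq N (f - g) (Period.jConjGamma0 N γ) (J • z),
      Period.jConjGamma0_coe, ← J_smul_smul] at h
    simp only [hΦ, hFu, hFv]
    linear_combination h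
  have hFvc := hasDerivAt_conj_J (prim_isPrimitiveOf N (f - g))
  have hcusp : ∀ δ : SL(2, ℤ), ∃ a b : ℂ,
      Tendsto (fun w => Fu (δ • w)) atImInfty (𝓝 a) ∧
      Tendsto (fun w => conj (Fv (J • δ • w))) atImInfty (𝓝 b) ∧
      ∀ w : ℍ, Fu (δ • ModularGroup.T ^ (N : ℤ) • w) = Fu (δ • w) ∧
        conj (Fv (J • δ • ModularGroup.T ^ (N : ℤ) • w)) = conj (Fv (J • δ • w)) := by
    intro δ
    obtain ⟨a, ha, -⟩ := prim_cusp N (f + g) δ
    obtain ⟨b, hb, -⟩ := prim_cusp N (f - g) (Period.jConjSL δ)
    refine ⟨a, conj b, ha, ?_, fun w => ⟨periodMap_eq_zero_of_conj_T N _ δ w N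
      (conj_T_zpow_mem_Gamma0 N δ), congrArg conj ?_⟩⟩
    · simp only [J_smul_smul]
      exact ((Complex.continuous_conj.tendsto b).comp (hb.comp J_smul_tendsto))
    · have hJT : Period.jConjSL (ModularGroup.T ^ (N : ℤ)) = ModularGroup.T ^ (-(N : ℤ)) := by
        ext i j
        rw [Period.jConjSL_coe, ModularGroup.coe_T_zpow, ModularGroup.coe_T_zpow]
        fin_cases i <;> fin_cases j <;> simp
      have hmem : Period.jConjSL δ * ModularGroup.T ^ (-(N : ℤ)) * (Period.jConjSL δ)⁻¹
          ∈ Gamma0 N := by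
        have := inv_mem (conj_T_zpow_mem_Gamma0 N (Period.jConjSL δ))
        rwa [mul_inv_rev, mul_inv_rev, inv_inv, ← mul_assoc, ← zpow_neg] at this
      simp only [J_smul_smul, hJT]
      exact periodMap_eq_zero_of_conj_T N _ _ _ _ hmem
  have key : ∀ a : ℂ, ∀ z z' : ℍ,
      a * Fu z + conj a * conj (Fv (J • z)) = a * Fu z' + conj a * conj (Fv (J • z')) := by
    intro a
    refine PeriodGamma.eq_const_of_re_invariant (Gamma0 N)
      (Nat.cast_pos.mpr (NeZero.pos N) : (0 : ℝ) < N)
      (H := fun z => a * Fu z + conj a * conj (Fv (J • z))) ?_ ?_ ?_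
    · exact (((prim_isPrimitiveOf N (f + g)).const_smul a).add (hFvc.const_smul (conj a))).mdiff
    · intro γ z
      have key : ∀ w, (a * Fu w + conj a * conj (Fv (J • w))).re = (a * Φ w).re := fun w => by
        rw [← map_mul, add_re, conj_re, ← add_re, ← mul_add]
      rw [key, key, hΦinv]
    · intro δ
      obtain ⟨b, c, hb, hc, hp⟩ := hcusp δ
      refine ⟨_, (hb.const_mul a).add (hc.const_mul (conj a)), ?_⟩
      have h := periodic_of_forall_T_zpow (n := (N : ℤ))
        (f := fun w => a * Fu (δ • w) + conj a * conj (Fv (J • δ • w)))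
        fun w => by simp only [(hp w).1, (hp w).2]
      simpa using h
  have hFuc : ∀ z z', Fu z = Fu z' := fun z z' => by
    have h1 := key 1 z z'
    have h2 := key I z z'
    simp only [map_one, one_mul, conj_I] at h1 h2
    refine mul_left_cancel₀ (mul_ne_zero two_ne_zero I_ne_zero) ?_
    linear_combination I * h1 + h2
  have hFvconst : ∀ z z', Fv z = Fv z' := fun z z' => by
    have h1 := key 1 (J • z) (J • z')
    simp only [map_one, one_mul, hFuc (J • z) (J • z'), add_right_inj, ← mul_smul, ← sq,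
      J_sq, one_smul] at h1
    simpa using congrArg conj h1
  have zero_of_const : ∀ h : CuspForm (Gamma0 N) 2,
      (∀ z z', prim N h z = prim N h z') → h = 0 := fun h hc => by
    ext τ
    have h1 : HasDerivAt (prim N h ∘ ofComplex) 0 (τ : ℂ) :=
      (hasDerivAt_const (τ : ℂ) (prim N h τ)).congr_of_eventuallyEq
        (Filter.Eventually.of_forall fun v => hc _ _)
    simpa using (prim_isPrimitiveOf N h τ).unique h1
  have hu := zero_of_const _ hFuc
  have hv := zero_of_const _ hFvconst
  have hf : f = 0 := by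
    have h2 : (2 : ℂ) • f = 0 := by
      rw [two_smul, show f + f = (f + g) + (f - g) by abel, hu, hv, add_zero]
    simpa using h2
  subst hf
  simpa using hu

end Fermat.Agent.MF.Prim
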