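import Mathlib.Algebra.Polynomial.AlgebraMap
import Mathlib.Analysis.Complex.Basic
import Mathlib.LinearAlgebra.Matrix.Adjugate

/-! The action of integral matrices on polynomials of degree at most `w`. -/

set_option autoImplicit false

open Polynomial Finset

noncomputable section

namespace Fermat.Agent.MF.PeriodPoly

/-- `∑ pⱼ (aX + b)^j (cX + d)^(w - j)`. -/
def polyTr (w : ℕ) (M : Matrix (Fin 2) (Fin 2) ℤ) (P : ℤ[X]) : ℤ[X] :=
  ∑ j ∈ range (w + 1), P.coeff j •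
    ((C (M 0 0) * X + C (M 0 1)) ^ j * (C (M 1 0) * X + C (M 1 1)) ^ (w - j))

lemma natDegree_polyTr_le (w : ℕ) (M : Matrix (Fin 2) (Fin 2) ℤ) (P : ℤ[X]) :
    (polyTr w M P).natDegree ≤ w := by
  refine natDegree_sum_le_of_forall_le _ _ fun j hj => ?_
  refine (natDegree_smul_le _ _).trans (natDegree_mul_le.trans ?_)
  have h1 : ((C (M 0 0) * X + C (M 0 1)) ^ j).natDegree ≤ j := by
    refine natDegree_pow_le.trans ?_
    calc j * (C (M 0 0) * X + C (M 0 1)).natDegree ≤ j * 1 :=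
          Nat.mul_le_mul_left _ natDegree_linear_le
      _ = j := mul_one j
  have h2 : ((C (M 1 0) * X + C (M 1 1)) ^ (w - j)).natDegree ≤ w - j := by
    refine natDegree_pow_le.trans ?_
    calc (w - j) * (C (M 1 0) * X + C (M 1 1)).natDegree ≤ (w - j) * 1 :=
          Nat.mul_le_mul_left _ natDegree_linear_le
      _ = w - j := mul_one _
  have : j ≤ w := by
    rw [mem_range] at hj
    omega
  omega

lemma aeval_polyTr (w : ℕ) (M : Matrix (Fin 2) (Fin 2) ℤ) (P : ℤ[X]) (z : ℂ) :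
    aeval z (polyTr w M P) = ∑ j ∈ range (w + 1), (P.coeff j : ℂ) *
      (((M 0 0 : ℂ) * z + M 0 1) ^ j * ((M 1 0 : ℂ) * z + M 1 1) ^ (w - j)) := by
  simp [polyTr, map_sum, zsmul_eq_mul]

lemma aeval_polyTr_eq (w : ℕ) (M : Matrix (Fin 2) (Fin 2) ℤ) {P : ℤ[X]} (hP : P.natDegree ≤ w)
    (z : ℂ) (hd : (M 1 0 : ℂ) * z + M 1 1 ≠ 0) :
    aeval z (polyTr w M P) = ((M 1 0 : ℂ) * z + M 1 1) ^ w *
      aeval (((M 0 0 : ℂ) * z + M 0 1) / ((M 1 0 : ℂ) * z + M 1 1)) P := by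
  rw [aeval_polyTr, aeval_eq_sum_range' (Nat.lt_succ_of_le hP), mul_sum]
  refine sum_congr rfl fun j hj => ?_
  have hjw : j ≤ w := by
    rw [mem_range] at hj
    omega
  rw [zsmul_eq_mul, div_pow]
  have h : ((M 1 0 : ℂ) * z + M 1 1) ^ w =
      ((M 1 0 : ℂ) * z + M 1 1) ^ j * ((M 1 0 : ℂ) * z + M 1 1) ^ (w - j) := by
    rw [← pow_add, Nat.add_sub_cancel' hjw]
  rw [h]
  generalize hq : (M 1 0 : ℂ) * z + M 1 1 = q at hd ⊢
  field_simp

lemma polyTr_X_pow (w : ℕ) (M : Matrix (Fin 2) (Fin 2) ℤ) {i : ℕ} (hi : i ≤ w) :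
    polyTr w M (X ^ i) = (C (M 0 0) * X + C (M 0 1)) ^ i * (C (M 1 0) * X + C (M 1 1)) ^ (w - i) := by
  rw [polyTr, sum_eq_single i]
  · simp
  · intro j _ hj
    simp [coeff_X_pow, hj]
  · intro h
    exact absurd (mem_range.mpr (Nat.lt_succ_of_le hi)) h

end Fermat.Agent.MF.PeriodPoly
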