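import Mathlib.Analysis.Complex.HasPrimitives
import Mathlib.Analysis.Complex.UpperHalfPlane.Basic
import Mathlib.Analysis.Calculus.MeanValue

/-! A holomorphic function on the upper half plane has a primitive there. -/

set_option autoImplicit false

open Complex Metric Set

namespace Fermat.Agent.MF.UpperPrimitive

lemma mem_ball_I_mul_iff {n : ℝ} (hn : 0 < n) (z : ℂ) :
    z ∈ ball (n * I) n ↔ z.re ^ 2 + z.im ^ 2 < 2 * n * z.im := by
  rw [mem_ball, dist_eq_norm, ← sq_lt_sq₀ (norm_nonneg _) hn.le, ← Complex.normSq_eq_norm_sq,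
    Complex.normSq_apply]
  simp only [sub_re, sub_im, mul_re, mul_im, ofReal_re, ofReal_im, I_re, I_im]
  constructor <;> intro h <;> nlinarith

lemma ball_subset_upper {n : ℝ} : ball (n * I) n ⊆ {z : ℂ | 0 < z.im} := by
  intro z hz
  rw [mem_ball, dist_eq_norm] at hz
  have h := (abs_im_le_norm (z - n * I)).trans_lt hz
  simp only [sub_im, mul_im, ofReal_re, ofReal_im, I_re, I_im, mul_one, mul_zero, add_zero] at h
  have := (abs_lt.mp h).1
  show 0 < z.im
  linarith

/-- A holomorphic function on the upper half plane has a primitive. -/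
theorem exists_primitive {g : ℂ → ℂ} (hg : DifferentiableOn ℂ g {z | 0 < z.im}) :
    ∃ G : ℂ → ℂ, ∀ z : ℂ, 0 < z.im → HasDerivAt G (g z) z := by
  classical
  have hball : ∀ n : ℕ, IsExactOn g (ball ((n + 1 : ℝ) * I) (n + 1)) := fun n => by
    have hsub : ball (((n + 1 : ℝ) : ℂ) * I) (n + 1) ⊆ {z : ℂ | 0 < z.im} := ball_subset_upper
    exact DifferentiableOn.isExactOn_ball (hg.mono hsub)
  choose G hG0 hG using fun n : ℕ => (hball n).with_val_at I 0
  have hI : ∀ n : ℕ, I ∈ ball ((n + 1 : ℝ) * I) (n + 1) := fun n => by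
    have h := (mem_ball_I_mul_iff (n := (n + 1 : ℝ)) (by positivity) I).2 (by
      simp only [I_re, I_im]
      have : (0 : ℝ) ≤ n := Nat.cast_nonneg n
      nlinarith)
    exact h
  have hmono : ∀ m n : ℕ, m ≤ n → ∀ z : ℂ, z ∈ ball ((m + 1 : ℝ) * I) (m + 1) →
      z ∈ ball ((n + 1 : ℝ) * I) (n + 1) := fun m n hmn z hz => by
    have hpos : 0 < z.im := by
      have hsub : ball (((m + 1 : ℝ) : ℂ) * I) (m + 1) ⊆ {z : ℂ | 0 < z.im} := ball_subset_upper
      exact hsub hz
    have h1 := (mem_ball_I_mul_iff (n := (m + 1 : ℝ)) (by positivity) z).1 hz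
    have h2 := (mem_ball_I_mul_iff (n := (n + 1 : ℝ)) (by positivity) z).2 (by
      have : (m : ℝ) ≤ n := by exact_mod_cast hmn
      nlinarith)
    exact h2
  have hagree : ∀ m n : ℕ, m ≤ n → ∀ z : ℂ, z ∈ ball ((m + 1 : ℝ) * I) (m + 1) →
      G m z = G n z := fun m n hmn => by
    apply IsOpen.eqOn_of_deriv_eq isOpen_ball (convex_ball _ _).isPreconnected
      (fun z hz => (hG m z hz).differentiableAt.differentiableWithinAt)
      (fun z hz => (hG n z (hmono m n hmn z hz)).differentiableAt.differentiableWithinAt)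
      (fun z hz => by rw [(hG m z hz).deriv, (hG n z (hmono m n hmn z hz)).deriv])
      (hI m) (by rw [hG0, hG0])
  let idx : ℂ → ℕ := fun z => ⌈(z.re ^ 2 + z.im ^ 2) / (2 * z.im)⌉₊
  have hidx : ∀ z : ℂ, 0 < z.im → z ∈ ball ((idx z + 1 : ℝ) * I) (idx z + 1) := fun z hz => by
    have h := (mem_ball_I_mul_iff (n := (idx z + 1 : ℝ)) (by positivity) z).2 (by
      have h1 : (z.re ^ 2 + z.im ^ 2) / (2 * z.im) < idx z + 1 := by
        have := Nat.le_ceil ((z.re ^ 2 + z.im ^ 2) / (2 * z.im))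
        show (z.re ^ 2 + z.im ^ 2) / (2 * z.im) < (⌈(z.re ^ 2 + z.im ^ 2) / (2 * z.im)⌉₊ : ℝ) + 1
        linarith
      rw [div_lt_iff₀ (by positivity)] at h1
      linarith)
    exact h
  refine ⟨fun z => G (idx z) z, fun z hz => ?_⟩
  refine (hG (idx z) z (hidx z hz)).congr_of_eventuallyEq ?_
  filter_upwards [isOpen_ball.mem_nhds (hidx z hz),
    (isOpen_lt continuous_const continuous_im).mem_nhds hz] with w hw hw0
  rcases le_total (idx w) (idx z) with h | h
  · exact hagree _ _ h w (hidx w hw0)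
  · exact (hagree _ _ h w hw).symm

/-- Two primitives of the same function on the upper half plane differ by a constant. -/
theorem eq_add_const {g G G' : ℂ → ℂ} (hG : ∀ z : ℂ, 0 < z.im → HasDerivAt G (g z) z)
    (hG' : ∀ z : ℂ, 0 < z.im → HasDerivAt G' (g z) z) :
    ∃ c : ℂ, ∀ z : ℂ, 0 < z.im → G z = G' z + c := by
  refine ⟨G I - G' I, fun z hz => ?_⟩
  have hH : IsOpen {z : ℂ | 0 < z.im} := isOpen_lt continuous_const continuous_im
  have hd : ∀ w : ℂ, 0 < w.im → HasDerivAt (G - G') (0 : ℂ) w := fun w hw => by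
    simpa using (hG w hw).sub (hG' w hw)
  have := IsOpen.is_const_of_deriv_eq_zero hH (convex_halfSpace_im_gt 0).isPreconnected
    (fun w hw => (hd w hw).differentiableAt.differentiableWithinAt)
    (fun w hw => (hd w hw).deriv) hz (show I ∈ {z : ℂ | 0 < z.im} by simp)
  simp only [Pi.sub_apply] at this
  linear_combination this

end Fermat.Agent.MF.UpperPrimitive
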