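import Mathlib.NumberTheory.ModularForms.QExpansion
import Mathlib.NumberTheory.ModularForms.NormTrace
import Mathlib.Analysis.Calculus.Deriv.Polynomial
import Mathlib.Topology.Algebra.Polynomial
import Mathlib.MeasureTheory.Integral.ExpDecay
import Mathlib.MeasureTheory.Integral.IntegralEqImproper
import Mathlib.Analysis.SpecialFunctions.ImproperIntegrals
import Fermat.Agent.MF.PeriodPoly
import Fermat.Agent.MF.UpperPrimitive

/-!
Primitives of `f(z) P(z)` for cusp forms `f` and integral polynomials `P`, and their limits at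
cusps.
-/

set_option autoImplicit false

noncomputable section

namespace Fermat.Agent.MF.Periods

open UpperHalfPlane hiding I
open Complex Filter Topology Function Polynomial
open Matrix.SpecialLinearGroup
open Fermat.Agent.MF.PeriodPoly
open scoped MatrixGroups ModularForm Real

/-- The point `x + iy`. -/
def pt (x y : ℝ) : ℍ := ofComplex ((x : ℂ) + (y : ℂ) * I)

lemma coe_pt {x y : ℝ} (hy : 0 < y) : ((pt x y : ℍ) : ℂ) = (x : ℂ) + (y : ℂ) * I := by
  rw [pt, ofComplex_apply_of_im_pos (show 0 < ((x : ℂ) + (y : ℂ) * I).im by simpa using hy)]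

lemma im_pt {x y : ℝ} (hy : 0 < y) : (pt x y).im = y := by
  simp [← UpperHalfPlane.coe_im, coe_pt hy]

lemma re_pt {x y : ℝ} (hy : 0 < y) : (pt x y).re = x := by
  simp [← UpperHalfPlane.coe_re, coe_pt hy]

/-- Composition of a function with the action of `g`. -/
def compAct (G : ℂ → ℂ) (g : GL (Fin 2) ℝ) (z : ℂ) : ℂ := G ((g • ofComplex z : ℍ) : ℂ)

lemma compAct_coe (G : ℂ → ℂ) (g : GL (Fin 2) ℝ) (τ : ℍ) :
    compAct G g (τ : ℂ) = G ((g • τ : ℍ) : ℂ) := by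
  simp [compAct, ofComplex_apply]

/-- `G` is a primitive of `f(z) P(z)`. -/
def IsPrim (f : ℍ → ℂ) (P : ℤ[X]) (G : ℂ → ℂ) : Prop :=
  ∀ τ : ℍ, HasDerivAt G (f τ * aeval (τ : ℂ) P) (τ : ℂ)

/-- `G` tends to `L` along all vertical lines at the cusp `g∞`. -/
def CuspLim (G : ℂ → ℂ) (g : GL (Fin 2) ℝ) (L : ℂ) : Prop :=
  ∀ x : ℝ, Tendsto (fun y : ℝ => G ((g • pt x y : ℍ) : ℂ)) atTop (𝓝 L)

/-- `g` has integral entries given by `M` and positive determinant. -/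
def IntPos (g : GL (Fin 2) ℝ) (M : Matrix (Fin 2) (Fin 2) ℤ) : Prop :=
  (g : Matrix (Fin 2) (Fin 2) ℝ) = M.map (fun x : ℤ => (x : ℝ)) ∧ 0 < M.det

lemma intPos_mapGL (α : SL(2, ℤ)) : IntPos (mapGL ℝ α) (α : Matrix (Fin 2) (Fin 2) ℤ) := by
  refine ⟨?_, by rw [α.det_coe]; norm_num⟩
  ext i j
  simp

lemma IntPos.mul {g g' : GL (Fin 2) ℝ} {M M' : Matrix (Fin 2) (Fin 2) ℤ} (h : IntPos g M)
    (h' : IntPos g' M') : IntPos (g * g') (M * M') := by
  refine ⟨?_, by rw [Matrix.det_mul]; exact mul_pos h.2 h'.2⟩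
  rw [Units.val_mul, h.1, h'.1]
  ext i j
  simp [Matrix.mul_apply]

namespace IntPos

variable {g : GL (Fin 2) ℝ} {M : Matrix (Fin 2) (Fin 2) ℤ}

lemma apply_eq (h : IntPos g M) (i j : Fin 2) : g i j = (M i j : ℝ) := by
  have := congrFun (congrFun h.1 i) j
  simpa using this

lemma det_eq (h : IntPos g M) : (g : Matrix (Fin 2) (Fin 2) ℝ).det = (M.det : ℝ) := by
  rw [h.1, Matrix.det_fin_two, Matrix.det_fin_two]
  simp

lemma det_pos (h : IntPos g M) : 0 < (g.det : ℝ) := by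
  rw [Matrix.GeneralLinearGroup.val_det_apply, h.det_eq]
  exact_mod_cast h.2

lemma denom_eq (h : IntPos g M) (z : ℂ) : denom g z = (M 1 0 : ℂ) * z + M 1 1 := by
  simp [denom, h.apply_eq]

lemma coe_smul (h : IntPos g M) (τ : ℍ) :
    ((g • τ : ℍ) : ℂ) = ((M 0 0 : ℂ) * τ + M 0 1) / ((M 1 0 : ℂ) * τ + M 1 1) := by
  rw [coe_smul_of_det_pos h.det_pos]
  simp [num, denom, h.apply_eq]

lemma slash_eq (h : IntPos g M) (f : ℍ → ℂ) (k : ℤ) (τ : ℍ) :
    (f ∣[k] g) τ = f (g • τ) * (M.det : ℂ) ^ (k - 1) * ((M 1 0 : ℂ) * τ + M 1 1) ^ (-k) := by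
  rw [ModularForm.slash_apply, UpperHalfPlane.σ, if_pos h.det_pos, h.denom_eq,
    Matrix.GeneralLinearGroup.val_det_apply, h.det_eq,
    abs_of_pos (show (0 : ℝ) < (M.det : ℝ) by exact_mod_cast h.2)]
  simp

lemma hasDerivAt_compAct (h : IntPos g M) {f : ℍ → ℂ} {Q : ℤ[X]} {G : ℂ → ℂ}
    (hG : IsPrim f Q G) (τ : ℍ) :
    HasDerivAt (compAct G g) (f (g • τ) * aeval (((g • τ : ℍ) : ℂ)) Q *
      ((M.det : ℂ) / ((M 1 0 : ℂ) * τ + M 1 1) ^ 2)) (τ : ℂ) := by
  have h1 := (hasStrictDerivAt_smul (g := g) (by simpa using h.det_pos) τ).hasDerivAt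
  rw [h.det_eq, h.denom_eq] at h1
  have h2 : HasDerivAt G (f (g • τ) * aeval (((g • τ : ℍ) : ℂ)) Q)
      ((g • ofComplex (τ : ℂ) : ℍ) : ℂ) := by
    rw [ofComplex_apply]
    exact hG (g • τ)
  exact h2.comp (τ : ℂ) h1

end IntPos

/-- Pulling back along an integral matrix of positive determinant. -/
theorem IsPrim.compAct_adjugate {w : ℕ} {f : ℍ → ℂ} {P : ℤ[X]} {G : ℂ → ℂ} {g : GL (Fin 2) ℝ}
    {M : Matrix (Fin 2) (Fin 2) ℤ} (h : IntPos g M) (hP : P.natDegree ≤ w)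
    (hG : IsPrim f (polyTr w M.adjugate P) G) :
    IsPrim (f ∣[((w : ℤ) + 2)] g) P (compAct G g) := by
  intro τ
  have h1 := h.hasDerivAt_compAct hG τ
  rw [h.slash_eq]
  have hq : (M 1 0 : ℂ) * τ + M 1 1 ≠ 0 := by
    rw [← h.denom_eq]; exact denom_ne_zero g τ
  have hD : (M.det : ℂ) ≠ 0 := by exact_mod_cast h.2.ne'
  have hdet : (M.det : ℂ) = (M 0 0 : ℂ) * M 1 1 - (M 0 1 : ℂ) * M 1 0 := by
    rw [Matrix.det_fin_two]; push_cast; ring
  set q := (M 1 0 : ℂ) * τ + M 1 1 with hqdef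
  set s := ((g • τ : ℍ) : ℂ) with hsdef
  have hs : s = ((M 0 0 : ℂ) * τ + M 0 1) / q := h.coe_smul τ
  have hsq : s * q = (M 0 0 : ℂ) * τ + M 0 1 := by rw [hs, div_mul_cancel₀ _ hq]
  have hden : (M.adjugate 1 0 : ℂ) * s + M.adjugate 1 1 = (M.det : ℂ) / q := by
    rw [eq_div_iff hq, Matrix.adjugate_fin_two]
    simp only [Matrix.of_apply, Matrix.cons_val', Matrix.cons_val_zero, Matrix.cons_val_one,
      Matrix.cons_val_fin_one, Int.cast_neg]
    linear_combination (-(M 1 0 : ℂ)) * hsq + (M 0 0 : ℂ) * hqdef - hdet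
  have hnum : (M.adjugate 0 0 : ℂ) * s + M.adjugate 0 1 = (M.det : ℂ) / q * τ := by
    rw [div_mul_eq_mul_div, eq_div_iff hq, Matrix.adjugate_fin_two]
    simp only [Matrix.of_apply, Matrix.cons_val', Matrix.cons_val_zero, Matrix.cons_val_one,
      Matrix.cons_val_fin_one, Int.cast_neg]
    linear_combination (M 1 1 : ℂ) * hsq - (M 0 1 : ℂ) * hqdef - (τ : ℂ) * hdet
  have hQ : aeval s (polyTr w M.adjugate P) = ((M.det : ℂ) / q) ^ w * aeval (τ : ℂ) P := by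
    rw [aeval_polyTr_eq w _ hP s (by rw [hden]; exact div_ne_zero hD hq), hden, hnum,
      mul_div_cancel_left₀ _ (div_ne_zero hD hq)]
  rw [hQ] at h1
  refine h1.congr_deriv ?_
  rw [show ((w : ℤ) + 2 - 1) = ((w + 1 : ℕ) : ℤ) by push_cast; ring, zpow_natCast, zpow_neg,
    show ((w : ℤ) + 2) = ((w + 2 : ℕ) : ℤ) by push_cast; ring, zpow_natCast, div_pow]
  clear_value q s
  simp only [pow_succ]
  field_simp

/-- Pulling back along an element of `SL(2, ℤ)`. -/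
theorem IsPrim.compAct_SL {w : ℕ} {f : ℍ → ℂ} {Q : ℤ[X]} {G : ℂ → ℂ} (hQ : Q.natDegree ≤ w)
    (hG : IsPrim f Q G) (α : SL(2, ℤ)) :
    IsPrim (f ∣[((w : ℤ) + 2)] mapGL ℝ α) (polyTr w (α : Matrix (Fin 2) (Fin 2) ℤ) Q)
      (compAct G (mapGL ℝ α)) := by
  intro τ
  have h := intPos_mapGL α
  have h1 := h.hasDerivAt_compAct hG τ
  have hq := denom_ne_zero (mapGL ℝ α) τ
  rw [h.denom_eq] at hq
  rw [h.slash_eq, aeval_polyTr_eq w _ hQ _ hq, ← h.coe_smul]
  refine h1.congr_deriv ?_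
  rw [α.det_coe, show ((w : ℤ) + 2) = ((w + 2 : ℕ) : ℤ) by push_cast; ring, zpow_neg, zpow_natCast]
  simp only [Int.cast_one, one_zpow, mul_one, one_div, pow_add]
  field_simp

lemma IsPrim.add {f f' : ℍ → ℂ} {P : ℤ[X]} {G G' : ℂ → ℂ} (h : IsPrim f P G)
    (h' : IsPrim f' P G') : IsPrim (f + f') P (G + G') := fun τ =>
  ((h τ).add (h' τ)).congr_deriv (by simp [add_mul])

lemma IsPrim.const_mul {f : ℍ → ℂ} {P : ℤ[X]} {G : ℂ → ℂ} (h : IsPrim f P G) (c : ℂ) :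
    IsPrim (c • f) P (fun z => c * G z) := fun τ =>
  ((h τ).const_mul c).congr_deriv (by simp [mul_assoc])

lemma IsPrim.sum {ι : Type*} {s : Finset ι} {f : ι → ℍ → ℂ} {P : ℤ[X]} {G : ι → ℂ → ℂ}
    (h : ∀ i ∈ s, IsPrim (f i) P (G i)) : IsPrim (∑ i ∈ s, f i) P (∑ i ∈ s, G i) := fun τ =>
  (HasDerivAt.sum fun i hi => h i hi τ).congr_deriv (by simp [Finset.sum_mul])

lemma IsPrim.poly_sum {ι : Type*} {s : Finset ι} {f : ℍ → ℂ} {P : ι → ℤ[X]} {c : ι → ℤ}
    {G : ι → ℂ → ℂ} (h : ∀ i ∈ s, IsPrim f (P i) (G i)) :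
    IsPrim f (∑ i ∈ s, c i • P i) (fun z => ∑ i ∈ s, (c i : ℂ) * G i z) := fun τ =>
  (HasDerivAt.fun_sum fun i hi => (h i hi τ).const_mul (c i : ℂ)).congr_deriv (by
    simp only [map_sum, Finset.mul_sum]
    exact Finset.sum_congr rfl fun i _ => by rw [map_zsmul, zsmul_eq_mul]; ring)

lemma IsPrim.eq_add_const {f : ℍ → ℂ} {P : ℤ[X]} {G G' : ℂ → ℂ} (h : IsPrim f P G)
    (h' : IsPrim f P G') : ∃ c : ℂ, ∀ z : ℂ, 0 < z.im → G z = G' z + c :=
  UpperPrimitive.eq_add_const (g := fun z => f (ofComplex z) * aeval z P)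
    (fun z hz => by rw [ofComplex_apply_of_im_pos hz]; exact h ⟨z, hz⟩)
    (fun z hz => by rw [ofComplex_apply_of_im_pos hz]; exact h' ⟨z, hz⟩)

lemma exists_isPrim {f : ℍ → ℂ} (hf : DifferentiableOn ℂ (f ∘ ofComplex) {z : ℂ | 0 < z.im})
    (P : ℤ[X]) : ∃ G : ℂ → ℂ, IsPrim f P G := by
  obtain ⟨G, hG⟩ := UpperPrimitive.exists_primitive
    (g := fun z => (f ∘ ofComplex) z * aeval z P) (hf.mul P.differentiable_aeval.differentiableOn)
  exact ⟨G, fun τ => by simpa [Function.comp_def, ofComplex_apply] using hG τ τ.im_pos⟩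

lemma CuspLim.unique {G : ℂ → ℂ} {g : GL (Fin 2) ℝ} {L L' : ℂ} (h : CuspLim G g L)
    (h' : CuspLim G g L') : L = L' :=
  tendsto_nhds_unique (h 0) (h' 0)

lemma CuspLim.add_const {G G' : ℂ → ℂ} {g : GL (Fin 2) ℝ} {L c : ℂ} (h : CuspLim G' g L)
    (hc : ∀ z : ℂ, 0 < z.im → G z = G' z + c) : CuspLim G g (L + c) := fun x =>
  ((h x).add_const c).congr fun y => (hc _ (g • pt x y).im_pos).symm

lemma CuspLim.add {G G' : ℂ → ℂ} {g : GL (Fin 2) ℝ} {L L' : ℂ} (h : CuspLim G g L)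
    (h' : CuspLim G' g L') : CuspLim (G + G') g (L + L') := fun x => (h x).add (h' x)

lemma CuspLim.const_mul {G : ℂ → ℂ} {g : GL (Fin 2) ℝ} {L : ℂ} (h : CuspLim G g L) (c : ℂ) :
    CuspLim (fun z => c * G z) g (c * L) := fun x => (h x).const_mul c

lemma CuspLim.sum {ι : Type*} {s : Finset ι} {G : ι → ℂ → ℂ} {g : GL (Fin 2) ℝ} {L : ι → ℂ}
    (h : ∀ i ∈ s, CuspLim (G i) g (L i)) : CuspLim (∑ i ∈ s, G i) g (∑ i ∈ s, L i) := fun x => by
  have := tendsto_finsetSum s (fun i hi => h i hi x)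
  simpa [Finset.sum_apply] using this

/-- Limits at cusps transform along the action. -/
lemma CuspLim.compAct {G : ℂ → ℂ} {g' α h u : GL (Fin 2) ℝ} {L : ℂ} (hL : CuspLim G g' L)
    (he : h * α = g' * u) (hu : u 1 0 = 0) (hdet : 0 < (u.det : ℝ)) :
    CuspLim (Periods.compAct G h) α L := by
  intro x
  have hdet' : 0 < u 0 0 * u 1 1 := by
    have : (u.det : ℝ) = u 0 0 * u 1 1 := by
      rw [Matrix.GeneralLinearGroup.val_det_apply, Matrix.det_fin_two, hu]; ring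
    rwa [this] at hdet
  have hd : u 1 1 ≠ 0 := fun h0 => by simp [h0] at hdet'
  have had : 0 < u 0 0 / u 1 1 := by
    have h2 : u 0 0 / u 1 1 = (u 0 0 * u 1 1) / (u 1 1) ^ 2 := by field_simp
    rw [h2]
    have : 0 < (u 1 1) ^ 2 := by positivity
    positivity
  have key : ∀ y : ℝ, 0 < y →
      u • pt x y = pt ((u 0 0 * x + u 0 1) / u 1 1) (u 0 0 / u 1 1 * y) := fun y hy => by
    have hy' : 0 < u 0 0 / u 1 1 * y := mul_pos had hy
    apply UpperHalfPlane.ext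
    rw [coe_smul_of_det_pos hdet, coe_pt hy']
    simp only [num, denom, hu, coe_pt hy, Complex.ofReal_zero, zero_mul, zero_add]
    have hd' : (u 1 1 : ℂ) ≠ 0 := by exact_mod_cast hd
    push_cast
    field_simp
    ring
  have h1 : Tendsto (fun y : ℝ => u 0 0 / u 1 1 * y) atTop atTop :=
    tendsto_id.const_mul_atTop had
  refine ((hL ((u 0 0 * x + u 0 1) / u 1 1)).comp h1).congr' ?_
  filter_upwards [eventually_gt_atTop 0] with y hy
  simp only [Function.comp_apply]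
  rw [compAct_coe, ← mul_smul, he, mul_smul, key y hy]

/-- Exponential decay at infinity. -/
def ExpSmall (h : ℍ → ℂ) : Prop :=
  ∃ c : ℝ, 0 < c ∧ ∃ C A : ℝ, ∀ z : ℍ, A ≤ z.im → ‖h z‖ ≤ C * Real.exp (-c * z.im)

lemma norm_aeval_le (P : ℤ[X]) (z : ℂ) :
    ‖aeval z P‖ ≤ (∑ j ∈ Finset.range (P.natDegree + 1), |(P.coeff j : ℝ)|) *
      (1 + ‖z‖) ^ P.natDegree := by
  rw [aeval_eq_sum_range, Finset.sum_mul]
  refine (norm_sum_le _ _).trans (Finset.sum_le_sum fun j hj => ?_)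
  rw [zsmul_eq_mul, norm_mul, Complex.norm_intCast, norm_pow]
  refine mul_le_mul_of_nonneg_left ?_ (abs_nonneg _)
  have h1 : ‖z‖ ^ j ≤ (1 + ‖z‖) ^ j := pow_le_pow_left₀ (norm_nonneg _) (by linarith) j
  have h2 : (1 + ‖z‖) ^ j ≤ (1 + ‖z‖) ^ P.natDegree :=
    pow_le_pow_right₀ (by linarith [norm_nonneg z])
      (by rw [Finset.mem_range] at hj; omega)
  exact h1.trans h2

lemma ExpSmall.bound_strip {h : ℍ → ℂ} (hh : ExpSmall h) (P : ℤ[X]) :
    ∃ c : ℝ, 0 < c ∧ ∀ R : ℝ, ∃ C A : ℝ, 0 < A ∧ 0 ≤ C ∧ ∀ x y : ℝ, |x| ≤ R → A ≤ y →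
      ‖h (pt x y) * aeval ((pt x y : ℍ) : ℂ) P‖ ≤ C * Real.exp (-c * y) := by
  obtain ⟨c, hc, C₀, A₀, hb⟩ := hh
  refine ⟨c / 2, by positivity, fun R => ?_⟩
  set n := P.natDegree
  set S := ∑ j ∈ Finset.range (n + 1), |(P.coeff j : ℝ)| with hS
  have hS0 : 0 ≤ S := Finset.sum_nonneg fun j _ => abs_nonneg _
  refine ⟨max C₀ 0 * (S * ((n.factorial : ℝ) / (c / 2) ^ n * Real.exp (c / 2 * (1 + R)))),
    max A₀ 1, by positivity, by positivity, fun x y hx hy => ?_⟩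
  have hy1 : 1 ≤ y := (le_max_right _ _).trans hy
  have hy0 : 0 < y := by linarith
  have hR : 0 ≤ R := (abs_nonneg x).trans hx
  have hnorm : 1 + ‖((pt x y : ℍ) : ℂ)‖ ≤ 1 + R + y := by
    rw [coe_pt hy0]
    have := Complex.norm_le_abs_re_add_abs_im ((x : ℂ) + (y : ℂ) * I)
    simp [abs_of_pos hy0] at this
    linarith
  have hP : ‖aeval ((pt x y : ℍ) : ℂ) P‖ ≤ S * (1 + R + y) ^ n :=
    (norm_aeval_le P _).trans
      (mul_le_mul_of_nonneg_left (pow_le_pow_left₀ (by positivity) hnorm n) hS0)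
  have he : (1 + R + y) ^ n ≤
      (n.factorial : ℝ) / (c / 2) ^ n * (Real.exp (c / 2 * (1 + R)) * Real.exp (c / 2 * y)) := by
    have h1 := Real.pow_div_factorial_le_exp (c / 2 * (1 + R + y)) (by positivity) n
    rw [← Real.exp_add, show c / 2 * (1 + R) + c / 2 * y = c / 2 * (1 + R + y) by ring,
      div_mul_eq_mul_div, le_div_iff₀ (by positivity)]
    rw [div_le_iff₀ (by positivity), mul_pow] at h1
    linarith
  have hh' : ‖h (pt x y)‖ ≤ max C₀ 0 * Real.exp (-c * y) := by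
    have h1 := hb (pt x y) (by rw [im_pt hy0]; exact (le_max_left _ _).trans hy)
    rw [im_pt hy0] at h1
    exact h1.trans (mul_le_mul_of_nonneg_right (le_max_left _ _) (Real.exp_nonneg _))
  rw [norm_mul]
  refine (mul_le_mul hh' (hP.trans (mul_le_mul_of_nonneg_left he hS0)) (norm_nonneg _)
    (by positivity)).trans (le_of_eq ?_)
  rw [show -(c / 2) * y = -c * y + c / 2 * y by ring, Real.exp_add]
  ring

lemma hasDerivAt_vertical {G : ℂ → ℂ} {h : ℍ → ℂ} {P : ℤ[X]} (hG : IsPrim h P G) (x : ℝ) {y : ℝ}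
    (hy : 0 < y) :
    HasDerivAt (fun t : ℝ => G ((x : ℂ) + (t : ℂ) * I))
      (h (pt x y) * aeval ((pt x y : ℍ) : ℂ) P * I) y := by
  have h1 : HasDerivAt (fun t : ℝ => (x : ℂ) + (t : ℂ) * I) I y := by
    simpa using (((hasDerivAt_id y).ofReal_comp).mul_const I).const_add (x : ℂ)
  have h2 := hG (pt x y)
  rw [coe_pt hy] at h2 ⊢
  exact h2.comp y h1

lemma integrableOn_vertical {h : ℍ → ℂ} {P : ℤ[X]} (hcont : Continuous h)
    (hh : ExpSmall h) (x : ℝ) {a : ℝ} (ha : 0 < a) :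
    MeasureTheory.IntegrableOn (fun y : ℝ => h (pt x y) * aeval ((pt x y : ℍ) : ℂ) P * I)
      (Set.Ioi a) := by
  obtain ⟨c, hc, hb⟩ := hh.bound_strip P
  obtain ⟨C, A, hA, hC, hb⟩ := hb |x|
  have hcont' : ContinuousOn (fun y : ℝ => h (pt x y) * aeval ((pt x y : ℍ) : ℂ) P * I)
      (Set.Ici a) := by
    have hpt : ContinuousOn (fun y : ℝ => pt x y) (Set.Ici a) := by
      refine fun y hy => ContinuousAt.continuousWithinAt ?_
      have hy0 : 0 < y := ha.trans_le hy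
      exact ((mdifferentiableAt_ofComplex (z := (x : ℂ) + (y : ℂ) * I)
        (by simpa using hy0)).continuousAt).comp'
        (f := fun t : ℝ => (x : ℂ) + (t : ℂ) * I) (by fun_prop)
    exact ((hcont.comp_continuousOn hpt).mul ((P.continuous_aeval).comp_continuousOn
      (continuous_coe.comp_continuousOn hpt))).mul continuousOn_const
  have hint : MeasureTheory.IntegrableOn (fun y : ℝ =>
      ‖h (pt x y) * aeval ((pt x y : ℍ) : ℂ) P * I‖) (Set.Ioi a) := by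
    refine integrable_of_isBigO_exp_neg hc (continuous_norm.comp_continuousOn hcont') ?_
    refine Asymptotics.IsBigO.of_bound C ?_
    filter_upwards [eventually_ge_atTop A] with y hy
    have := hb x y le_rfl hy
    simpa [abs_of_pos (Real.exp_pos _)] using this
  exact (MeasureTheory.integrable_norm_iff
    ((hcont'.mono Set.Ioi_subset_Ici_self).aestronglyMeasurable measurableSet_Ioi)).1 hint

lemma exists_cuspLim_one {G : ℂ → ℂ} {h : ℍ → ℂ} {P : ℤ[X]} (hG : IsPrim h P G)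
    (hcont : Continuous h) (hh : ExpSmall h) : ∃ L : ℂ, CuspLim G 1 L := by
  obtain ⟨c, hc, hb⟩ := hh.bound_strip P
  have hline : ∀ x : ℝ, ∃ L : ℂ, Tendsto (fun y : ℝ => G ((x : ℂ) + (y : ℂ) * I)) atTop (𝓝 L) :=
    fun x => ⟨_, MeasureTheory.tendsto_limUnder_of_hasDerivAt_of_integrableOn_Ioi
      (fun y hy => hasDerivAt_vertical hG x (lt_trans one_pos hy))
      (integrableOn_vertical hcont hh x one_pos)⟩
  choose L hL using hline
  refine ⟨L 0, fun x => ?_⟩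
  obtain ⟨C, A, hA, hC, hb⟩ := hb |x|
  have hdiff : Tendsto (fun y : ℝ => G ((x : ℂ) + (y : ℂ) * I) - G (((0 : ℝ) : ℂ) + (y : ℂ) * I))
      atTop (𝓝 0) := by
    have hexp : Tendsto (fun y : ℝ => C * Real.exp (-c * y) * |x|) atTop (𝓝 0) := by
      have := ((Real.tendsto_exp_neg_atTop_nhds_zero.comp
        (tendsto_id.const_mul_atTop hc)).const_mul C).mul_const |x|
      simpa [Function.comp_def] using this
    refine squeeze_zero_norm' ?_ hexp
    filter_upwards [eventually_ge_atTop A] with y hy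
    have hy0 : 0 < y := hA.trans_le hy
    have hd : ∀ t ∈ Set.uIcc (0 : ℝ) x, HasDerivWithinAt (fun t : ℝ => G ((t : ℂ) + (y : ℂ) * I))
        (h (pt t y) * aeval ((pt t y : ℍ) : ℂ) P) (Set.uIcc (0 : ℝ) x) t := fun t _ => by
      have h1 : HasDerivAt (fun t : ℝ => (t : ℂ) + (y : ℂ) * I) 1 t := by
        simpa using ((hasDerivAt_id t).ofReal_comp).add_const ((y : ℂ) * I)
      have h2 := hG (pt t y)
      rw [coe_pt hy0] at h2 ⊢
      exact ((h2.comp t h1).congr_deriv (mul_one _)).hasDerivWithinAt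
    have hbd : ∀ t ∈ Set.uIcc (0 : ℝ) x, ‖h (pt t y) * aeval ((pt t y : ℍ) : ℂ) P‖ ≤
        C * Real.exp (-c * y) := fun t ht => hb t y (by
          have := Set.abs_sub_left_of_mem_uIcc ht
          simpa using this) hy
    have := (convex_uIcc (0 : ℝ) x).norm_image_sub_le_of_norm_hasDerivWithin_le hd hbd
      Set.left_mem_uIcc Set.right_mem_uIcc
    simpa using this
  have h2 := hdiff.add (hL 0)
  simp only [sub_add_cancel, zero_add] at h2
  refine h2.congr' ?_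
  filter_upwards [eventually_gt_atTop 0] with y hy
  simp [coe_pt hy]

lemma norm_le_of_cuspLim_zero {G : ℂ → ℂ} {h : ℍ → ℂ} {P : ℤ[X]} (hG : IsPrim h P G)
    (hcont : Continuous h) (hh : ExpSmall h) (hL : CuspLim G 1 0) :
    ∃ c : ℝ, 0 < c ∧ ∀ R : ℝ, ∃ C A : ℝ, 0 < A ∧ ∀ x y : ℝ, |x| ≤ R → A ≤ y →
      ‖G ((x : ℂ) + (y : ℂ) * I)‖ ≤ C * Real.exp (-c * y) := by
  obtain ⟨c, hc, hb⟩ := hh.bound_strip P
  refine ⟨c, hc, fun R => ?_⟩
  obtain ⟨C, A, hA, hC, hb⟩ := hb R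
  refine ⟨C / c, A, hA, fun x y hx hy => ?_⟩
  have hy0 : 0 < y := hA.trans_le hy
  have hlim : Tendsto (fun t : ℝ => G ((x : ℂ) + (t : ℂ) * I)) atTop (𝓝 0) := by
    refine (hL x).congr' ?_
    filter_upwards [eventually_gt_atTop 0] with t ht
    simp [coe_pt ht]
  have hint := MeasureTheory.integral_Ioi_of_hasDerivAt_of_tendsto'
    (fun t ht => hasDerivAt_vertical hG x (hy0.trans_le ht))
    (integrableOn_vertical hcont hh x hy0) hlim
  have hnorm : ‖G ((x : ℂ) + (y : ℂ) * I)‖ =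
      ‖∫ t in Set.Ioi y, h (pt x t) * aeval ((pt x t : ℍ) : ℂ) P * I‖ := by
    rw [hint, zero_sub, norm_neg]
  rw [hnorm]
  have hexp : MeasureTheory.IntegrableOn (fun t : ℝ => C * Real.exp (-c * t)) (Set.Ioi y) :=
    (exp_neg_integrableOn_Ioi y hc).const_mul C
  refine (MeasureTheory.norm_integral_le_of_norm_le hexp ?_).trans (le_of_eq ?_)
  · refine (MeasureTheory.ae_restrict_mem measurableSet_Ioi).mono fun t ht => ?_
    have := hb x t hx (hy.trans (le_of_lt ht))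
    simpa using this
  · rw [MeasureTheory.integral_const_mul, integral_exp_mul_Ioi (by linarith) y]
    field_simp

end Fermat.Agent.MF.Periods
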