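import Mathlib.LinearAlgebra.Matrix.FixedDetMatrices
import Mathlib.RingTheory.Finiteness.Basic
import Fermat.Agent.MF.PeriodLimit

/-!
The period lattice of `S_{w+2}(Γ)`: the `ℤ`-span of the functionals
`f ↦ ∫_{α∞}^{β∞} f(z) P(z) dz`, for integral `P` of degree at most `w`. It is finitely generated
and stable under composition with sums of slashes by integral matrices of positive determinant.
-/

set_option autoImplicit false

noncomputable section

namespace Fermat.Agent.MF.Periods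

open UpperHalfPlane hiding I
open Complex Filter Topology Function Polynomial
open Matrix.SpecialLinearGroup
open Fermat.Agent.MF.PeriodPoly
open scoped MatrixGroups ModularForm Real

variable {Γ : Subgroup SL(2, ℤ)} {w : ℕ}

lemma slash_mapGL_of_mem {F : Type*} [FunLike F ℍ ℂ] {k : ℤ}
    [SlashInvariantFormClass F (Γ : Subgroup (GL (Fin 2) ℝ)) k]
    (f : F) {γ : SL(2, ℤ)} (hγ : γ ∈ Γ) : (⇑f) ∣[k] mapGL ℝ γ = ⇑f :=
  SlashInvariantFormClass.slash_action_eq f _ ⟨γ, hγ, rfl⟩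

variable [Γ.FiniteIndex]

lemma exists_period_pos (α : SL(2, ℤ)) :
    ∃ n : ℕ, 0 < n ∧ α * ModularGroup.T ^ (n : ℤ) * α⁻¹ ∈ Γ := by
  obtain ⟨n, hn, -, hmem⟩ := Subgroup.exists_pow_mem_of_index_ne_zero
    (Subgroup.FiniteIndex.index_ne_zero (H := Γ)) (α * ModularGroup.T * α⁻¹)
  refine ⟨n, hn, ?_⟩
  rwa [conj_pow, ← zpow_natCast] at hmem

lemma periodic_slash {k : ℤ} (f : CuspForm (Γ : Subgroup (GL (Fin 2) ℝ)) k) (α : SL(2, ℤ)) :
    ∃ n : ℕ, 0 < n ∧
      Periodic (((⇑f) ∣[k] mapGL ℝ α) ∘ ofComplex) ((n : ℝ) : ℂ) := by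
  obtain ⟨n, hn, hmem⟩ := exists_period_pos (Γ := Γ) α
  refine ⟨n, hn, ?_⟩
  have h2 : ((⇑f) ∣[k] mapGL ℝ α) ∣[k] mapGL ℝ (ModularGroup.T ^ (n : ℤ)) =
      (⇑f) ∣[k] mapGL ℝ α := by
    rw [← SlashAction.slash_mul, ← map_mul,
      show α * ModularGroup.T ^ (n : ℤ) = α * ModularGroup.T ^ (n : ℤ) * α⁻¹ * α by group,
      map_mul, SlashAction.slash_mul, slash_mapGL_of_mem f hmem]
  intro z
  have him : (z + ((n : ℝ) : ℂ)).im = z.im := by simp
  rcases lt_or_ge 0 z.im with hz | hz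
  · have hz' : 0 < (z + ((n : ℝ) : ℂ)).im := by rwa [him]
    simp only [comp_apply, ofComplex_apply_of_im_pos hz, ofComplex_apply_of_im_pos hz']
    have h3 := congrFun h2 ⟨z, hz⟩
    rw [(intPos_mapGL _).slash_eq, ModularGroup.coe_T_zpow] at h3
    simp only [Matrix.det_fin_two_of, mul_one, mul_zero, sub_zero, Int.cast_one, one_zpow,
      Matrix.of_apply, Matrix.cons_val', Matrix.cons_val_zero, Matrix.cons_val_one,
      Matrix.cons_val_fin_one, Int.cast_zero, zero_mul, zero_add] at h3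
    refine Eq.trans (congrArg _ ?_) h3
    apply UpperHalfPlane.ext
    rw [(intPos_mapGL _).coe_smul, ModularGroup.coe_T_zpow]
    simp
  · simp only [comp_apply, ofComplex_apply_of_im_nonpos hz,
      ofComplex_apply_of_im_nonpos (show (z + ((n : ℝ) : ℂ)).im ≤ 0 by rwa [him])]

lemma slash_isZeroAtImInfty {k : ℤ} (f : CuspForm (Γ : Subgroup (GL (Fin 2) ℝ)) k)
    (α : SL(2, ℤ)) : IsZeroAtImInfty ((⇑f) ∣[k] mapGL ℝ α) := by
  have hc : IsCusp ((mapGL ℝ α) • OnePoint.infty) (Γ : Subgroup (GL (Fin 2) ℝ)) :=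
    (Subgroup.IsArithmetic.isCusp_iff_isCusp_SL2Z _).mpr (isCusp_SL2Z_iff'.mpr ⟨α, rfl⟩)
  exact OnePoint.isZeroAt_iff rfl |>.mp (CuspFormClass.zero_at_cusps f hc)

lemma expSmall_slash {k : ℤ} (f : CuspForm (Γ : Subgroup (GL (Fin 2) ℝ)) k) (α : SL(2, ℤ)) :
    ExpSmall ((⇑f) ∣[k] mapGL ℝ α) := by
  obtain ⟨n, hn, hper⟩ := periodic_slash f α
  have hn' : (0 : ℝ) < n := by exact_mod_cast hn
  have h0 := slash_isZeroAtImInfty f α
  have h := h0.exp_decay_atImInfty hn' hper ((CuspFormClass.holo f).slash k _)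
    (ZeroAtFilter.boundedAtFilter h0)
  obtain ⟨C, hC⟩ := h.bound
  obtain ⟨A, hA⟩ := (atImInfty_mem _).mp hC
  refine ⟨2 * π / n, by positivity, C, A, fun z hz => ?_⟩
  have := hA z hz
  simp only [Set.mem_ofPred_eq, Real.norm_eq_abs, abs_of_pos (Real.exp_pos _)] at this
  refine this.trans (le_of_eq ?_)
  ring_nf

lemma continuous_slash {k : ℤ} (f : CuspForm (Γ : Subgroup (GL (Fin 2) ℝ)) k) (α : SL(2, ℤ)) :
    Continuous ((⇑f) ∣[k] mapGL ℝ α) :=
  ((CuspFormClass.holo f).slash k _).continuous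

lemma exists_prim {k : ℤ} (f : CuspForm (Γ : Subgroup (GL (Fin 2) ℝ)) k) (P : ℤ[X]) :
    ∃ G : ℂ → ℂ, IsPrim (⇑f) P G :=
  exists_isPrim (UpperHalfPlane.mdifferentiable_iff.mp (CuspFormClass.holo f)) P

/-- Primitives of `f P` have limits at every cusp. -/
lemma exists_cuspLim (f : CuspForm (Γ : Subgroup (GL (Fin 2) ℝ)) ((w : ℤ) + 2)) {P : ℤ[X]}
    (hP : P.natDegree ≤ w) {G : ℂ → ℂ} (hG : IsPrim (⇑f) P G) (α : SL(2, ℤ)) :
    ∃ L : ℂ, CuspLim G (mapGL ℝ α) L := by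
  obtain ⟨L, hL⟩ := exists_cuspLim_one (hG.compAct_SL hP α) (continuous_slash f α)
    (expSmall_slash f α)
  refine ⟨L, fun x => (hL x).congr fun y => ?_⟩
  rw [one_smul, compAct_coe]

open Classical in
/-- A choice of limit at the cusp `g∞`. -/
def cuspValue (G : ℂ → ℂ) (g : GL (Fin 2) ℝ) : ℂ :=
  limUnder atTop (fun y : ℝ => G ((g • pt 0 y : ℍ) : ℂ))

lemma cuspValue_eq {G : ℂ → ℂ} {g : GL (Fin 2) ℝ} {L : ℂ} (h : CuspLim G g L) :
    cuspValue G g = L :=
  (h 0).limUnder_eq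

/-- `∫_{β∞}^{α∞} f(z) P(z) dz`. -/
def periodVal (f : CuspForm (Γ : Subgroup (GL (Fin 2) ℝ)) ((w : ℤ) + 2)) (P : ℤ[X])
    (α β : SL(2, ℤ)) : ℂ :=
  cuspValue (exists_prim f P).choose (mapGL ℝ α) - cuspValue (exists_prim f P).choose (mapGL ℝ β)

lemma periodVal_eq {f : CuspForm (Γ : Subgroup (GL (Fin 2) ℝ)) ((w : ℤ) + 2)} {P : ℤ[X]}
    {α β : SL(2, ℤ)} {G : ℂ → ℂ} {L L' : ℂ} (hG : IsPrim (⇑f) P G)
    (hL : CuspLim G (mapGL ℝ α) L) (hL' : CuspLim G (mapGL ℝ β) L') :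
    periodVal f P α β = L - L' := by
  obtain ⟨c, hc⟩ := (exists_prim f P).choose_spec.eq_add_const hG
  rw [periodVal, cuspValue_eq (hL.add_const hc), cuspValue_eq (hL'.add_const hc)]
  ring

/-- Period functionals. -/
def periodFun (P : ℤ[X]) (hP : P.natDegree ≤ w) (α β : SL(2, ℤ)) :
    CuspForm (Γ : Subgroup (GL (Fin 2) ℝ)) ((w : ℤ) + 2) →ₗ[ℂ] ℂ where
  toFun f := periodVal f P α β
  map_add' f g := by
    obtain ⟨G, hG⟩ := exists_prim f P
    obtain ⟨G', hG'⟩ := exists_prim g P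
    obtain ⟨a, ha⟩ := exists_cuspLim f hP hG α
    obtain ⟨b, hb⟩ := exists_cuspLim f hP hG β
    obtain ⟨a', ha'⟩ := exists_cuspLim g hP hG' α
    obtain ⟨b', hb'⟩ := exists_cuspLim g hP hG' β
    have h : IsPrim (⇑(f + g)) P (G + G') := hG.add hG'
    rw [periodVal_eq h (ha.add ha') (hb.add hb'), periodVal_eq hG ha hb, periodVal_eq hG' ha' hb']
    ring
  map_smul' c f := by
    obtain ⟨G, hG⟩ := exists_prim f P
    obtain ⟨a, ha⟩ := exists_cuspLim f hP hG α
    obtain ⟨b, hb⟩ := exists_cuspLim f hP hG β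
    have h : IsPrim (⇑(c • f)) P (fun z => c * G z) := by
      rw [CuspForm.IsGLPos.coe_smul]
      exact hG.const_mul c
    rw [periodVal_eq h (ha.const_mul c) (hb.const_mul c), periodVal_eq hG ha hb,
      RingHom.id_apply, smul_eq_mul]
    ring

lemma periodFun_eq {f : CuspForm (Γ : Subgroup (GL (Fin 2) ℝ)) ((w : ℤ) + 2)} {P : ℤ[X]}
    (hP : P.natDegree ≤ w) {α β : SL(2, ℤ)} {G : ℂ → ℂ} {L L' : ℂ} (hG : IsPrim (⇑f) P G)
    (hL : CuspLim G (mapGL ℝ α) L) (hL' : CuspLim G (mapGL ℝ β) L') :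
    periodFun P hP α β f = L - L' :=
  periodVal_eq hG hL hL'

variable (Γ w) in
/-- The period lattice inside the dual of the space of cusp forms. -/
def periodLattice :
    Submodule ℤ (CuspForm (Γ : Subgroup (GL (Fin 2) ℝ)) ((w : ℤ) + 2) →ₗ[ℂ] ℂ) :=
  Submodule.span ℤ
    {φ | ∃ (P : ℤ[X]) (hP : P.natDegree ≤ w) (α β : SL(2, ℤ)), φ = periodFun P hP α β}

lemma periodFun_mem_periodLattice (P : ℤ[X]) (hP : P.natDegree ≤ w) (α β : SL(2, ℤ)) :
    periodFun (Γ := Γ) P hP α β ∈ periodLattice Γ w :=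
  Submodule.subset_span ⟨P, hP, α, β, rfl⟩

lemma periodFun_sum {ι : Type*} {s : Finset ι} {P : ι → ℤ[X]} (c : ι → ℤ)
    (hP : ∀ i ∈ s, (P i).natDegree ≤ w) (α β : SL(2, ℤ)) {Q : ℤ[X]} (hQ : Q.natDegree ≤ w)
    (hQ' : Q = ∑ i ∈ s, c i • P i) :
    periodFun (Γ := Γ) Q hQ α β = ∑ i : {i // i ∈ s}, c i.1 • periodFun (P i.1) (hP i.1 i.2) α β := by
  subst hQ'
  refine LinearMap.ext fun f => ?_
  choose G hG using fun i => exists_prim f (P i)
  have hmain : IsPrim (⇑f) (∑ i ∈ s, c i • P i) (fun z => ∑ i ∈ s, (c i : ℂ) * G i z) :=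
    IsPrim.poly_sum fun i _ => hG i
  choose a ha using fun i : {i // i ∈ s} => exists_cuspLim f (hP i.1 i.2) (hG i.1) α
  choose b hb using fun i : {i // i ∈ s} => exists_cuspLim f (hP i.1 i.2) (hG i.1) β
  have hfn : (fun z => ∑ i ∈ s, (c i : ℂ) * G i z) =
      ∑ i : {i // i ∈ s}, fun z => (c i.1 : ℂ) * G i.1 z := by
    funext z
    rw [Finset.sum_apply]
    exact (Finset.sum_coe_sort s fun i => (c i : ℂ) * G i z).symm
  rw [periodFun_eq hQ hmain (hfn ▸ CuspLim.sum fun i _ => (ha i).const_mul _)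
    (hfn ▸ CuspLim.sum fun i _ => (hb i).const_mul _), ← Finset.sum_sub_distrib]
  simp only [LinearMap.coe_sum, Finset.sum_apply, LinearMap.smul_apply, zsmul_eq_mul]
  exact Finset.sum_congr rfl fun i _ => by rw [periodFun_eq _ (hG i.1) (ha i) (hb i)]; ring

lemma periodFun_add_periodFun (P : ℤ[X]) (hP : P.natDegree ≤ w) (α β γ : SL(2, ℤ)) :
    periodFun (Γ := Γ) P hP α β + periodFun P hP β γ = periodFun P hP α γ := by
  refine LinearMap.ext fun f => ?_
  obtain ⟨G, hG⟩ := exists_prim f P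
  obtain ⟨a, ha⟩ := exists_cuspLim f hP hG α
  obtain ⟨b, hb⟩ := exists_cuspLim f hP hG β
  obtain ⟨c, hc⟩ := exists_cuspLim f hP hG γ
  rw [LinearMap.add_apply, periodFun_eq hP hG ha hb, periodFun_eq hP hG hb hc,
    periodFun_eq hP hG ha hc]
  ring

lemma periodFun_eq_zero (P : ℤ[X]) (hP : P.natDegree ≤ w) {α β : SL(2, ℤ)} {u : GL (Fin 2) ℝ}
    (he : mapGL ℝ α = mapGL ℝ β * u) (hu : u 1 0 = 0) (hdet : 0 < (u.det : ℝ)) :
    periodFun (Γ := Γ) P hP α β = 0 := by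
  refine LinearMap.ext fun f => ?_
  obtain ⟨G, hG⟩ := exists_prim f P
  obtain ⟨b, hb⟩ := exists_cuspLim f hP hG β
  have h : CuspLim G (mapGL ℝ α) b := fun x =>
    ((hb.compAct (h := 1) (α := mapGL ℝ α) (u := u) (by rw [one_mul, he]) hu hdet) x).congr
      fun y => by rw [compAct_coe, one_smul]
  rw [periodFun_eq hP hG h hb, sub_self, LinearMap.zero_apply]

lemma periodFun_mul_left (P : ℤ[X]) (hP : P.natDegree ≤ w) {γ : SL(2, ℤ)} (hγ : γ ∈ Γ)
    (α β : SL(2, ℤ)) :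
    periodFun (Γ := Γ) P hP (γ * α) (γ * β) =
      periodFun (polyTr w (γ : Matrix (Fin 2) (Fin 2) ℤ) P) (natDegree_polyTr_le _ _ _) α β := by
  refine LinearMap.ext fun f => ?_
  obtain ⟨G, hG⟩ := exists_prim f P
  obtain ⟨a, ha⟩ := exists_cuspLim f hP hG (γ * α)
  obtain ⟨b, hb⟩ := exists_cuspLim f hP hG (γ * β)
  have h := hG.compAct_SL hP γ
  rw [slash_mapGL_of_mem f hγ] at h
  rw [periodFun_eq hP hG ha hb, periodFun_eq _ h
    (ha.compAct (u := 1) (by rw [mul_one, map_mul]) (by simp) (by simp))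
    (hb.compAct (u := 1) (by rw [mul_one, map_mul]) (by simp) (by simp))]

/-! ### Finite generation -/

/-- Representatives of the finitely many generators. -/
def periodGen (i : (SL(2, ℤ) ⧸ Γ) × Fin (w + 1)) :
    CuspForm (Γ : Subgroup (GL (Fin 2) ℝ)) ((w : ℤ) + 2) →ₗ[ℂ] ℂ :=
  periodFun (X ^ (i.2 : ℕ)) ((natDegree_X_pow_le _).trans (Nat.lt_succ_iff.mp i.2.2))
    (i.1.out⁻¹ * ModularGroup.S) i.1.out⁻¹

lemma periodFun_S_mem_span (P : ℤ[X]) (hP : P.natDegree ≤ w) (α : SL(2, ℤ)) :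
    periodFun (Γ := Γ) P hP (α * ModularGroup.S) α ∈
      Submodule.span ℤ (Set.range (periodGen (Γ := Γ) (w := w))) := by
  obtain ⟨γ, hγ⟩ := QuotientGroup.mk_out_eq_mul Γ α⁻¹
  set r := ((α⁻¹ : SL(2, ℤ)) : SL(2, ℤ) ⧸ Γ).out⁻¹ with hr
  have hα : α = (γ : SL(2, ℤ)) * r := by rw [hr, hγ]; group
  have e : periodFun (Γ := Γ) P hP (α * ModularGroup.S) α =
      periodFun (polyTr w ((γ : SL(2, ℤ)) : Matrix (Fin 2) (Fin 2) ℤ) P)
        (natDegree_polyTr_le _ _ _) (r * ModularGroup.S) r := by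
    rw [← periodFun_mul_left P hP γ.2]
    congr 1 <;> rw [hα, ← mul_assoc]
  obtain ⟨Q, hQ⟩ : ∃ Q, Q = polyTr w ((γ : SL(2, ℤ)) : Matrix (Fin 2) (Fin 2) ℤ) P := ⟨_, rfl⟩
  have hQd : Q.natDegree ≤ w := hQ ▸ natDegree_polyTr_le _ _ _
  rw [e, periodFun_sum (s := Finset.range (w + 1)) (P := fun j => X ^ j) (fun j => Q.coeff j)
    (fun j hj => (natDegree_X_pow_le _).trans (Nat.lt_succ_iff.mp (Finset.mem_range.mp hj))) _ _ _
    (by
      rw [← hQ]
      conv_lhs => rw [Q.as_sum_range' (w + 1) (Nat.lt_succ_of_le hQd)]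
      simp [← smul_X_eq_monomial, zsmul_eq_mul, ← C_mul_X_pow_eq_monomial])]
  refine Submodule.sum_mem _ fun j _ => Submodule.smul_mem _ _ (Submodule.subset_span ?_)
  exact ⟨(((α⁻¹ : SL(2, ℤ)) : SL(2, ℤ) ⧸ Γ), ⟨j.1, Finset.mem_range.mp j.2⟩), rfl⟩

lemma periodFun_one_mem_span (P : ℤ[X]) (hP : P.natDegree ≤ w) (α : SL(2, ℤ)) :
    periodFun (Γ := Γ) P hP α 1 ∈
      Submodule.span ℤ (Set.range (periodGen (Γ := Γ) (w := w))) := by
  have hmem : α ∈ Subgroup.closure ({ModularGroup.S, ModularGroup.T} : Set SL(2, ℤ)) := by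
    rw [SpecialLinearGroup.SL2Z_generators]; trivial
  have hstep : ∀ (x : SL(2, ℤ)) (u : SL(2, ℤ)), u 1 0 = 0 →
      periodFun (Γ := Γ) P hP (x * u) x = 0 := fun x u hu =>
    periodFun_eq_zero P hP (u := mapGL ℝ u) (map_mul _ _ _) (by simp [hu]) (by simp)
  induction hmem using Subgroup.closure_induction_right with
  | one =>
    rw [periodFun_eq_zero P hP (u := 1) (by rw [mul_one]) (by simp) (by simp)]
    exact Submodule.zero_mem _
  | mul_right x _ y hy ih =>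
    rw [← periodFun_add_periodFun P hP (x * y) x 1]
    refine add_mem ?_ ih
    rcases hy with rfl | rfl
    · exact periodFun_S_mem_span P hP x
    · rw [hstep x _ (by simp [ModularGroup.coe_T])]
      exact Submodule.zero_mem _
  | mul_inv_cancel x _ y hy ih =>
    rw [← periodFun_add_periodFun P hP (x * y⁻¹) x 1]
    refine add_mem ?_ ih
    rcases hy with rfl | rfl
    · rw [← periodFun_add_periodFun P hP (x * ModularGroup.S⁻¹) (x * ModularGroup.S) x]
      refine add_mem ?_ (periodFun_S_mem_span P hP x)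
      have hS : ModularGroup.S⁻¹ = ModularGroup.S * (-1 : SL(2, ℤ)) := by
        rw [mul_neg, mul_one, inv_eq_iff_mul_eq_one]
        ext i j
        fin_cases i <;> fin_cases j <;> simp [ModularGroup.coe_S]
      rw [hS, ← mul_assoc, hstep _ _ (by simp)]
      exact Submodule.zero_mem _
    · rw [hstep x _ (by simp [ModularGroup.coe_T_inv])]
      exact Submodule.zero_mem _

variable (Γ w) in
/-- **The period lattice is finitely generated.** -/
theorem periodLattice_fg : (periodLattice Γ w).FG := by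
  have : Finite (SL(2, ℤ) ⧸ Γ) := Subgroup.finite_quotient_of_finiteIndex
  have h : periodLattice Γ w = Submodule.span ℤ (Set.range (periodGen (Γ := Γ) (w := w))) := by
    refine le_antisymm (Submodule.span_le.mpr ?_) (Submodule.span_le.mpr ?_)
    · rintro φ ⟨P, hP, α, β, rfl⟩
      rw [← add_sub_cancel_right (periodFun (Γ := Γ) P hP α β) (periodFun P hP β 1),
        periodFun_add_periodFun]
      exact sub_mem (periodFun_one_mem_span P hP α) (periodFun_one_mem_span P hP β)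
    · rintro φ ⟨i, rfl⟩
      exact periodFun_mem_periodLattice _ _ _ _
  rw [h]
  exact Submodule.fg_span (Set.finite_range _)

/-! ### Stability under integral slashes -/

lemma exists_upperTriangular {g : GL (Fin 2) ℝ} {M : Matrix (Fin 2) (Fin 2) ℤ} (h : IntPos g M) :
    ∃ (α : SL(2, ℤ)) (u : GL (Fin 2) ℝ), g = mapGL ℝ α * u ∧ u 1 0 = 0 ∧ 0 < (u.det : ℝ) := by
  have hne : ¬ (M 0 0 = 0 ∧ M 1 0 = 0) := fun ⟨h0, h1⟩ => by
    have := h.2; rw [Matrix.det_fin_two, h0, h1] at this; simp at this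
  have hgcd : 0 < Int.gcd (M 0 0) (M 1 0) :=
    Nat.pos_of_ne_zero fun h0 => hne (Int.gcd_eq_zero_iff.mp h0)
  obtain ⟨a', b', hco, ha, hc⟩ := Int.exists_gcd_one hgcd
  obtain ⟨α, hα0, hα1⟩ := (Int.isCoprime_iff_gcd_eq_one.mpr hco).exists_SL2_col 0
  refine ⟨α, (mapGL ℝ α)⁻¹ * g, by group, ?_, ?_⟩
  · have hi := (intPos_mapGL α⁻¹).mul h
    rw [map_inv] at hi
    rw [hi.apply_eq, Matrix.SpecialLinearGroup.coe_inv, Matrix.adjugate_fin_two, Matrix.mul_apply,
      Fin.sum_univ_two]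
    simp only [Matrix.of_apply, Matrix.cons_val', Matrix.cons_val_zero, Matrix.cons_val_one,
      Matrix.cons_val_fin_one, hα0, hα1]
    generalize (Int.gcd (M 0 0) (M 1 0) : ℤ) = dd at ha hc
    rw [ha, hc]
    push_cast
    ring
  · rw [map_mul, Units.val_mul]
    have := h.det_pos
    simpa using this

/-- Precomposing with a linear map given by a sum of slashes by integral matrices of positive
determinant preserves the period lattice. -/
theorem comp_mem_periodLattice {ι : Type*} (s : Finset ι) (g : ι → GL (Fin 2) ℝ)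
    (M : ι → Matrix (Fin 2) (Fin 2) ℤ) (hgM : ∀ i ∈ s, IntPos (g i) (M i))
    (t : CuspForm (Γ : Subgroup (GL (Fin 2) ℝ)) ((w : ℤ) + 2) →ₗ[ℂ]
      CuspForm (Γ : Subgroup (GL (Fin 2) ℝ)) ((w : ℤ) + 2))
    (ht : ∀ f, ⇑(t f) = ∑ i ∈ s, (⇑f) ∣[((w : ℤ) + 2)] g i)
    {φ : CuspForm (Γ : Subgroup (GL (Fin 2) ℝ)) ((w : ℤ) + 2) →ₗ[ℂ] ℂ}
    (hφ : φ ∈ periodLattice Γ w) : φ.comp t ∈ periodLattice Γ w := by
  induction hφ using Submodule.span_induction with
  | zero => simp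
  | add x y _ _ hx hy => simpa [LinearMap.add_comp] using add_mem hx hy
  | smul c x _ hx =>
    have : (c • x).comp t = c • x.comp t := LinearMap.ext fun f => rfl
    rw [this]; exact Submodule.smul_mem _ c hx
  | mem φ hφ =>
    obtain ⟨P, hP, α, β, rfl⟩ := hφ
    choose A uA hA hA0 hA1 using fun i : {i // i ∈ s} =>
      exists_upperTriangular ((hgM i.1 i.2).mul (intPos_mapGL α))
    choose B uB hB hB0 hB1 using fun i : {i // i ∈ s} =>
      exists_upperTriangular ((hgM i.1 i.2).mul (intPos_mapGL β))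
    have key : (periodFun P hP α β).comp t = ∑ i : {i // i ∈ s},
        periodFun (polyTr w (M i.1).adjugate P) (natDegree_polyTr_le _ _ _) (A i) (B i) := by
      refine LinearMap.ext fun f => ?_
      choose G hG using fun i : {i // i ∈ s} => exists_prim f (polyTr w (M i.1).adjugate P)
      choose a ha using fun i : {i // i ∈ s} =>
        exists_cuspLim f (natDegree_polyTr_le _ _ _) (hG i) (A i)
      choose b hb using fun i : {i // i ∈ s} =>
        exists_cuspLim f (natDegree_polyTr_le _ _ _) (hG i) (B i)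
      have hmain : IsPrim (⇑(t f)) P (∑ i : {i // i ∈ s}, compAct (G i) (g i.1)) := by
        rw [ht f, ← Finset.sum_coe_sort s fun i => (⇑f) ∣[((w : ℤ) + 2)] g i]
        exact IsPrim.sum fun i _ => (hG i).compAct_adjugate (hgM i.1 i.2) hP
      rw [LinearMap.comp_apply, periodFun_eq hP hmain
        (CuspLim.sum fun i _ => (ha i).compAct (hA i) (hA0 i) (hA1 i))
        (CuspLim.sum fun i _ => (hb i).compAct (hB i) (hB0 i) (hB1 i)), ← Finset.sum_sub_distrib]
      simp only [LinearMap.coe_sum, Finset.sum_apply]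
      exact Finset.sum_congr rfl fun i _ => (periodFun_eq _ (hG i) (ha i) (hb i)).symm
    rw [key]
    exact Submodule.sum_mem _ fun i _ => periodFun_mem_periodLattice _ _ _ _

end Fermat.Agent.MF.Periods
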