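import Fermat.Agent.MF.Primitive

/-!
Periods vanish on parabolic elements.
-/

set_option autoImplicit false

noncomputable section

namespace Fermat.Agent.MF.Prim

open UpperHalfPlane hiding I
open Complex Filter Topology Function CongruenceSubgroup ModularCurve
open Matrix.SpecialLinearGroup
open scoped MatrixGroups ModularForm Manifold

theorem smul_T_zpow_tendsto (m : ℤ) :
    Tendsto (fun w : ℍ => ModularGroup.T ^ m • w) atImInfty atImInfty := by
  simp only [atImInfty, tendsto_comap_iff, comp_def, ModularGroup.im_T_zpow_smul]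
  exact tendsto_comap

/-- An element of trace `±2` acts as a conjugate of a translation. -/
theorem exists_conj_T_zpow (γ : SL(2, ℤ))
    (hγ : (γ : Matrix (Fin 2) (Fin 2) ℤ).trace ^ 2 = 4) :
    ∃ (δ : SL(2, ℤ)) (m : ℤ), ∀ w : ℍ, γ • δ • w = δ • ModularGroup.T ^ m • w := by
  suffices ∃ δ : SL(2, ℤ), (δ⁻¹ * γ * δ) 1 0 = 0 by
    obtain ⟨δ, hδ⟩ := this
    obtain ⟨m, hm⟩ := ModularGroup.exists_eq_T_zpow_of_c_eq_zero hδ
    refine ⟨δ, m, fun w => ?_⟩
    rw [← hm w, smul_smul, smul_smul]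
    group
  by_cases hc : γ 1 0 = 0
  · exact ⟨1, by simpa using hc⟩
  rw [Matrix.trace_fin_two] at hγ
  obtain ⟨e, he, htr⟩ : ∃ e : ℤ, e * e = 1 ∧ γ 0 0 + γ 1 1 = 2 * e := by
    have h4 : (γ 0 0 + γ 1 1 - 2) * (γ 0 0 + γ 1 1 + 2) = 0 := by linear_combination hγ
    rcases mul_eq_zero.mp h4 with h | h
    · exact ⟨1, one_mul 1, by linear_combination h⟩
    · exact ⟨-1, by norm_num, by linear_combination h⟩
  obtain ⟨p, hp⟩ := Int.gcd_dvd_left (a := e - γ 1 1) (b := γ 1 0)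
  obtain ⟨r, hr⟩ := Int.gcd_dvd_right (a := e - γ 1 1) (b := γ 1 0)
  have hg : ((Int.gcd (e - γ 1 1) (γ 1 0) : ℕ) : ℤ) ≠ 0 := by
    intro h
    rw [h, zero_mul] at hr
    exact hc hr
  have hcop : IsCoprime p r := by
    obtain ⟨x, y, hxy⟩ : ∃ x y : ℤ, x * (e - γ 1 1) + y * γ 1 0 =
        ((Int.gcd (e - γ 1 1) (γ 1 0) : ℕ) : ℤ) :=
      ⟨Int.gcdA _ _, Int.gcdB _ _, by rw [Int.gcd_eq_gcd_ab]; ring⟩
    refine ⟨x, y, mul_left_cancel₀ hg ?_⟩
    linear_combination hxy - x * hp - y * hr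
  obtain ⟨δ, hδ0, hδ1⟩ := hcop.exists_SL2_col 0
  refine ⟨δ, mul_left_cancel₀ (mul_ne_zero hg hg) ?_⟩
  have hdet : γ 0 0 * γ 1 1 - γ 0 1 * γ 1 0 = 1 := by
    have := γ.det_coe
    rwa [Matrix.det_fin_two] at this
  rw [mul_zero, coe_mul, coe_mul, coe_inv, Matrix.adjugate_fin_two]
  simp only [Matrix.mul_apply, Fin.sum_univ_two]
  simp only [Matrix.of_apply, Matrix.cons_val', Matrix.cons_val_zero, Matrix.cons_val_one,
    Matrix.empty_val', Matrix.cons_val_fin_one]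
  rw [hδ0, hδ1]
  generalize ((Int.gcd (e - γ 1 1) (γ 1 0) : ℕ) : ℤ) = g at *
  have h1 : g * (g * ((-r * γ 0 0 + p * γ 1 0) * p + (-r * γ 0 1 + p * γ 1 1) * r)) =
      -γ 1 0 * γ 0 0 * (e - γ 1 1) + γ 1 0 * (e - γ 1 1) ^ 2 - γ 1 0 ^ 2 * γ 0 1
        + γ 1 1 * (e - γ 1 1) * γ 1 0 := by
    rw [hr, hp]; ring
  linear_combination h1 + γ 1 0 * hdet - γ 1 0 * he - γ 1 0 * e * htr

theorem conj_T_zpow_trace (δ : SL(2, ℤ)) (m : ℤ) :
    ((δ * ModularGroup.T ^ m * δ⁻¹ : SL(2, ℤ)) : Matrix (Fin 2) (Fin 2) ℤ).trace = 2 := by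
  rw [coe_mul, coe_mul, Matrix.trace_mul_comm, ← Matrix.mul_assoc, ← coe_mul, inv_mul_cancel,
    coe_one, one_mul, ModularGroup.coe_T_zpow, Matrix.trace_fin_two]
  simp

variable (N : ℕ) [NeZero N]

theorem periodMap_mem_parabolicHoms (f : CuspForm (Gamma0 N) 2) :
    periodMap N f ∈ Period.parabolicHoms ℂ (Gamma0 N) ℂ := by
  rw [Period.mem_parabolicHoms_iff]
  intro γ hγ
  obtain ⟨δ, m, hm⟩ := exists_conj_T_zpow _ hγ
  obtain ⟨L, hL, -⟩ := prim_cusp N f δ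
  have h2 := (hL.comp (smul_T_zpow_tendsto m)).sub hL
  have hconst : (fun w : ℍ => ((fun w => prim N f (δ • w)) ∘ fun w : ℍ =>
      ModularGroup.T ^ m • w) w - prim N f (δ • w)) =
      fun _ => periodMap N f (Additive.ofMul γ) := funext fun w => by
    rw [periodMap_eq N f γ (δ • w), hm w]
    rfl
  rw [hconst, sub_self, tendsto_const_nhds_iff] at h2
  exact h2

theorem range_periodHomPair_le :
    LinearMap.range (periodHomPair N) ≤ Period.parabolicHoms ℂ (Gamma0 N) ℂ := by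
  obtain ⟨pml, hp, he⟩ := periodHomPair_def N (existsPeriodMapLinear N)
  have hmem : ∀ f, pml f ∈ Period.parabolicHoms ℂ (Gamma0 N) ℂ := fun f =>
    hp f ▸ periodMap_mem_parabolicHoms N f
  rintro _ ⟨⟨f, g⟩, rfl⟩
  rw [he]
  simp only [LinearMap.coprod_apply, LinearMap.comp_apply, LinearMap.add_apply,
    LinearMap.sub_apply, LinearMap.id_apply]
  exact add_mem
    (add_mem (hmem f) (Period.charInvolution_mem_parabolicHoms N ℂ ℂ (hmem f)))
    (sub_mem (hmem g) (Period.charInvolution_mem_parabolicHoms N ℂ ℂ (hmem g)))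

end Fermat.Agent.MF.Prim
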