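import Fermat.Agent.MF.PeriodInjective
import Fermat.Prelude.Def_ModularCurve_GenusNumerics
import Mathlib.LinearAlgebra.Dimension.Constructions

/-!
The range of `periodHomPair`, given the dimensions of the two sides.
-/

set_option autoImplicit false

noncomputable section

namespace Fermat.Agent.MF.Prim

open CongruenceSubgroup ModularCurve
open scoped MatrixGroups

variable (N : ℕ) [NeZero N]

theorem range_periodHomPair_eq [FiniteDimensional ℂ (Period.parabolicHoms ℂ (Gamma0 N) ℂ)]
    (h : Module.finrank ℂ (Period.parabolicHoms ℂ (Gamma0 N) ℂ) ≤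
      2 * Module.finrank ℂ (CuspForm (Gamma0 N) 2)) :
    LinearMap.range (periodHomPair N) = Period.parabolicHoms ℂ (Gamma0 N) ℂ := by
  set g := (periodHomPair N).codRestrict (Period.parabolicHoms ℂ (Gamma0 N) ℂ)
    fun x => range_periodHomPair_le N (LinearMap.mem_range_self _ x) with hg
  have hgi : Function.Injective g := fun x y hxy =>
    injective_periodHomPair N (congrArg Subtype.val hxy)
  have : FiniteDimensional ℂ (CuspForm (Gamma0 N) 2 × CuspForm (Gamma0 N) 2) :=
    Module.Finite.of_injective g hgi
  have : FiniteDimensional ℂ (CuspForm (Gamma0 N) 2) :=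
    Module.Finite.of_injective (g.comp (LinearMap.inl ℂ _ _)) (hgi.comp LinearMap.inl_injective)
  refine Submodule.eq_of_le_of_finrank_le (range_periodHomPair_le N) (h.trans ?_)
  rw [LinearMap.finrank_range_of_inj (injective_periodHomPair N), Module.finrank_prod, two_mul]

theorem periodHomPair_eichlerShimura_of_finrank
    (hfin : FiniteDimensional ℂ (Period.parabolicHoms ℂ (Gamma0 N) ℂ))
    (hH : (Module.finrank ℂ (Period.parabolicHoms ℂ (Gamma0 N) ℂ) : ℚ) = 2 * genusFormula N)
    (hS : (Module.finrank ℂ (CuspForm (Gamma0 N) 2) : ℚ) = genusFormula N) :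
    Function.Injective (periodHomPair N) ∧
      LinearMap.range (periodHomPair N) = Period.parabolicHoms ℂ (Gamma0 N) ℂ := by
  refine ⟨injective_periodHomPair N, range_periodHomPair_eq N (le_of_eq ?_)⟩
  rw [← hS] at hH
  exact_mod_cast hH

end Fermat.Agent.MF.Prim
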