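import Fermat.Agent.MF.Defs

/-!
# Functions of `q = exp(2 π i τ)` holomorphic on the disc
-/

noncomputable section

open UpperHalfPlane Function Filter
open scoped Manifold Topology

namespace Fermat.Agent.MF

local notation "𝕢" => Periodic.qParam

variable {f g : ℍ → ℂ}

lemma periodic_of_mem_qFunctions (hf : f ∈ qFunctions) :
    Periodic (f ∘ ofComplex) ((1 : ℝ) : ℂ) := by simpa using hf.1

lemma differentiableOn_cuspFunction_of_mem_qFunctions (hf : f ∈ qFunctions) :
    DifferentiableOn ℂ (cuspFunction 1 f) (Metric.ball 0 1) :=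
  differentiableOn_cuspFunction_ball one_pos (periodic_of_mem_qFunctions hf) hf.2.1 hf.2.2

lemma cuspFunction_qParam_of_mem_qFunctions (hf : f ∈ qFunctions) (τ : ℍ) :
    cuspFunction 1 f (𝕢 1 τ) = f τ :=
  eq_cuspFunction τ one_ne_zero (periodic_of_mem_qFunctions hf)

lemma hasSum_of_mem_qFunctions (hf : f ∈ qFunctions) (τ : ℍ) :
    HasSum (fun n : ℕ => (qExpansion 1 f).coeff n * 𝕢 1 τ ^ n) (f τ) := by
  simpa using hasSum_qExpansion one_pos (periodic_of_mem_qFunctions hf) hf.2.1 hf.2.2 τ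

lemma qExpansion_eq_of_hasSum (hf : f ∈ qFunctions) {c : ℕ → ℂ}
    (hs : ∀ τ : ℍ, HasSum (fun n : ℕ => c n * 𝕢 1 τ ^ n) (f τ)) :
    qExpansion 1 f = PowerSeries.mk c := by
  ext n
  rw [PowerSeries.coeff_mk]
  have hs' : ∀ τ : ℍ, HasSum (fun m : ℕ => c m • 𝕢 1 (τ : ℂ) ^ m) (f τ) := by
    intro τ; simpa only [smul_eq_mul] using hs τ
  have h1 :=
    (hasFPowerSeriesOnBall_cuspFunction one_pos (analyticAt_of_mem_qFunctions hf)
      hs').hasFPowerSeriesAt
  have h2 : HasFPowerSeriesAt (cuspFunction 1 f)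
      (FormalMultilinearSeries.ofScalars ℂ fun m => (qExpansion 1 f).coeff m) 0 :=
    (hasFPowerSeriesOnBall_cuspFunction one_pos (analyticAt_of_mem_qFunctions hf) (fun τ => by
      simpa only [smul_eq_mul] using hasSum_of_mem_qFunctions hf τ)).hasFPowerSeriesAt
  simpa using congrArg (FormalMultilinearSeries.coeff · n) (h2.eq_formalMultilinearSeries h1)

lemma qExpansion_pow_of_mem_qFunctions (hf : f ∈ qFunctions) (n : ℕ) :
    qExpansion 1 (f ^ n) = qExpansion 1 f ^ n := by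
  induction n with
  | zero => simp [UpperHalfPlane.qExpansion_one]
  | succ n ih =>
    rw [pow_succ, pow_succ, qExpansion_mul (analyticAt_of_mem_qFunctions (pow_mem hf n))
      (analyticAt_of_mem_qFunctions hf), ih]

lemma qL_pow (hf : f ∈ qFunctions) (n : ℕ) : qL (f ^ n) = qL f ^ n := by
  rw [qL, qExpansion_pow_of_mem_qFunctions hf, map_pow]; rfl

lemma qL_neg (hf : f ∈ qFunctions) : qL (-f) = -qL f := by
  rw [qL, qExpansion_neg (analyticAt_of_mem_qFunctions hf), map_neg]; rfl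

lemma qL_sub (hf : f ∈ qFunctions) (hg : g ∈ qFunctions) : qL (f - g) = qL f - qL g := by
  rw [sub_eq_add_neg, qL_add hf (neg_mem hg), qL_neg hg, sub_eq_add_neg]

section Disc

lemma norm_q_lt_one (τ : ℍ) : ‖𝕢 1 (τ : ℂ)‖ < 1 :=
  Periodic.norm_qParam_lt_one one_pos τ.im_pos

variable {F : ℂ → ℂ}

lemma hasSum_disc (hF : DifferentiableOn ℂ F (Metric.ball 0 1))
    (h : ∀ τ : ℍ, f τ = F (𝕢 1 τ)) (τ : ℍ) :
    HasSum (fun n : ℕ => ((n.factorial : ℂ)⁻¹ * iteratedDeriv n F 0) * 𝕢 1 τ ^ n) (f τ) := by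
  rw [h τ]
  refine (Complex.hasSum_taylorSeries_on_ball hF
    (z := 𝕢 1 (τ : ℂ)) (by simpa using norm_q_lt_one τ)).congr_fun fun n => ?_
  simp only [smul_eq_mul, sub_zero]
  ring

/-- A function given by a holomorphic function on the unit disc evaluated at q. -/
lemma mem_qFunctions_of_disc (hF : DifferentiableOn ℂ F (Metric.ball 0 1))
    (h : ∀ τ : ℍ, f τ = F (𝕢 1 τ)) : f ∈ qFunctions := by
  have hs : ∀ τ : ℍ, HasSum
      (fun n : ℕ => ((n.factorial : ℂ)⁻¹ * iteratedDeriv n F 0) • 𝕢 1 τ ^ n) (f τ) := fun τ => by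
    simpa only [smul_eq_mul] using hasSum_disc hF h τ
  refine ⟨fun z => ?_, ?_, isBoundedAtImInfty_of_hasSum_qExpansion one_pos hs⟩
  · by_cases hz : 0 < z.im
    · have hz1 : 0 < (z + 1).im := by simpa using hz
      simp only [comp_apply, ofComplex_apply_of_im_pos hz, ofComplex_apply_of_im_pos hz1, h]
      congr 1
      simp only [Periodic.qParam, Complex.ofReal_one, div_one]
      rw [mul_add, mul_one, Complex.exp_periodic]
    · have hz1 : (z + 1).im ≤ 0 := by simpa using hz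
      simp [comp_apply, ofComplex_apply_of_im_nonpos (not_lt.mp hz),
        ofComplex_apply_of_im_nonpos hz1]
  · rw [UpperHalfPlane.mdifferentiable_iff]
    intro z hz
    have hq : 𝕢 1 z ∈ Metric.ball (0 : ℂ) 1 := by simpa using norm_q_lt_one ⟨z, hz⟩
    have hd : DifferentiableAt ℂ (F ∘ 𝕢 1) z :=
      (hF.differentiableAt (Metric.isOpen_ball.mem_nhds hq)).comp z (by fun_prop)
    refine (hd.congr_of_eventuallyEq ?_).differentiableWithinAt
    filter_upwards [isOpen_upperHalfPlaneSet.mem_nhds hz] with w hw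
    simp [h, ofComplex_apply_of_im_pos hw]

lemma qExpansion_of_disc (hF : DifferentiableOn ℂ F (Metric.ball 0 1))
    (h : ∀ τ : ℍ, f τ = F (𝕢 1 τ)) :
    qExpansion 1 f = PowerSeries.mk fun n => (n.factorial : ℂ)⁻¹ * iteratedDeriv n F 0 :=
  qExpansion_eq_of_hasSum (mem_qFunctions_of_disc hF h) (hasSum_disc hF h)

end Disc

end Fermat.Agent.MF
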